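/-
Cluster E' (Mazur), S12 side.  E-V = Vélu quotient: DEFINITIONS and the exact target statements.
Architect of this file: helper60.  Owners of the proofs: see NOTES/blueprint-E-S12.md.

`k` any field; `W` a Weierstrass curve over `k`; `C` a set of points (in the applications: a finite
subgroup of odd order).  All sums are `finsum`s over the nonzero points of `C`.

  tQ := 6 x² + b₂ x + b₄,   uQ := 4 x³ + b₂ x² + 2 b₄ x + b₆    (x = x(Q))
  t  := (1/2) Σ tQ,   w := (1/2) Σ (uQ + x(Q) tQ)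
  veluCurve W C : a₁, a₂, a₃ unchanged, a₄' = a₄ − 5 t, a₆' = a₆ − b₂ t − 7 w
  veluX W C P = x(P) + Σ (x(P + Q) − x(Q)),   veluY W C P = y(P) + Σ (y(P + Q) − y(Q)).
-/
import Mathlib

set_option autoImplicit false

open WeierstrassCurve

namespace Fermat.Agent.EV

variable {k : Type*} [Field k] [DecidableEq k]

/-- The `x`-coordinate of a point (`0` at the origin). -/
def ptX {W : Affine k} : W.Point → k
  | .zero => 0
  | .some x _ _ => x

/-- The `y`-coordinate of a point (`0` at the origin). -/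
def ptY {W : Affine k} : W.Point → k
  | .zero => 0
  | .some _ y _ => y

/-- Vélu's `t_Q = 6 x² + b₂ x + b₄` (for a point `Q` not of order `2`). -/
def veluT (W : Affine k) (Q : W.Point) : k := 6 * ptX Q ^ 2 + W.b₂ * ptX Q + W.b₄

/-- Vélu's `u_Q = 4 x³ + b₂ x² + 2 b₄ x + b₆ = (2 y + a₁ x + a₃)²`. -/
def veluU (W : Affine k) (Q : W.Point) : k :=
  4 * ptX Q ^ 3 + W.b₂ * ptX Q ^ 2 + 2 * W.b₄ * ptX Q + W.b₆

/-- `t = (1/2) Σ_{Q ∈ C, Q ≠ 0} t_Q`. -/
noncomputable def veluSumT (W : Affine k) (C : Set W.Point) : k :=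
  (∑ᶠ (Q : W.Point) (_ : Q ∈ C ∧ Q ≠ 0), veluT W Q) / 2

/-- `w = (1/2) Σ_{Q ∈ C, Q ≠ 0} (u_Q + x_Q t_Q)`. -/
noncomputable def veluSumW (W : Affine k) (C : Set W.Point) : k :=
  (∑ᶠ (Q : W.Point) (_ : Q ∈ C ∧ Q ≠ 0), (veluU W Q + ptX Q * veluT W Q)) / 2

/-- The Vélu quotient curve. -/
noncomputable def veluCurve (W : Affine k) (C : Set W.Point) : Affine k :=
  { a₁ := W.a₁
    a₂ := W.a₂
    a₃ := W.a₃
    a₄ := W.a₄ - 5 * veluSumT W C
    a₆ := W.a₆ - W.b₂ * veluSumT W C - 7 * veluSumW W C }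

/-- Vélu's `X`-function. -/
noncomputable def veluX (W : Affine k) (C : Set W.Point) (P : W.Point) : k :=
  ptX P + ∑ᶠ (Q : W.Point) (_ : Q ∈ C ∧ Q ≠ 0), (ptX (P + Q) - ptX Q)

/-- Vélu's `Y`-function. -/
noncomputable def veluY (W : Affine k) (C : Set W.Point) (P : W.Point) : k :=
  ptY P + ∑ᶠ (Q : W.Point) (_ : Q ∈ C ∧ Q ≠ 0), (ptY (P + Q) - ptY Q)

/-- **(V1)** Vélu's theorem for `(W, C)`: the quotient curve is elliptic and `P ↦ (X(P), Y(P))` is a
surjective group homomorphism with kernel `C`. -/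
def VeluHom (W : Affine k) (C : AddSubgroup W.Point) : Prop :=
  (veluCurve W (C : Set W.Point)).Δ ≠ 0 ∧
    ∃ φ : W.Point →+ (veluCurve W (C : Set W.Point)).Point,
      Function.Surjective φ ∧ φ.ker = C ∧
        ∀ P : W.Point, P ∉ C → ∃ h, φ P = .some (veluX W (C : Set W.Point) P)
          (veluY W (C : Set W.Point) P) h

/-- **(V1) target** (owner: helper52 + helper51): Vélu's theorem over an algebraically closed field
of characteristic zero, for a finite subgroup of odd order. -/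
def VeluStatement : Prop :=
  ∀ (k : Type) [Field k] [DecidableEq k] [IsAlgClosed k] [CharZero k] (W : Affine k),
    W.Δ ≠ 0 → ∀ C : AddSubgroup W.Point, (C : Set W.Point).Finite → Odd (Nat.card C) → VeluHom W C

/-- **(V1x) target**: the explicit `x`-map.  For an affine point `P = (x, y)` outside `C`:
`X(P) = x + (1/2) Σ_{Q ∈ C, Q ≠ 0} (t_Q / (x − x_Q) + u_Q / (x − x_Q)²)`. -/
def VeluXFormula (W : Affine k) (C : AddSubgroup W.Point) : Prop :=
  ∀ (x y : k) (h : W.Nonsingular x y), (Affine.Point.some x y h : W.Point) ∉ C →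
    veluX W (C : Set W.Point) (.some x y h) =
      x + (∑ᶠ (Q : W.Point) (_ : Q ∈ (C : Set W.Point) ∧ Q ≠ 0),
        (veluT W Q / (x - ptX Q) + veluU W Q / (x - ptX Q) ^ 2)) / 2

end Fermat.Agent.EV
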