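/-
Cluster E' (Mazur), S12 side, seat VC (helper77): the invariants of the Vélu quotient curve and
their behaviour under a change of variables.

* `veluCurve_b₂`, `veluCurve_b₄`, `veluCurve_b₆`, `veluCurve_c₄`, `veluCurve_c₆`:
    `c₄' = c₄ + 240 t`,  `c₆' = c₆ + 504 b₂ t + 6048 w`;
* `vcFun_surjective`, `vcEquiv`: the point map of a change of variables is a bijection;
* `veluT_vc`, `veluU_vc`: `t_Q`, `u_Q` have weights `4`, `6`;
* `veluSumT_vc`: `t(W₁, C) = u⁴ t(W₂, C')`   (`C'` = preimage of `C`);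
* `veluSumW_vc`: `w(W₁, C) = u⁶ w(W₂, C') + r u⁴ t(W₂, C')`   (`C` finite);
* `veluCurve_variableChange`: `veluCurve W₂ C' = 𝒞 • veluCurve W₁ C`   (`W₂ = 𝒞 • W₁`, `C` finite);
* `veluCurve_c₄_vc`, `veluCurve_c₆_vc`, `veluCurve_Δ_vc`: weights `4`, `6`, `12`;
* `veluCurve_j_vc`: the `j`-invariant of the Vélu quotient is invariant under isomorphisms.
-/
import Mathlib
import Fermat.Agent.E.S12.VeluSpec
import Fermat.Agent.Lib.VarChange.Point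

set_option autoImplicit false
set_option linter.unusedSectionVars false

open WeierstrassCurve

namespace Fermat.Agent.EVC

open Fermat.Agent.EV Fermat.Agent.VarChange

variable {k : Type*} [Field k] [DecidableEq k]

/-! ### the invariants of the quotient curve -/

section invariants

variable (W : Affine k) (C : Set W.Point)

@[simp] theorem veluCurve_a₁ : (veluCurve W C).a₁ = W.a₁ := rfl
@[simp] theorem veluCurve_a₂ : (veluCurve W C).a₂ = W.a₂ := rfl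
@[simp] theorem veluCurve_a₃ : (veluCurve W C).a₃ = W.a₃ := rfl
theorem veluCurve_a₄ : (veluCurve W C).a₄ = W.a₄ - 5 * veluSumT W C := rfl
theorem veluCurve_a₆ :
    (veluCurve W C).a₆ = W.a₆ - W.b₂ * veluSumT W C - 7 * veluSumW W C := rfl

theorem veluCurve_b₂ : (veluCurve W C).b₂ = W.b₂ := rfl

theorem veluCurve_b₄ : (veluCurve W C).b₄ = W.b₄ - 10 * veluSumT W C := by
  simp only [WeierstrassCurve.b₄, veluCurve_a₁, veluCurve_a₃, veluCurve_a₄]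
  ring

theorem veluCurve_b₆ :
    (veluCurve W C).b₆ = W.b₆ - 4 * W.b₂ * veluSumT W C - 28 * veluSumW W C := by
  simp only [WeierstrassCurve.b₆, veluCurve_a₃, veluCurve_a₆]
  ring

/-- `c₄(W / C) = c₄(W) + 240 t`. -/
theorem veluCurve_c₄ : (veluCurve W C).c₄ = W.c₄ + 240 * veluSumT W C := by
  simp only [WeierstrassCurve.c₄, veluCurve_b₂, veluCurve_b₄]
  ring

/-- `c₆(W / C) = c₆(W) + 504 b₂ t + 6048 w`. -/
theorem veluCurve_c₆ :
    (veluCurve W C).c₆ = W.c₆ + 504 * W.b₂ * veluSumT W C + 6048 * veluSumW W C := by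
  simp only [WeierstrassCurve.c₆, veluCurve_b₂, veluCurve_b₄, veluCurve_b₆]
  ring

end invariants

/-! ### the point map of a change of variables is a bijection -/

section points

variable {W₁ W₂ : Affine k} (𝒞 : VariableChange k) (h : W₂ = 𝒞 • W₁)

theorem vcFun_surjective : Function.Surjective (vcFun 𝒞 h) := by
  subst h
  rintro (_ | ⟨x, y, hxy⟩)
  · exact ⟨0, rfl⟩
  · have hu := vc_u_ne_zero 𝒞
    have hx : vcX 𝒞 ((x - 𝒞.r) / (𝒞.u : k) ^ 2) = x := by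
      simp only [vcX]
      field_simp
      ring
    have hy : vcY 𝒞 ((x - 𝒞.r) / (𝒞.u : k) ^ 2)
        ((y - 𝒞.s * (x - 𝒞.r) - 𝒞.t) / (𝒞.u : k) ^ 3) = y := by
      simp only [vcY]
      field_simp
      ring
    have hns : (𝒞 • W₁).toAffine.Nonsingular ((x - 𝒞.r) / (𝒞.u : k) ^ 2)
        ((y - 𝒞.s * (x - 𝒞.r) - 𝒞.t) / (𝒞.u : k) ^ 3) := by
      rw [vc_nonsingular_iff, hx, hy]
      exact hxy
    refine ⟨.some _ _ hns, ?_⟩
    rw [vcFun_some]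
    simp only [Affine.Point.some.injEq]
    exact ⟨hx, hy⟩

theorem vcFun_bijective : Function.Bijective (vcFun 𝒞 h) :=
  ⟨vcFun_injective 𝒞 h, vcFun_surjective 𝒞 h⟩

theorem vcHom_surjective : Function.Surjective (vcHom 𝒞 h) := vcFun_surjective 𝒞 h

theorem vcHom_bijective : Function.Bijective (vcHom 𝒞 h) := vcFun_bijective 𝒞 h

/-- the isomorphism of the groups of points induced by a change of variables -/
noncomputable def vcEquiv : W₂.Point ≃+ W₁.Point :=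
  AddEquiv.ofBijective (vcHom 𝒞 h) (vcHom_bijective 𝒞 h)

@[simp] theorem vcEquiv_apply (P : W₂.Point) : vcEquiv 𝒞 h P = vcHom 𝒞 h P := rfl

theorem vcFun_eq_zero_iff (P : W₂.Point) : vcFun 𝒞 h P = 0 ↔ P = 0 := by
  constructor
  · intro hP
    exact vcFun_injective 𝒞 h (hP.trans (vcFun_zero 𝒞 h).symm)
  · rintro rfl
    rfl

theorem ptX_vcFun {P : W₂.Point} (hP : P ≠ 0) : ptX (vcFun 𝒞 h P) = vcX 𝒞 (ptX P) := by
  rcases P with _ | ⟨x, y, hxy⟩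
  · exact absurd rfl hP
  · rfl

theorem ptY_vcFun {P : W₂.Point} (hP : P ≠ 0) :
    ptY (vcFun 𝒞 h P) = vcY 𝒞 (ptX P) (ptY P) := by
  rcases P with _ | ⟨x, y, hxy⟩
  · exact absurd rfl hP
  · rfl

end points

/-! ### weights of `t_Q`, `u_Q` -/

section weights

variable {W₁ W₂ : Affine k} (𝒞 : VariableChange k) (h : W₂ = 𝒞 • W₁)

theorem veluT_vcX (x : k) :
    6 * vcX 𝒞 x ^ 2 + W₁.b₂ * vcX 𝒞 x + W₁.b₄
      = (𝒞.u : k) ^ 4 * (6 * x ^ 2 + (𝒞 • W₁).b₂ * x + (𝒞 • W₁).b₄) := by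
  have hu := vc_u_ne_zero 𝒞
  simp only [variableChange_b₂, variableChange_b₄, Units.val_inv_eq_inv_val, vcX]
  field_simp
  ring

theorem veluU_vcX (x : k) :
    4 * vcX 𝒞 x ^ 3 + W₁.b₂ * vcX 𝒞 x ^ 2 + 2 * W₁.b₄ * vcX 𝒞 x + W₁.b₆
      = (𝒞.u : k) ^ 6 * (4 * x ^ 3 + (𝒞 • W₁).b₂ * x ^ 2 + 2 * (𝒞 • W₁).b₄ * x
          + (𝒞 • W₁).b₆) := by
  have hu := vc_u_ne_zero 𝒞
  simp only [variableChange_b₂, variableChange_b₄, variableChange_b₆,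
    Units.val_inv_eq_inv_val, vcX]
  field_simp
  ring

/-- `t_Q` has weight `4`. -/
theorem veluT_vc {Q : W₂.Point} (hQ : Q ≠ 0) :
    veluT W₁ (vcHom 𝒞 h Q) = (𝒞.u : k) ^ 4 * veluT W₂ Q := by
  subst h
  unfold veluT
  rw [vcHom_apply, ptX_vcFun 𝒞 rfl hQ]
  exact veluT_vcX 𝒞 (ptX Q)

/-- `u_Q` has weight `6`. -/
theorem veluU_vc {Q : W₂.Point} (hQ : Q ≠ 0) :
    veluU W₁ (vcHom 𝒞 h Q) = (𝒞.u : k) ^ 6 * veluU W₂ Q := by
  subst h
  unfold veluU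
  rw [vcHom_apply, ptX_vcFun 𝒞 rfl hQ]
  exact veluU_vcX 𝒞 (ptX Q)

/-- `u_Q + x_Q t_Q` is of weight `6` up to the translation term `r t_Q`. -/
theorem veluW_vc {Q : W₂.Point} (hQ : Q ≠ 0) :
    veluU W₁ (vcHom 𝒞 h Q) + ptX (vcHom 𝒞 h Q) * veluT W₁ (vcHom 𝒞 h Q)
      = (𝒞.u : k) ^ 6 * (veluU W₂ Q + ptX Q * veluT W₂ Q)
        + 𝒞.r * (𝒞.u : k) ^ 4 * veluT W₂ Q := by
  rw [veluT_vc 𝒞 h hQ, veluU_vc 𝒞 h hQ, vcHom_apply, ptX_vcFun 𝒞 h hQ]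
  simp only [vcX]
  ring

end weights

/-! ### the sums -/

section sums

variable {W₁ W₂ : Affine k} (𝒞 : VariableChange k) (h : W₂ = 𝒞 • W₁) (C : Set W₁.Point)

/-- the nonzero points of `C` -/
def nz {W : Affine k} (C : Set W.Point) : Set W.Point := {Q | Q ∈ C ∧ Q ≠ 0}

theorem veluSumT_eq {W : Affine k} (C : Set W.Point) :
    veluSumT W C = (∑ᶠ Q ∈ nz C, veluT W Q) / 2 := rfl

theorem veluSumW_eq {W : Affine k} (C : Set W.Point) :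
    veluSumW W C = (∑ᶠ Q ∈ nz C, (veluU W Q + ptX Q * veluT W Q)) / 2 := rfl

theorem bijOn_nz : Set.BijOn (vcHom 𝒞 h) (nz ((vcHom 𝒞 h) ⁻¹' C)) (nz C) := by
  refine ⟨?_, (vcHom_injective 𝒞 h).injOn, ?_⟩
  · rintro Q ⟨hQC, hQ0⟩
    exact ⟨hQC, fun h0 => hQ0 ((vcFun_eq_zero_iff 𝒞 h Q).mp h0)⟩
  · rintro P ⟨hPC, hP0⟩
    obtain ⟨Q, rfl⟩ := vcHom_surjective 𝒞 h P
    exact ⟨Q, ⟨hPC, fun h0 => hP0 (by rw [h0, map_zero])⟩, rfl⟩

theorem finite_nz_preimage (hC : C.Finite) : (nz ((vcHom 𝒞 h) ⁻¹' C)).Finite :=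
  (hC.preimage (vcHom_injective 𝒞 h).injOn).subset fun _ hQ => hQ.1

/-- `t(W₁, C) = u⁴ t(W₂, C')`: the Vélu sum `t` has weight `4`. -/
theorem veluSumT_vc :
    veluSumT W₁ C = (𝒞.u : k) ^ 4 * veluSumT W₂ ((vcHom 𝒞 h) ⁻¹' C) := by
  rw [veluSumT_eq, veluSumT_eq, ← mul_div_assoc, mul_finsum_mem]
  congr 1
  symm
  refine finsum_mem_eq_of_bijOn (vcHom 𝒞 h) (bijOn_nz 𝒞 h C) ?_
  rintro Q ⟨-, hQ0⟩
  exact (veluT_vc 𝒞 h hQ0).symm

/-- `w(W₁, C) = u⁶ w(W₂, C') + r u⁴ t(W₂, C')`. -/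
theorem veluSumW_vc (hC : C.Finite) :
    veluSumW W₁ C = (𝒞.u : k) ^ 6 * veluSumW W₂ ((vcHom 𝒞 h) ⁻¹' C)
      + 𝒞.r * (𝒞.u : k) ^ 4 * veluSumT W₂ ((vcHom 𝒞 h) ⁻¹' C) := by
  have hfin := finite_nz_preimage 𝒞 h C hC
  have key : ∑ᶠ Q ∈ nz C, (veluU W₁ Q + ptX Q * veluT W₁ Q)
      = (𝒞.u : k) ^ 6 * ∑ᶠ Q ∈ nz ((vcHom 𝒞 h) ⁻¹' C), (veluU W₂ Q + ptX Q * veluT W₂ Q)
        + 𝒞.r * (𝒞.u : k) ^ 4 * ∑ᶠ Q ∈ nz ((vcHom 𝒞 h) ⁻¹' C), veluT W₂ Q := by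
    rw [mul_finsum_mem, mul_finsum_mem, ← finsum_mem_add_distrib hfin]
    symm
    refine finsum_mem_eq_of_bijOn (vcHom 𝒞 h) (bijOn_nz 𝒞 h C) ?_
    rintro Q ⟨-, hQ0⟩
    exact (veluW_vc 𝒞 h hQ0).symm
  rw [veluSumW_eq, veluSumW_eq, veluSumT_eq, key]
  ring

end sums

/-! ### the quotient curve commutes with changes of variables -/

section curve

variable {W₁ W₂ : Affine k} (𝒞 : VariableChange k) (h : W₂ = 𝒞 • W₁) (C : Set W₁.Point)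

/-- **The Vélu quotient commutes with changes of variables**: if `W₂ = 𝒞 • W₁` and `C'` is the
preimage of `C` under the point map `W₂ → W₁`, then `veluCurve W₂ C' = 𝒞 • veluCurve W₁ C`. -/
theorem veluCurve_variableChange (hC : C.Finite) :
    veluCurve W₂ ((vcHom 𝒞 h) ⁻¹' C) = 𝒞 • veluCurve W₁ C := by
  have hT := veluSumT_vc 𝒞 h C
  have hW := veluSumW_vc 𝒞 h C hC
  have hu := vc_u_ne_zero 𝒞
  have hT₂ : veluSumT W₂ ((vcHom 𝒞 h) ⁻¹' C) = ((𝒞.u : k) ^ 4)⁻¹ * veluSumT W₁ C := by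
    rw [hT]
    field_simp
  have hS₂ : veluSumW W₂ ((vcHom 𝒞 h) ⁻¹' C)
      = ((𝒞.u : k) ^ 6)⁻¹ * (veluSumW W₁ C - 𝒞.r * veluSumT W₁ C) := by
    rw [hW, hT]
    field_simp
    ring
  have h₄ : (veluCurve W₂ ((vcHom 𝒞 h) ⁻¹' C)).a₄ = (𝒞 • veluCurve W₁ C).a₄ := by
    rw [veluCurve_a₄, hT₂, h]
    simp only [variableChange_a₄, veluCurve_a₁, veluCurve_a₂, veluCurve_a₃, veluCurve_a₄,
      Units.val_inv_eq_inv_val]
    field_simp
    ring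
  have h₆ : (veluCurve W₂ ((vcHom 𝒞 h) ⁻¹' C)).a₆ = (𝒞 • veluCurve W₁ C).a₆ := by
    rw [veluCurve_a₆, hT₂, hS₂, h]
    simp only [variableChange_a₆, variableChange_b₂, veluCurve_a₁, veluCurve_a₂, veluCurve_a₃,
      veluCurve_a₄, veluCurve_a₆, Units.val_inv_eq_inv_val]
    field_simp
    ring
  have h₁ : (veluCurve W₂ ((vcHom 𝒞 h) ⁻¹' C)).a₁ = (𝒞 • veluCurve W₁ C).a₁ := by
    rw [veluCurve_a₁, h]
    rfl
  have h₂ : (veluCurve W₂ ((vcHom 𝒞 h) ⁻¹' C)).a₂ = (𝒞 • veluCurve W₁ C).a₂ := by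
    rw [veluCurve_a₂, h]
    rfl
  have h₃ : (veluCurve W₂ ((vcHom 𝒞 h) ⁻¹' C)).a₃ = (𝒞 • veluCurve W₁ C).a₃ := by
    rw [veluCurve_a₃, h]
    rfl
  exact WeierstrassCurve.ext h₁ h₂ h₃ h₄ h₆

/-- `c₄` of the Vélu quotient has weight `4`. -/
theorem veluCurve_c₄_vc (hC : C.Finite) :
    (veluCurve W₁ C).c₄ = (𝒞.u : k) ^ 4 * (veluCurve W₂ ((vcHom 𝒞 h) ⁻¹' C)).c₄ := by
  have hu := vc_u_ne_zero 𝒞
  rw [veluCurve_variableChange 𝒞 h C hC, variableChange_c₄, Units.val_inv_eq_inv_val]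
  field_simp

/-- `c₆` of the Vélu quotient has weight `6`. -/
theorem veluCurve_c₆_vc (hC : C.Finite) :
    (veluCurve W₁ C).c₆ = (𝒞.u : k) ^ 6 * (veluCurve W₂ ((vcHom 𝒞 h) ⁻¹' C)).c₆ := by
  have hu := vc_u_ne_zero 𝒞
  rw [veluCurve_variableChange 𝒞 h C hC, variableChange_c₆, Units.val_inv_eq_inv_val]
  field_simp

/-- `Δ` of the Vélu quotient has weight `12`. -/
theorem veluCurve_Δ_vc (hC : C.Finite) :
    (veluCurve W₁ C).Δ = (𝒞.u : k) ^ 12 * (veluCurve W₂ ((vcHom 𝒞 h) ⁻¹' C)).Δ := by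
  have hu := vc_u_ne_zero 𝒞
  rw [veluCurve_variableChange 𝒞 h C hC, variableChange_Δ, Units.val_inv_eq_inv_val]
  field_simp

/-- the quotient of `W₂` is elliptic iff the quotient of `W₁` is -/
theorem veluCurve_Δ_ne_zero_iff_vc (hC : C.Finite) :
    (veluCurve W₂ ((vcHom 𝒞 h) ⁻¹' C)).Δ ≠ 0 ↔ (veluCurve W₁ C).Δ ≠ 0 := by
  have hu := vc_u_ne_zero 𝒞
  rw [veluCurve_Δ_vc 𝒞 h C hC]
  constructor
  · intro h0
    exact mul_ne_zero (pow_ne_zero 12 hu) h0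
  · intro h0 h1
    exact h0 (by rw [h1, mul_zero])

/-- **the `j`-invariant of the Vélu quotient is invariant under isomorphisms**, in the
cross-multiplied form `c₄(W₁/C)³ Δ(W₂/C') = c₄(W₂/C')³ Δ(W₁/C)` (no ellipticity needed). -/
theorem veluCurve_j_cross_vc (hC : C.Finite) :
    (veluCurve W₁ C).c₄ ^ 3 * (veluCurve W₂ ((vcHom 𝒞 h) ⁻¹' C)).Δ
      = (veluCurve W₂ ((vcHom 𝒞 h) ⁻¹' C)).c₄ ^ 3 * (veluCurve W₁ C).Δ := by
  rw [veluCurve_c₄_vc 𝒞 h C hC, veluCurve_Δ_vc 𝒞 h C hC]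
  ring

/-- **the `j`-invariant of the Vélu quotient is invariant under isomorphisms**. -/
theorem veluCurve_j_vc (hC : C.Finite) [(veluCurve W₁ C).IsElliptic]
    [(veluCurve W₂ ((vcHom 𝒞 h) ⁻¹' C)).IsElliptic] :
    (veluCurve W₂ ((vcHom 𝒞 h) ⁻¹' C)).j = (veluCurve W₁ C).j := by
  have h1 := veluCurve_variableChange 𝒞 h C hC
  have key : ∀ (V V' : WeierstrassCurve k) [V.IsElliptic] [V'.IsElliptic], V = V' →
      V.j = V'.j := by
    intro V V' _ _ hVV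
    subst hVV
    rfl
  rw [key _ _ h1, variableChange_j]

/-! ### subgroups -/

/-- the preimage of a subgroup, as a set, is the carrier of the `comap` -/
theorem preimage_coe_eq_comap (H : AddSubgroup W₁.Point) :
    (vcHom 𝒞 h) ⁻¹' (H : Set W₁.Point) = (H.comap (vcHom 𝒞 h) : Set W₂.Point) := rfl

/-- the preimage of the cyclic subgroup generated by the image of `Q'` is the cyclic subgroup
generated by `Q'` -/
theorem preimage_zmultiples_apply (Q' : W₂.Point) :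
    (vcHom 𝒞 h) ⁻¹' (AddSubgroup.zmultiples (vcHom 𝒞 h Q') : Set W₁.Point)
      = (AddSubgroup.zmultiples Q' : Set W₂.Point) := by
  ext P
  simp only [Set.mem_preimage, SetLike.mem_coe, AddSubgroup.mem_zmultiples_iff]
  constructor
  · rintro ⟨n, hn⟩
    refine ⟨n, vcHom_injective 𝒞 h ?_⟩
    rw [map_zsmul]
    exact hn
  · rintro ⟨n, rfl⟩
    exact ⟨n, (map_zsmul _ _ _).symm⟩

/-- the preimage of the cyclic subgroup generated by `Q` is the cyclic subgroup generated by the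
preimage of `Q` -/
theorem preimage_zmultiples (Q : W₁.Point) :
    (vcHom 𝒞 h) ⁻¹' (AddSubgroup.zmultiples Q : Set W₁.Point)
      = (AddSubgroup.zmultiples ((vcEquiv 𝒞 h).symm Q) : Set W₂.Point) := by
  have hQ : vcHom 𝒞 h ((vcEquiv 𝒞 h).symm Q) = Q := (vcEquiv 𝒞 h).apply_symm_apply Q
  rw [← preimage_zmultiples_apply 𝒞 h ((vcEquiv 𝒞 h).symm Q), hQ]

theorem addOrderOf_vcHom (Q' : W₂.Point) : addOrderOf (vcHom 𝒞 h Q') = addOrderOf Q' :=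
  addOrderOf_injective (vcHom 𝒞 h) (vcHom_injective 𝒞 h) Q'

end curve

end Fermat.Agent.EVC
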