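import Mathlib
import Fermat.Prelude.Def_EllipticCurve_ZeroComponentAt
import Fermat.Agent.Lib.MultRed.DecompQbar
import Fermat.Agent.Lib.MultRed.NotInG1

/-!
# E' / S12: the Prelude's zero component and the `MultRed` library (helper75)

* `inZeroComponentAt_iff_inE0v`: the Prelude predicate `W.InZeroComponentAt A P` is the valuation
  predicate `MultRed.InE0v A P`.
* `not_inZeroComponentAt_of_fixed_at_p` (**L2, case `ℓ = p`**): a nonzero rational point of odd prime
  order `p` is not in the zero component at a place over `p` of multiplicative reduction.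
-/

set_option autoImplicit false
set_option linter.unusedSectionVars false

open WeierstrassCurve WeierstrassCurve.Affine

namespace Fermat.Agent.ES12

open S05H5 S05H65 S05H75 Fermat.Agent.MultRed Fermat.Agent.EllRed IsLocalRing

variable (W : WeierstrassCurve ℤ) [DecidableEq (AlgebraicClosure ℚ)]
  (A : ValuationSubring (AlgebraicClosure ℚ))

/-- the reduced cubic of the base change of an integral model is the base change of the model
to the residue field -/
theorem redCurve_map_int :
    redCurve A ((W.map (Int.castRingHom ℚ))⁄(AlgebraicClosure ℚ)).toAffine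
      = (W.map (Int.castRingHom (ResidueField A))).toAffine := by
  have key : ∀ n : ℤ, res A (algebraMap ℚ (AlgebraicClosure ℚ) ((Int.castRingHom ℚ) n))
      = (Int.castRingHom (ResidueField A)) n := by
    intro n
    rw [Fermat.Agent.EllRed.algebraMap_intCast_rat, res_intCast]
    simp
  apply WeierstrassCurve.ext
  · exact key W.a₁
  · exact key W.a₂
  · exact key W.a₃
  · exact key W.a₄
  · exact key W.a₆

/-- **Bridge**: the Prelude's zero component is `MultRed.InE0v`. -/
theorem inZeroComponentAt_iff_inE0v
    (P : ((W.map (Int.castRingHom ℚ))⁄(AlgebraicClosure ℚ)).Point) :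
    W.InZeroComponentAt A P ↔ InE0v A P := by
  have hint := intCoeff_map_int W A
  constructor
  · rintro (rfl | ⟨x, y, h, rfl, hx | ⟨hx, hy, hns⟩⟩)
    · exact inE0v_zero
    · left
      right
      show 1 < A.valuation x
      by_contra hle
      rw [not_lt] at hle
      exact hx ((A.valuation_le_one_iff x).mp hle)
    · right
      refine ⟨x, y, h, rfl, hx, ?_⟩
      rw [← nonsingular_res_iff hint h.1 hx, redCurve_map_int, res_of_mem hx, res_of_mem hy]
      exact hns
  · rintro ((h0 | hlt) | ⟨x, y, h, rfl, hx, hns⟩)
    · exact Or.inl h0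
    · rcases P with _ | ⟨x, y, h⟩
      · exact Or.inl rfl
      · right
        refine ⟨x, y, h, rfl, Or.inl ?_⟩
        intro hx
        have : A.valuation x ≤ 1 := (A.valuation_le_one_iff x).mpr hx
        exact absurd hlt (not_lt.mpr this)
    · right
      have hy : y ∈ A := (isReduction_redCurve hint).mem_y h.1 hx
      refine ⟨x, y, h, rfl, Or.inr ⟨hx, hy, ?_⟩⟩
      have := (nonsingular_res_iff hint h.1 hx).mpr hns
      rw [redCurve_map_int, res_of_mem hx, res_of_mem hy] at this
      exact this

/-- the zero component is a subgroup: closed under addition -/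
theorem inZeroComponentAt_add {P Q : ((W.map (Int.castRingHom ℚ))⁄(AlgebraicClosure ℚ)).Point}
    (hP : W.InZeroComponentAt A P) (hQ : W.InZeroComponentAt A Q) :
    W.InZeroComponentAt A (P + Q) := by
  rw [inZeroComponentAt_iff_inE0v] at hP hQ ⊢
  exact inE0v_add (intCoeff_map_int W A) hP hQ

/-- the zero component is a subgroup: closed under negation -/
theorem inZeroComponentAt_neg {P : ((W.map (Int.castRingHom ℚ))⁄(AlgebraicClosure ℚ)).Point}
    (hP : W.InZeroComponentAt A P) : W.InZeroComponentAt A (-P) := by
  rw [inZeroComponentAt_iff_inE0v] at hP ⊢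
  exact inE0v_neg (intCoeff_map_int W A) hP

/-- the zero component is a subgroup: closed under multiples -/
theorem inZeroComponentAt_nsmul {P : ((W.map (Int.castRingHom ℚ))⁄(AlgebraicClosure ℚ)).Point}
    (hP : W.InZeroComponentAt A P) (n : ℕ) : W.InZeroComponentAt A (n • P) := by
  rw [inZeroComponentAt_iff_inE0v] at hP ⊢
  induction n with
  | zero => rw [zero_nsmul]; exact inE0v_zero
  | succ n ih => rw [succ_nsmul]; exact inE0v_add (intCoeff_map_int W A) ih hP

/-- the kernel of reduction lies in the zero component -/
theorem inZeroComponentAt_of_inG1 {P : ((W.map (Int.castRingHom ℚ))⁄(AlgebraicClosure ℚ)).Point}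
    (hP : InG1 A.valuation P) : W.InZeroComponentAt A P := by
  rw [inZeroComponentAt_iff_inE0v]
  exact Or.inl hP

end Fermat.Agent.ES12
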