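import Mathlib
import Fermat.Agent.E.S12.ZeroComp
import Fermat.Agent.E.P.Rational
import Fermat.Agent.E.P.Inertia
import Fermat.Agent.E.S12.Leaves
import Fermat.Agent.Lib.Frobenius.Exists

/-!
# E' / S12, seat L2 (+ G3): a rational point of prime order `p` misses the zero component at small
primes and at `p` (helper75)

`W / ℤ` any integral model, `Q ≠ 0` a `G_ℚ`-fixed point of `E(Q̄)` with `p • Q = 0`.

* `not_inZeroComponentAt_of_fixed_small`: if `ℓ ^ 2 + 1 < p` (e.g. `ℓ = 2, 3`, `p ≥ 11`), then `Q`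
  is not in the zero component at any place over `ℓ` (the multiples of `Q` would reduce to `p - 1`
  distinct points with coordinates in `𝔽_ℓ`).  No hypothesis on the reduction type.
* `dvd_Δ_of_fixed_small` (**G3**): consequently `ℓ ∣ Δ`.
* `not_inZeroComponentAt_of_fixed_at_p`: multiplicative reduction at the odd prime `p`:
  `Q` is not in the zero component at any place over `p`.
-/

set_option autoImplicit false
set_option linter.unusedSectionVars false

open WeierstrassCurve WeierstrassCurve.Affine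

namespace Fermat.Agent.ES12

open S05H5 S05H65 S05H75 Fermat.Agent.MultRed Fermat.Agent.EllRed Fermat.Agent.EP

section Res

variable (A : ValuationSubring (AlgebraicClosure ℚ)) (ℓ : ℕ)

/-- a representative in `{0, …, ℓ - 1}` of the residue class of `x` (junk value `0`) -/
noncomputable def natRes (x : AlgebraicClosure ℚ) : ℕ :=
  open Classical in
  if h : ∃ n : ℕ, n < ℓ ∧ A.valuation (x - n) < 1 then Classical.choose h else 0

variable {A ℓ}

theorem natRes_spec_of_exists {x : AlgebraicClosure ℚ}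
    (h : ∃ n : ℕ, n < ℓ ∧ A.valuation (x - n) < 1) :
    natRes A ℓ x < ℓ ∧ A.valuation (x - natRes A ℓ x) < 1 := by
  unfold natRes
  rw [dif_pos h]
  exact Classical.choose_spec h

/-- an `ℓ`-integral rational number is congruent to some `n < ℓ` -/
theorem exists_nat_res [Fact ℓ.Prime] (hA : A.LiesOverPrime ℓ) (r : ℚ)
    (hr : (r : AlgebraicClosure ℚ) ∈ A) :
    ∃ n : ℕ, n < ℓ ∧ A.valuation ((r : AlgebraicClosure ℚ) - n) < 1 := by
  have hℓ : ℓ.Prime := Fact.out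
  have hvℓ : A.valuation ((ℓ : ℕ) : AlgebraicClosure ℚ) < 1 := A.mem_nonunits_iff.mp hA
  have hrv : A.valuation (r : AlgebraicClosure ℚ) ≤ 1 := (A.valuation_le_one_iff _).mpr hr
  have hden0 : ((r.den : ℤ) : AlgebraicClosure ℚ) ≠ 0 := by
    exact_mod_cast r.den_ne_zero
  have hcast : (r : AlgebraicClosure ℚ) * ((r.den : ℤ) : AlgebraicClosure ℚ)
      = ((r.num : ℤ) : AlgebraicClosure ℚ) := by
    have h1 : (r : ℚ) * (r.den : ℚ) = (r.num : ℚ) := Rat.mul_den_eq_num r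
    exact_mod_cast h1
  -- `ℓ` does not divide the denominator
  have hden : ¬ (ℓ : ℤ) ∣ (r.den : ℤ) := by
    intro hd
    have hnum : ¬ (ℓ : ℤ) ∣ r.num := by
      intro hn
      have h1 : ℓ ∣ r.num.natAbs := Int.natCast_dvd.mp hn
      have h2 : ℓ ∣ r.den := Int.natCast_dvd_natCast.mp hd
      have h3 := Nat.dvd_gcd h1 h2
      rw [r.reduced] at h3
      exact hℓ.one_lt.ne' (Nat.dvd_one.mp h3)
    have hv1 : A.valuation ((r.num : ℤ) : AlgebraicClosure ℚ) = 1 :=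
      v_intCast_eq_one A.valuation hℓ hvℓ hnum
    have hv2 : A.valuation ((r.den : ℤ) : AlgebraicClosure ℚ) < 1 :=
      v_intCast_lt_one A.valuation hvℓ hd
    have := congrArg A.valuation hcast
    rw [map_mul, hv1] at this
    have hlt : A.valuation (r : AlgebraicClosure ℚ) * A.valuation ((r.den : ℤ) : AlgebraicClosure ℚ)
        < 1 := by
      calc A.valuation (r : AlgebraicClosure ℚ) * A.valuation ((r.den : ℤ) : AlgebraicClosure ℚ)
          ≤ 1 * A.valuation ((r.den : ℤ) : AlgebraicClosure ℚ) := mul_le_mul' hrv le_rfl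
        _ = A.valuation ((r.den : ℤ) : AlgebraicClosure ℚ) := one_mul _
        _ < 1 := hv2
    rw [this] at hlt
    exact lt_irrefl _ hlt
  have hvden : A.valuation ((r.den : ℤ) : AlgebraicClosure ℚ) = 1 :=
    v_intCast_eq_one A.valuation hℓ hvℓ hden
  -- the class of `num / den` modulo `ℓ`
  have hdenz : ((r.den : ℕ) : ZMod ℓ) ≠ 0 := by
    intro h0
    apply hden
    rw [← ZMod.intCast_zmod_eq_zero_iff_dvd]
    exact_mod_cast h0
  refine ⟨(((r.num : ℤ) : ZMod ℓ) * ((r.den : ℕ) : ZMod ℓ)⁻¹).val, ZMod.val_lt _, ?_⟩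
  set n : ℕ := (((r.num : ℤ) : ZMod ℓ) * ((r.den : ℕ) : ZMod ℓ)⁻¹).val with hn
  have hdvd : (ℓ : ℤ) ∣ r.num - (n : ℤ) * (r.den : ℤ) := by
    rw [← ZMod.intCast_zmod_eq_zero_iff_dvd]
    push_cast
    rw [hn, ZMod.natCast_val, ZMod.cast_id', id, mul_assoc, inv_mul_cancel₀ hdenz, mul_one,
      sub_self]
  have hv3 : A.valuation (((r.num - (n : ℤ) * (r.den : ℤ) : ℤ)) : AlgebraicClosure ℚ) < 1 :=
    v_intCast_lt_one A.valuation hvℓ hdvd
  have e : ((r : AlgebraicClosure ℚ) - n) * ((r.den : ℤ) : AlgebraicClosure ℚ)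
      = (((r.num - (n : ℤ) * (r.den : ℤ) : ℤ)) : AlgebraicClosure ℚ) := by
    rw [sub_mul, hcast]
    push_cast
    ring
  have := congrArg A.valuation e
  rw [map_mul, hvden, mul_one] at this
  rw [this]
  exact hv3

theorem natRes_spec [Fact ℓ.Prime] (hA : A.LiesOverPrime ℓ) (r : ℚ)
    (hr : (r : AlgebraicClosure ℚ) ∈ A) :
    natRes A ℓ (r : AlgebraicClosure ℚ) < ℓ ∧
      A.valuation ((r : AlgebraicClosure ℚ) - natRes A ℓ (r : AlgebraicClosure ℚ)) < 1 :=
  natRes_spec_of_exists (exists_nat_res hA r hr)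

end Res

section Points

variable (W : WeierstrassCurve ℤ) [DecidableEq (AlgebraicClosure ℚ)]
  (A : ValuationSubring (AlgebraicClosure ℚ))

/-- the `y`-coordinate (junk value `0` at the origin) -/
noncomputable def pyc :
    ((W.map (Int.castRingHom ℚ))⁄(AlgebraicClosure ℚ)).Point → AlgebraicClosure ℚ
  | .zero => 0
  | .some _ y _ => y

variable {W}

/-- the multiples of a rational point are rational -/
theorem fixed_nsmul {Q : ((W.map (Int.castRingHom ℚ))⁄(AlgebraicClosure ℚ)).Point}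
    (hfix : ∀ σ : AlgebraicClosure ℚ ≃ₐ[ℚ] AlgebraicClosure ℚ, σ • Q = Q) (j : ℕ)
    (σ : AlgebraicClosure ℚ ≃ₐ[ℚ] AlgebraicClosure ℚ) : σ • (j • Q) = j • Q := by
  rw [← smul_comm j σ Q, hfix σ]

/-- a nonzero fixed point has rational coordinates -/
theorem exists_rat_coords {P : ((W.map (Int.castRingHom ℚ))⁄(AlgebraicClosure ℚ)).Point}
    (hfix : ∀ σ : AlgebraicClosure ℚ ≃ₐ[ℚ] AlgebraicClosure ℚ, σ • P = P) {x y : AlgebraicClosure ℚ}
    {h : ((W.map (Int.castRingHom ℚ))⁄(AlgebraicClosure ℚ)).toAffine.Nonsingular x y}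
    (hP : P = .some x y h) :
    ∃ rx ry : ℚ, (rx : AlgebraicClosure ℚ) = x ∧ (ry : AlgebraicClosure ℚ) = y := by
  subst hP
  have hσ : ∀ σ : AlgebraicClosure ℚ ≃ₐ[ℚ] AlgebraicClosure ℚ, σ x = x ∧ σ y = y := by
    intro σ
    have h1 := hfix σ
    rw [Point.algEquiv_smul_def, Point.map_some] at h1
    simpa using h1
  obtain ⟨rx, hrx⟩ := exists_ratCast_of_fixed x (fun σ => (hσ σ).1)
  obtain ⟨ry, hry⟩ := exists_ratCast_of_fixed y (fun σ => (hσ σ).2)
  exact ⟨rx, ry, hrx, hry⟩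

variable (W)

/-- **L2 (small primes)**: a nonzero rational point of prime order `p > ℓ² + 1` is not in the
zero component at a place over `ℓ`. -/
theorem not_inZeroComponentAt_of_fixed_small {p ℓ : ℕ} [Fact p.Prime] [Fact ℓ.Prime]
    (hℓp : ℓ ^ 2 + 1 < p) (hA : A.LiesOverPrime ℓ)
    {Q : ((W.map (Int.castRingHom ℚ))⁄(AlgebraicClosure ℚ)).Point} (hQ0 : Q ≠ 0)
    (hpQ : p • Q = 0)
    (hfix : ∀ σ : AlgebraicClosure ℚ ≃ₐ[ℚ] AlgebraicClosure ℚ, σ • Q = Q) :
    ¬ W.InZeroComponentAt A Q := by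
  intro hE0
  have hp : p.Prime := Fact.out
  have hℓ : ℓ.Prime := Fact.out
  have hint := intCoeff_map_int W A
  have ha₁ := (A.valuation_le_one_iff _).mpr hint.mem_a₁
  have ha₂ := (A.valuation_le_one_iff _).mpr hint.mem_a₂
  have ha₃ := (A.valuation_le_one_iff _).mpr hint.mem_a₃
  have ha₄ := (A.valuation_le_one_iff _).mpr hint.mem_a₄
  have ha₆ := (A.valuation_le_one_iff _).mpr hint.mem_a₆
  obtain ⟨hb₂, hb₄, hb₆, hb₈⟩ := v_b_le_one A.valuation
    ((W.map (Int.castRingHom ℚ))⁄(AlgebraicClosure ℚ)).toAffine ha₁ ha₂ ha₃ ha₄ ha₆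
  have hℓlt : ℓ < p := by
    have : ℓ ≤ ℓ ^ 2 := by nlinarith [hℓ.one_le]
    omega
  have hunit : A.valuation ((p : ℕ) : AlgebraicClosure ℚ) = 1 := by
    apply valuation_natCast_eq_one hℓ hA
    intro hd
    have := (Nat.prime_dvd_prime_iff_eq hℓ hp).mp hd
    omega
  have hord : addOrderOf Q = p := addOrderOf_eq_prime hpQ hQ0
  -- the data of the multiples
  have hdata : ∀ j : ℕ, ¬ p ∣ j → ∃ (x y : AlgebraicClosure ℚ)
      (h : ((W.map (Int.castRingHom ℚ))⁄(AlgebraicClosure ℚ)).toAffine.Nonsingular x y)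
      (rx ry : ℚ), j • Q = .some x y h ∧ x ∈ A ∧ y ∈ A ∧
        NsVal A ((W.map (Int.castRingHom ℚ))⁄(AlgebraicClosure ℚ)).toAffine x y ∧
        (rx : AlgebraicClosure ℚ) = x ∧ (ry : AlgebraicClosure ℚ) = y := by
    intro j hj
    have hj0 : j • Q ≠ 0 := by
      intro h0
      apply hj
      rw [← hord]
      exact addOrderOf_dvd_of_nsmul_eq_zero h0
    have hE := (inZeroComponentAt_iff_inE0v W A _).mp (inZeroComponentAt_nsmul W A hE0 j)
    rcases hE with hG | ⟨x, y, h, hP, hx, hns⟩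
    · exfalso
      apply hj0
      refine inG1_torsion_free A.valuation hb₂ hb₄ hb₆ hb₈ hunit hG ?_
      rw [smul_comm p j Q, hpQ, nsmul_zero]
    · obtain ⟨rx, ry, hrx, hry⟩ := exists_rat_coords (fixed_nsmul hfix j) hP
      exact ⟨x, y, h, rx, ry, hP, hx, (isReduction_redCurve hint).mem_y h.1 hx, hns, hrx, hry⟩
  -- pigeonhole on the residues of the coordinates
  let f : ℕ → ℕ × ℕ := fun j => (natRes A ℓ (px (j • Q)), natRes A ℓ (pyc W (j • Q)))
  have hmaps : ∀ j ∈ Finset.Icc 1 (p - 1), f j ∈ (Finset.range ℓ) ×ˢ (Finset.range ℓ) := by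
    intro j hj
    rw [Finset.mem_Icc] at hj
    have hjp : ¬ p ∣ j := fun hd => by
      have := Nat.le_of_dvd (by omega) hd
      omega
    obtain ⟨x, y, h, rx, ry, hP, hx, hy, -, hrx, hry⟩ := hdata j hjp
    simp only [f, Finset.mem_product, Finset.mem_range, hP, px_some, pyc]
    constructor
    · rw [← hrx]; rw [← hrx] at hx; exact (natRes_spec hA rx hx).1
    · rw [← hry]; rw [← hry] at hy; exact (natRes_spec hA ry hy).1
  have hcard : ((Finset.range ℓ) ×ˢ (Finset.range ℓ)).card < (Finset.Icc 1 (p - 1)).card := by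
    rw [Finset.card_product, Finset.card_range, Nat.card_Icc]
    have : ℓ * ℓ = ℓ ^ 2 := (pow_two ℓ).symm
    omega
  obtain ⟨i, hi, j, hj, hij, hfij⟩ := Finset.exists_ne_map_eq_of_card_lt_of_maps_to hcard hmaps
  rw [Finset.mem_Icc] at hi hj
  have hip : ¬ p ∣ i := fun hd => by
    have := Nat.le_of_dvd (by omega) hd
    omega
  have hjp : ¬ p ∣ j := fun hd => by
    have := Nat.le_of_dvd (by omega) hd
    omega
  obtain ⟨x₁, y₁, h₁, rx₁, ry₁, hP₁, hx₁, hy₁, hns₁, hrx₁, hry₁⟩ := hdata i hip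
  obtain ⟨x₂, y₂, h₂, rx₂, ry₂, hP₂, hx₂, hy₂, -, hrx₂, hry₂⟩ := hdata j hjp
  simp only [f, hP₁, hP₂, px_some, pyc, Prod.mk.injEq] at hfij
  obtain ⟨hfx, hfy⟩ := hfij
  have hxx : A.valuation (x₁ - x₂) < 1 := by
    have e1 := (natRes_spec hA rx₁ (hrx₁ ▸ hx₁)).2
    have e2 := (natRes_spec hA rx₂ (hrx₂ ▸ hx₂)).2
    rw [hrx₁] at e1
    rw [hrx₂, ← hfx] at e2
    have : x₁ - x₂ = (x₁ - (natRes A ℓ x₁ : AlgebraicClosure ℚ))
        - (x₂ - (natRes A ℓ x₁ : AlgebraicClosure ℚ)) := by ring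
    rw [this]
    exact Valuation.map_sub_lt _ e1 e2
  have hyy : A.valuation (y₁ - y₂) < 1 := by
    have e1 := (natRes_spec hA ry₁ (hry₁ ▸ hy₁)).2
    have e2 := (natRes_spec hA ry₂ (hry₂ ▸ hy₂)).2
    rw [hry₁] at e1
    rw [hry₂, ← hfy] at e2
    have : y₁ - y₂ = (y₁ - (natRes A ℓ y₁ : AlgebraicClosure ℚ))
        - (y₂ - (natRes A ℓ y₁ : AlgebraicClosure ℚ)) := by ring
    rw [this]
    exact Valuation.map_sub_lt _ e1 e2
  have hG : InG1 A.valuation (i • Q - j • Q) := by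
    rw [hP₁, hP₂]
    exact sub_eq_zero_or_one_lt_v_px A.valuation
      ((W.map (Int.castRingHom ℚ))⁄(AlgebraicClosure ℚ)).toAffine ha₁ ha₂ h₁ h₂
      ((A.valuation_le_one_iff _).mpr hx₁) ((A.valuation_le_one_iff _).mpr hx₂) hxx hyy hns₁
  have h0 : i • Q - j • Q = 0 := by
    refine inG1_torsion_free A.valuation hb₂ hb₄ hb₆ hb₈ hunit hG ?_
    rw [nsmul_sub, smul_comm p i Q, smul_comm p j Q, hpQ, nsmul_zero, nsmul_zero, sub_zero]
  have heq : i • Q = j • Q := sub_eq_zero.mp h0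
  -- `i ≡ j mod p`
  have hmod : i ≡ j [MOD p] := by
    rw [← hord]
    exact (nsmul_eq_nsmul_iff_modEq).mp heq
  have := Nat.ModEq.eq_of_lt_of_lt hmod (by omega) (by omega)
  exact hij this

/-- at a prime of good reduction every point is in the zero component -/
theorem inZeroComponentAt_of_good {ℓ : ℕ} [Fact ℓ.Prime] (hA : A.LiesOverPrime ℓ)
    (hΔ : ¬ (ℓ : ℤ) ∣ W.Δ) (P : ((W.map (Int.castRingHom ℚ))⁄(AlgebraicClosure ℚ)).Point) :
    W.InZeroComponentAt A P := by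
  rw [inZeroComponentAt_iff_inE0v]
  have hint := intCoeff_map_int W A
  have hΔ1 := val_Δ_eq_one_of_good W A hA hΔ
  rcases P with _ | ⟨x, y, h⟩
  · exact inE0v_zero
  · by_cases hx : A.valuation x ≤ 1
    · right
      refine ⟨x, y, h, rfl, (A.valuation_le_one_iff x).mp hx, ?_⟩
      rintro ⟨h1, h2⟩
      have := v_Δ_lt_one_of_singular A.valuation
        ((W.map (Int.castRingHom ℚ))⁄(AlgebraicClosure ℚ)).toAffine
        ((A.valuation_le_one_iff _).mpr hint.mem_a₁) ((A.valuation_le_one_iff _).mpr hint.mem_a₂)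
        h.1 hx h1 h2
      rw [hΔ1] at this
      exact lt_irrefl _ this
    · left
      right
      exact not_le.mp hx

/-- **G3**: if `E(ℚ)` has a point of prime order `p > ℓ² + 1`, then `ℓ` is a bad prime. -/
theorem dvd_Δ_of_fixed_small {p ℓ : ℕ} [Fact p.Prime] [Fact ℓ.Prime]
    (hℓp : ℓ ^ 2 + 1 < p) (hA : A.LiesOverPrime ℓ)
    {Q : ((W.map (Int.castRingHom ℚ))⁄(AlgebraicClosure ℚ)).Point} (hQ0 : Q ≠ 0)
    (hpQ : p • Q = 0)
    (hfix : ∀ σ : AlgebraicClosure ℚ ≃ₐ[ℚ] AlgebraicClosure ℚ, σ • Q = Q) :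
    (ℓ : ℤ) ∣ W.Δ := by
  by_contra hΔ
  exact not_inZeroComponentAt_of_fixed_small W A hℓp hA hQ0 hpQ hfix
    (inZeroComponentAt_of_good W A hA hΔ Q)

/-- **L2 (at `p`)**: a nonzero rational point of odd prime order `p` is not in the zero
component at a place over `p` of multiplicative reduction. -/
theorem not_inZeroComponentAt_of_fixed_at_p {p : ℕ} [Fact p.Prime] (hp2 : p ≠ 2)
    (hΔ : (p : ℤ) ∣ W.Δ) (hc₄ : ¬ (p : ℤ) ∣ W.c₄) (hA : A.LiesOverPrime p)
    {Q : ((W.map (Int.castRingHom ℚ))⁄(AlgebraicClosure ℚ)).Point} (hQ0 : Q ≠ 0)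
    (hpQ : p • Q = 0)
    (hfix : ∀ σ : AlgebraicClosure ℚ ≃ₐ[ℚ] AlgebraicClosure ℚ, σ • Q = Q) :
    ¬ W.InZeroComponentAt A Q := by
  intro h
  rw [inZeroComponentAt_iff_inE0v] at h
  have hns := (not_isSingPt_iff_inE0v Q).mpr h
  have hG := inG1_of_pow_smul_of_mult W hΔ hc₄ A hA 1 hns (by rw [pow_one]; exact hpQ)
  exact not_inG1_of_fixed W A hA hp2 hQ0 hpQ hfix hG

end Points

end Fermat.Agent.ES12

namespace Fermat.Agent.ES12

/-- a point of prime order is nonzero and killed by `p` -/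
theorem ne_zero_and_nsmul_of_addOrderOf {G : Type*} [AddGroup G] {p : ℕ} (hp : p.Prime) {Q : G}
    (hQ : addOrderOf Q = p) : Q ≠ 0 ∧ p • Q = 0 := by
  constructor
  · rintro rfl
    rw [addOrderOf_zero] at hQ
    exact hp.one_lt.ne hQ
  · rw [← hQ]
    exact addOrderOf_nsmul_eq_zero Q

/-- **(L2)** in the shape of `Leaves.lean`. -/
theorem l2Statement {p : ℕ} (hp : p.Prime) (h11 : 11 ≤ p) : L2Statement p := by
  intro W ℓ hℓ _ _ Q hfix hord A hA
  have : Fact p.Prime := ⟨hp⟩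
  obtain ⟨hQ0, hpQ⟩ := ne_zero_and_nsmul_of_addOrderOf hp hord
  rcases hℓ with rfl | rfl
  · have : Fact (Nat.Prime 2) := ⟨Nat.prime_two⟩
    exact not_inZeroComponentAt_of_fixed_small W A (by omega) hA hQ0 hpQ hfix
  · have : Fact (Nat.Prime 3) := ⟨Nat.prime_three⟩
    exact not_inZeroComponentAt_of_fixed_small W A (by omega) hA hQ0 hpQ hfix

/-- a place of `Q̄` over the prime `ℓ` exists -/
theorem g3Statement_of_place {p : ℕ} (hp : p.Prime) (h11 : 11 ≤ p)
    (hex : ∃ A : ValuationSubring Qb, A.LiesOverPrime 3) : G3Statement p := by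
  intro W _ Q hfix hord
  have : Fact p.Prime := ⟨hp⟩
  have : Fact (Nat.Prime 3) := ⟨Nat.prime_three⟩
  obtain ⟨hQ0, hpQ⟩ := ne_zero_and_nsmul_of_addOrderOf hp hord
  obtain ⟨A, hA⟩ := hex
  exact_mod_cast dvd_Δ_of_fixed_small W A (p := p) (ℓ := 3) (by omega) hA hQ0 hpQ hfix

/-- **(L2p)** in the shape of `Leaves.lean`. -/
theorem l2pStatement {p : ℕ} (hp : p.Prime) (hp2 : p ≠ 2) : L2pStatement p := by
  intro W hΔ hc₄ Q hfix hord A hA
  have : Fact p.Prime := ⟨hp⟩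
  obtain ⟨hQ0, hpQ⟩ := ne_zero_and_nsmul_of_addOrderOf hp hord
  exact not_inZeroComponentAt_of_fixed_at_p W A hp2 hΔ hc₄ hA hQ0 hpQ hfix

/-- **(G3)** in the shape of `Leaves.lean`. -/
theorem g3Statement {p : ℕ} (hp : p.Prime) (h11 : 11 ≤ p) : G3Statement p :=
  g3Statement_of_place hp h11
    (Fermat.Agent.FrobExists.exists_valuationSubring_liesOver 3 Nat.prime_three)

end Fermat.Agent.ES12
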