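/-
Cluster E' (Mazur), S12 side, seat L0 (helper64): the Vélu model at `2` is multiplicative.

`(A, B)` a Frey pair, `W = freyLike A B` (`a₁ = 1`, `a₃ = 0`, `a₆ = 0`, `a₄` even), `N₀` a
Galois-stable subgroup of odd prime order `p` of `W(Q̄)`.  Then for every place `𝒜` of `Q̄` over `2`:
`v(c₄(veluCurve W N₀)) = 1` and `v(Δ(veluCurve W N₀)) < 1`                      (`atTwo`).

Proof.  `t = (1/2) Σ t_Q` is rational (the sum is Galois-stable); the points of `N₀` are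
`2`-integral (no `p`-torsion in the kernel of reduction); pairing `Q, −Q`: `t ∈ 𝒜` and `w ∈ 2 𝒜`
(`u_Q + x_Q t_Q = 2 (5 x³ + b₂ x² + 3 a₄ x)`).  Now `c₄' = 1 + 2 (…)` and `Δ' = t + t² + 2 (…)`,
and `t + t²` is even for a rational `2`-integral `t`.

Also exported (any integral model `W`):
* `ptX_smul`, `veluT_smul`, `veluU_smul`: Galois-equivariance of `x`, `t_Q`, `u_Q`;
* `finsum_nz_fixed`, `finsum_nz_rat`, `veluSumT_rat`, `veluSumW_rat`: Vélu's `t`, `w` are rational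
  for a Galois-stable finite subgroup;
* `ptX_mem_of_torsion`: torsion points of order prime to the residue characteristic are integral;
* `half_finsum_nz_mem`: the pairing `Q ↔ −Q`.
-/
import Mathlib
import Fermat.Agent.E.S12.Leaves
import Fermat.Agent.E.S12.VeluVC
import Fermat.Agent.E.S12.Comp23

set_option autoImplicit false
set_option linter.unusedSectionVars false

open WeierstrassCurve WeierstrassCurve.Affine

namespace Fermat.Agent.ES12

open Fermat.Agent.EV Fermat.Agent.EVC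

/-! ### pairing lemma -/

/-- If `f` is invariant under a fixed-point-free involution of the finite set `s` and all
`f a + f a` lie in the subgroup `H`, then `∑ a ∈ s, f a ∈ H`. -/
theorem sum_mem_of_involution {ι M : Type*} [AddCommGroup M] (H : AddSubgroup M) (s : Finset ι)
    (f : ι → M) (g : ι → ι) (hg : ∀ a ∈ s, g a ∈ s) (hgg : ∀ a ∈ s, g (g a) = a)
    (hne : ∀ a ∈ s, g a ≠ a) (hf : ∀ a ∈ s, f (g a) = f a) (h2 : ∀ a ∈ s, f a + f a ∈ H) :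
    ∑ a ∈ s, f a ∈ H := by
  have key : ∑ a ∈ s, (QuotientAddGroup.mk (f a) : M ⧸ H) = 0 := by
    refine Finset.sum_involution (fun a _ => g a) ?_ ?_ (fun a ha => hg a ha)
      (fun a ha => hgg a ha)
    · intro a ha
      rw [hf a ha, ← QuotientAddGroup.mk_add]
      exact (QuotientAddGroup.eq_zero_iff _).mpr (h2 a ha)
    · intro a ha _
      exact hne a ha
  have h1 : (QuotientAddGroup.mk (∑ a ∈ s, f a) : M ⧸ H) = 0 := by
    rw [← key]
    exact map_sum (QuotientAddGroup.mk' H) f s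
  exact (QuotientAddGroup.eq_zero_iff _).mp h1

/-! ### the coefficients of the base change to `Q̄` of an integral model -/

section Coeff

variable (W : WeierstrassCurve ℤ)

theorem curveQb_a₁ : (CurveQb W).a₁ = ((W.a₁ : ℤ) : Qb) := by
  show algebraMap ℚ Qb ((Int.castRingHom ℚ) W.a₁) = _
  rw [Fermat.Agent.EllRed.algebraMap_intCast_rat]

theorem curveQb_a₂ : (CurveQb W).a₂ = ((W.a₂ : ℤ) : Qb) := by
  show algebraMap ℚ Qb ((Int.castRingHom ℚ) W.a₂) = _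
  rw [Fermat.Agent.EllRed.algebraMap_intCast_rat]

theorem curveQb_a₃ : (CurveQb W).a₃ = ((W.a₃ : ℤ) : Qb) := by
  show algebraMap ℚ Qb ((Int.castRingHom ℚ) W.a₃) = _
  rw [Fermat.Agent.EllRed.algebraMap_intCast_rat]

theorem curveQb_a₄ : (CurveQb W).a₄ = ((W.a₄ : ℤ) : Qb) := by
  show algebraMap ℚ Qb ((Int.castRingHom ℚ) W.a₄) = _
  rw [Fermat.Agent.EllRed.algebraMap_intCast_rat]

theorem curveQb_a₆ : (CurveQb W).a₆ = ((W.a₆ : ℤ) : Qb) := by
  show algebraMap ℚ Qb ((Int.castRingHom ℚ) W.a₆) = _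
  rw [Fermat.Agent.EllRed.algebraMap_intCast_rat]

theorem curveQb_b₂ : (CurveQb W).b₂ = ((W.b₂ : ℤ) : Qb) := by
  simp only [WeierstrassCurve.b₂, curveQb_a₁, curveQb_a₂]
  push_cast
  ring

theorem curveQb_b₄ : (CurveQb W).b₄ = ((W.b₄ : ℤ) : Qb) := by
  simp only [WeierstrassCurve.b₄, curveQb_a₁, curveQb_a₃, curveQb_a₄]
  push_cast
  ring

theorem curveQb_b₆ : (CurveQb W).b₆ = ((W.b₆ : ℤ) : Qb) := by
  simp only [WeierstrassCurve.b₆, curveQb_a₃, curveQb_a₆]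
  push_cast
  ring

end Coeff

/-! ### Galois action, rationality of Vélu's sums, integrality of torsion points -/

section Points

variable {W : WeierstrassCurve ℤ}

theorem ptX_smul (σ : GQ) (P : Pts W) : ptX (σ • P) = σ (ptX P) := by
  rw [Point.algEquiv_smul_def]
  rcases P with _ | ⟨x, y, h⟩
  · show ptX (Point.map _ (0 : Pts W)) = σ 0
    rw [map_zero, map_zero]
    rfl
  · rw [Point.map_some]
    rfl

theorem ptX_neg (P : Pts W) : ptX (-P) = ptX P := by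
  rcases P with _ | ⟨x, y, h⟩
  · rfl
  · rfl

theorem veluT_neg (P : Pts W) : veluT (CurveQb W) (-P) = veluT (CurveQb W) P := by
  unfold veluT
  rw [ptX_neg]

theorem veluU_neg (P : Pts W) : veluU (CurveQb W) (-P) = veluU (CurveQb W) P := by
  unfold veluU
  rw [ptX_neg]

theorem veluT_smul (σ : GQ) (P : Pts W) :
    veluT (CurveQb W) (σ • P) = σ (veluT (CurveQb W) P) := by
  unfold veluT
  rw [ptX_smul, curveQb_b₂, curveQb_b₄]
  simp only [map_add, map_mul, map_pow, map_intCast, map_ofNat]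

theorem veluU_smul (σ : GQ) (P : Pts W) :
    veluU (CurveQb W) (σ • P) = σ (veluU (CurveQb W) P) := by
  unfold veluU
  rw [ptX_smul, curveQb_b₂, curveQb_b₄, curveQb_b₆]
  simp only [map_add, map_mul, map_pow, map_intCast, map_ofNat]

theorem finite_nz_of_finite {N₀ : AddSubgroup (Pts W)} (hfin : (N₀ : Set (Pts W)).Finite) :
    (nz (N₀ : Set (Pts W))).Finite :=
  hfin.subset (fun _ hQ => hQ.1)

theorem smul_bijOn_nz {N₀ : AddSubgroup (Pts W)} (hstab : ∀ σ : GQ, ∀ P ∈ N₀, σ • P ∈ N₀)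
    (σ : GQ) :
    Set.BijOn (fun P : Pts W => σ • P) (nz (N₀ : Set (Pts W))) (nz (N₀ : Set (Pts W))) := by
  refine ⟨?_, (MulAction.injective σ).injOn, ?_⟩
  · rintro Q ⟨hQ, hQ0⟩
    exact ⟨hstab σ Q hQ, fun h0 => hQ0 ((smul_eq_zero_iff_eq σ).mp h0)⟩
  · rintro Q ⟨hQ, hQ0⟩
    refine ⟨σ⁻¹ • Q, ⟨hstab σ⁻¹ Q hQ, fun h0 => hQ0 ((smul_eq_zero_iff_eq σ⁻¹).mp h0)⟩, ?_⟩
    exact smul_inv_smul σ Q

/-- a Galois-equivariant sum over the nonzero points of a Galois-stable finite subgroup is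
Galois-fixed -/
theorem finsum_nz_fixed {N₀ : AddSubgroup (Pts W)} (hfin : (N₀ : Set (Pts W)).Finite)
    (hstab : ∀ σ : GQ, ∀ P ∈ N₀, σ • P ∈ N₀) (F : Pts W → Qb)
    (hF : ∀ (σ : GQ) (P : Pts W), F (σ • P) = σ (F P)) (σ : GQ) :
    σ (∑ᶠ Q ∈ nz (N₀ : Set (Pts W)), F Q) = ∑ᶠ Q ∈ nz (N₀ : Set (Pts W)), F Q := by
  have h1 : σ (∑ᶠ Q ∈ nz (N₀ : Set (Pts W)), F Q)
      = ∑ᶠ Q ∈ nz (N₀ : Set (Pts W)), σ (F Q) :=
    AddMonoidHom.map_finsum_mem F (σ : Qb ≃+* Qb).toAddMonoidHom (finite_nz_of_finite hfin)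
  rw [h1]
  exact finsum_mem_eq_of_bijOn (fun P : Pts W => σ • P) (smul_bijOn_nz hstab σ)
    (fun Q _ => (hF σ Q).symm)

/-- a Galois-equivariant sum over the nonzero points of a Galois-stable finite subgroup is
rational -/
theorem finsum_nz_rat {N₀ : AddSubgroup (Pts W)} (hfin : (N₀ : Set (Pts W)).Finite)
    (hstab : ∀ σ : GQ, ∀ P ∈ N₀, σ • P ∈ N₀) (F : Pts W → Qb)
    (hF : ∀ (σ : GQ) (P : Pts W), F (σ • P) = σ (F P)) :
    ∃ r : ℚ, (r : Qb) = ∑ᶠ Q ∈ nz (N₀ : Set (Pts W)), F Q :=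
  Fermat.Agent.EP.exists_ratCast_of_fixed _ (finsum_nz_fixed hfin hstab F hF)

/-- Vélu's `t` is rational for a Galois-stable finite subgroup -/
theorem veluSumT_rat {N₀ : AddSubgroup (Pts W)} (hfin : (N₀ : Set (Pts W)).Finite)
    (hstab : ∀ σ : GQ, ∀ P ∈ N₀, σ • P ∈ N₀) :
    ∃ r : ℚ, (r : Qb) = veluSumT (CurveQb W) (N₀ : Set (Pts W)) := by
  obtain ⟨r, hr⟩ := finsum_nz_rat hfin hstab (veluT (CurveQb W)) veluT_smul
  refine ⟨r / 2, ?_⟩
  rw [veluSumT_eq, ← hr]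
  push_cast
  rfl

/-- Vélu's `w` is rational for a Galois-stable finite subgroup -/
theorem veluSumW_rat {N₀ : AddSubgroup (Pts W)} (hfin : (N₀ : Set (Pts W)).Finite)
    (hstab : ∀ σ : GQ, ∀ P ∈ N₀, σ • P ∈ N₀) :
    ∃ r : ℚ, (r : Qb) = veluSumW (CurveQb W) (N₀ : Set (Pts W)) := by
  obtain ⟨r, hr⟩ := finsum_nz_rat hfin hstab
    (fun Q => veluU (CurveQb W) Q + ptX Q * veluT (CurveQb W) Q) (fun σ P => by
      simp only [veluU_smul, veluT_smul, ptX_smul, map_add, map_mul])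
  refine ⟨r / 2, ?_⟩
  rw [veluSumW_eq, ← hr]
  push_cast
  rfl

/-- torsion points of order prime to the residue characteristic are integral -/
theorem ptX_mem_of_torsion (𝒜 : ValuationSubring Qb) {n : ℕ}
    (hn : 𝒜.valuation ((n : ℕ) : Qb) = 1) {Q : Pts W} (hQ : n • Q = 0) : ptX Q ∈ 𝒜 := by
  by_contra hx
  have hlt : 1 < 𝒜.valuation (ptX Q) := by
    by_contra hle
    exact hx ((𝒜.valuation_le_one_iff _).mp (not_lt.mp hle))
  have hpx : S05H65.px Q = ptX Q := by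
    rcases Q with _ | ⟨x, y, h⟩
    · rfl
    · rfl
  have h := Fermat.Agent.MultRed.isReduction_redCurve (Fermat.Agent.MultRed.intCoeff_map_int W 𝒜)
  have hG : S05H75.InG1 𝒜.valuation Q := Or.inr (by rw [hpx]; exact hlt)
  have h0 : Q = 0 :=
    S05H75.inG1_torsion_free 𝒜.valuation h.val_b₂ h.val_b₄ h.val_b₆ h.val_b₈ hn hG hQ
  apply hx
  rw [h0]
  exact 𝒜.zero_mem

/-- the pairing `Q ↔ −Q`: half the sum of an even integral function over the nonzero points of a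
subgroup of odd exponent is integral -/
theorem half_finsum_nz_mem {p : ℕ} (hp : Odd p) {N₀ : AddSubgroup (Pts W)}
    (hfin : (N₀ : Set (Pts W)).Finite) (hN : ∀ Q ∈ N₀, p • Q = 0)
    (𝒜 : ValuationSubring Qb) (F : Pts W → Qb) (hFneg : ∀ P, F (-P) = F P)
    (hFmem : ∀ Q ∈ N₀, F Q ∈ 𝒜) :
    (∑ᶠ Q ∈ nz (N₀ : Set (Pts W)), F Q) / 2 ∈ 𝒜 := by
  let H : AddSubgroup Qb :=
    AddSubgroup.map (AddMonoidHom.mulLeft (2 : Qb)) 𝒜.toSubring.toAddSubgroup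
  have hmemH : ∀ x : Qb, x ∈ H ↔ ∃ a ∈ 𝒜, 2 * a = x := by
    intro x
    constructor
    · rintro ⟨a, ha, rfl⟩
      exact ⟨a, ha, rfl⟩
    · rintro ⟨a, ha, rfl⟩
      exact ⟨a, ha, rfl⟩
  have hsum : ∑ᶠ Q ∈ nz (N₀ : Set (Pts W)), F Q ∈ H := by
    rw [finsum_mem_eq_finite_toFinset_sum F (finite_nz_of_finite hfin)]
    refine sum_mem_of_involution H _ F (fun Q => -Q) ?_ ?_ ?_ ?_ ?_
    · intro Q hQ
      rw [Set.Finite.mem_toFinset] at hQ ⊢
      exact ⟨N₀.neg_mem hQ.1, fun h0 => hQ.2 (neg_eq_zero.mp h0)⟩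
    · intro Q _
      exact neg_neg Q
    · intro Q hQ hneg
      rw [Set.Finite.mem_toFinset] at hQ
      apply hQ.2
      obtain ⟨k, hk⟩ := hp
      have h2 : 2 • Q = 0 := by
        rw [two_nsmul]
        nth_rewrite 1 [← hneg]
        exact neg_add_cancel Q
      have h3 := hN Q hQ.1
      rw [hk, add_nsmul, mul_comm, mul_nsmul, smul_comm, h2, nsmul_zero, zero_add,
        one_nsmul] at h3
      exact h3
    · intro Q _
      exact hFneg Q
    · intro Q hQ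
      rw [Set.Finite.mem_toFinset] at hQ
      rw [hmemH]
      exact ⟨F Q, hFmem Q hQ.1, two_mul _⟩
  obtain ⟨a, ha, h2a⟩ := (hmemH _).mp hsum
  rw [← h2a, mul_div_cancel_left₀ _ (two_ne_zero)]
  exact ha

end Points

/-! ### valuations at a place over `2` -/

section Val

variable {𝒜 : ValuationSubring Qb}

theorem val_two_lt_one (h𝒜 : 𝒜.LiesOverPrime 2) : 𝒜.valuation (2 : Qb) < 1 := by
  have h := 𝒜.mem_nonunits_iff.mp h𝒜
  simpa using h

theorem val_mul_lt_one_left {x y : Qb} (hx : 𝒜.valuation x < 1) (hy : 𝒜.valuation y ≤ 1) :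
    𝒜.valuation (x * y) < 1 := by
  rw [map_mul]
  calc 𝒜.valuation x * 𝒜.valuation y ≤ 𝒜.valuation x * 1 := mul_le_mul' le_rfl hy
    _ = 𝒜.valuation x := mul_one _
    _ < 1 := hx

theorem val_two_mul_lt_one (h𝒜 : 𝒜.LiesOverPrime 2) {y : Qb} (hy : y ∈ 𝒜) :
    𝒜.valuation (2 * y) < 1 :=
  val_mul_lt_one_left (val_two_lt_one h𝒜) ((𝒜.valuation_le_one_iff _).mpr hy)

/-- `t + t²` is even for a `2`-integral rational number `t` -/
theorem val_add_sq_lt_one (h𝒜 : 𝒜.LiesOverPrime 2) (r : ℚ) (hr : (r : Qb) ∈ 𝒜) :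
    𝒜.valuation ((r : Qb) + (r : Qb) ^ 2) < 1 := by
  have : Fact (Nat.Prime 2) := ⟨Nat.prime_two⟩
  obtain ⟨n, hn, hv⟩ := exists_nat_res h𝒜 r hr
  have hr1 : 𝒜.valuation (r : Qb) ≤ 1 := (𝒜.valuation_le_one_iff _).mpr hr
  have h1 : 𝒜.valuation (1 : Qb) ≤ 1 := le_of_eq (map_one _)
  interval_cases n
  · have hv' : 𝒜.valuation (r : Qb) < 1 := by simpa using hv
    have e : (r : Qb) + (r : Qb) ^ 2 = (r : Qb) * (1 + r) := by ring
    rw [e]
    exact val_mul_lt_one_left hv' (le_trans (Valuation.map_add _ _ _) (max_le h1 hr1))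
  · have hv' : 𝒜.valuation ((r : Qb) - 1) < 1 := by simpa using hv
    have e : (r : Qb) + (r : Qb) ^ 2 = ((r : Qb) - 1) * (r + 2) + 2 := by ring
    rw [e]
    have h2 : 𝒜.valuation (2 : Qb) < 1 := val_two_lt_one h𝒜
    refine Valuation.map_add_lt _ (val_mul_lt_one_left hv' ?_) h2
    exact le_trans (Valuation.map_add _ _ _) (max_le hr1 h2.le)

end Val

/-! ### the invariants of the Vélu model (`a₁ = 1`, `a₃ = a₆ = 0`, `a₄`, `w` even) -/

/-- the cofactor of `2` in `Δ(W / C) − (t + t²)` (`a₁ = 1`, `a₃ = a₆ = 0`, `a₄ = 2 al`,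
`w = 2 w₁`) -/
def atTwoCof {R : Type*} [CommRing R] (a2 al t w1 : R) : R :=
  128 * a2 ^ 4 * t + 128 * a2 ^ 3 * t + 448 * a2 ^ 3 * w1 + 32 * a2 ^ 2 * al ^ 2
    - 1312 * a2 ^ 2 * al * t - 376 * a2 ^ 2 * t ^ 2 + 48 * a2 ^ 2 * t + 336 * a2 ^ 2 * w1
    + 16 * a2 * al ^ 2 - 656 * a2 * al * t - 4032 * a2 * al * w1 - 188 * a2 * t ^ 2
    - 14112 * a2 * t * w1 + 8 * a2 * t + 84 * a2 * w1 - 256 * al ^ 3 + 1920 * al ^ 2 * t
    + 2 * al ^ 2 - 4800 * al * t ^ 2 - 82 * al * t - 1008 * al * w1 + 4000 * t ^ 3 - 24 * t ^ 2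
    - 3528 * t * w1 - 42336 * w1 ^ 2 + 7 * w1

/-- the cofactor of `2` in `c₄(W / C) − 1` -/
def atTwoCofC {R : Type*} [CommRing R] (a2 al t : R) : R :=
  8 * a2 ^ 2 + 4 * a2 - 48 * al + 120 * t

section Formula

variable {k : Type*} [Field k] [DecidableEq k] (W : Affine k) (C : Set W.Point)

theorem velu_Δ_atTwo {a2 al t w1 : k} (h1 : W.a₁ = 1) (h2 : W.a₂ = a2) (h3 : W.a₃ = 0)
    (h4 : W.a₄ = 2 * al) (h6 : W.a₆ = 0) (ht : veluSumT W C = t) (hw : veluSumW W C = 2 * w1) :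
    (veluCurve W C).Δ = t + t ^ 2 + 2 * atTwoCof a2 al t w1 := by
  simp only [WeierstrassCurve.Δ, WeierstrassCurve.b₂, WeierstrassCurve.b₄, WeierstrassCurve.b₆,
    WeierstrassCurve.b₈, veluCurve_a₁, veluCurve_a₂, veluCurve_a₃, veluCurve_a₄, veluCurve_a₆,
    h1, h2, h3, h4, h6, ht, hw, atTwoCof]
  ring

theorem velu_c₄_atTwo {a2 al t : k} (h1 : W.a₁ = 1) (h2 : W.a₂ = a2) (h3 : W.a₃ = 0)
    (h4 : W.a₄ = 2 * al) (ht : veluSumT W C = t) :
    (veluCurve W C).c₄ = 1 + 2 * atTwoCofC a2 al t := by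
  simp only [WeierstrassCurve.c₄, WeierstrassCurve.b₂, WeierstrassCurve.b₄,
    veluCurve_a₁, veluCurve_a₂, veluCurve_a₃, veluCurve_a₄, h1, h2, h3, h4, ht, atTwoCofC]
  ring

end Formula

/-! ### the theorem -/

theorem freyLike_a₄_even {A B : ℤ} (hAB : IsFreyPair A B) :
    ∃ al : ℤ, (freyLike A B).a₄ = 2 * al := by
  obtain ⟨B₁, hB₁⟩ := hAB.hB
  refine ⟨-(A * B₁), ?_⟩
  show -(A * B) / 16 = _
  rw [hB₁]
  have e : -(A * (32 * B₁)) = 16 * (2 * -(A * B₁)) := by ring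
  rw [e, Int.mul_ediv_cancel_left _ (by norm_num)]

/-- **(L0)** the Vélu quotient of a Frey-type curve by a Galois-stable subgroup of odd prime order
is multiplicative at `2` in Vélu's model: `c₄` is a `2`-adic unit and `Δ` is even. -/
theorem atTwo {A B : ℤ} (hAB : IsFreyPair A B) {p : ℕ} (hp : p.Prime) (hp2 : p ≠ 2)
    (N₀ : AddSubgroup (Pts (freyLike A B))) (hcard : Nat.card N₀ = p)
    (hstab : ∀ σ : GQ, ∀ P ∈ N₀, σ • P ∈ N₀)
    (𝒜 : ValuationSubring Qb) (h𝒜 : 𝒜.LiesOverPrime 2) :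
    𝒜.valuation (veluCurve (CurveQb (freyLike A B)) (N₀ : Set (Pts (freyLike A B)))).c₄ = 1 ∧
    𝒜.valuation (veluCurve (CurveQb (freyLike A B)) (N₀ : Set (Pts (freyLike A B)))).Δ < 1 := by
  have hfinN : Finite N₀ := Nat.finite_of_card_ne_zero (by rw [hcard]; exact hp.ne_zero)
  have hfin : (N₀ : Set (Pts (freyLike A B))).Finite := Set.toFinite _
  have hodd : Odd p := hp.odd_of_ne_two hp2
  have hvp : 𝒜.valuation ((p : ℕ) : Qb) = 1 :=
    Fermat.Agent.EllRed.valuation_natCast_eq_one Nat.prime_two h𝒜 (fun hd =>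
      hp2 ((Nat.prime_dvd_prime_iff_eq Nat.prime_two hp).mp hd).symm)
  have htors : ∀ Q ∈ N₀, p • Q = 0 := by
    intro Q hQ
    have h := card_nsmul_eq_zero' (G := N₀) (x := ⟨Q, hQ⟩)
    rw [hcard] at h
    have h' := congrArg Subtype.val h
    simpa using h'
  have hx : ∀ Q ∈ N₀, ptX Q ∈ 𝒜 := fun Q hQ => ptX_mem_of_torsion 𝒜 hvp (htors Q hQ)
  -- the coefficients
  obtain ⟨al, hal⟩ := freyLike_a₄_even hAB
  have h1 : (CurveQb (freyLike A B)).a₁ = 1 := by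
    rw [curveQb_a₁]
    show (((1 : ℤ)) : Qb) = 1
    exact Int.cast_one
  have h2 : (CurveQb (freyLike A B)).a₂ = (((freyLike A B).a₂ : ℤ) : Qb) := curveQb_a₂ _
  have h3 : (CurveQb (freyLike A B)).a₃ = 0 := by
    rw [curveQb_a₃]
    show (((0 : ℤ)) : Qb) = 0
    exact Int.cast_zero
  have h4 : (CurveQb (freyLike A B)).a₄ = 2 * ((al : ℤ) : Qb) := by
    rw [curveQb_a₄, hal]
    push_cast
    rfl
  have h6 : (CurveQb (freyLike A B)).a₆ = 0 := by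
    rw [curveQb_a₆]
    show (((0 : ℤ)) : Qb) = 0
    exact Int.cast_zero
  have hb2 : (CurveQb (freyLike A B)).b₂ ∈ 𝒜 := by
    rw [curveQb_b₂]
    exact intCast_mem 𝒜 _
  have hb4 : (CurveQb (freyLike A B)).b₄ ∈ 𝒜 := by
    rw [curveQb_b₄]
    exact intCast_mem 𝒜 _
  have ha4 : (CurveQb (freyLike A B)).a₄ ∈ 𝒜 := by
    rw [curveQb_a₄]
    exact intCast_mem 𝒜 _
  have hnum : ∀ n : ℕ, ((n : ℕ) : Qb) ∈ 𝒜 := fun n => natCast_mem 𝒜 n
  -- `t` is integral and rational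
  have ht_mem : veluSumT (CurveQb (freyLike A B)) (N₀ : Set (Pts (freyLike A B))) ∈ 𝒜 := by
    rw [veluSumT_eq]
    refine half_finsum_nz_mem hodd hfin htors 𝒜 (veluT (CurveQb (freyLike A B))) veluT_neg ?_
    intro Q hQ
    unfold veluT
    have h6' : (6 : Qb) ∈ 𝒜 := hnum 6
    exact 𝒜.add_mem _ _ (𝒜.add_mem _ _ (𝒜.mul_mem _ _ h6' (pow_mem (hx Q hQ) 2))
      (𝒜.mul_mem _ _ hb2 (hx Q hQ))) hb4
  obtain ⟨r, hr⟩ := veluSumT_rat hfin hstab
  -- `w` is twice an integral element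
  have hw : veluSumW (CurveQb (freyLike A B)) (N₀ : Set (Pts (freyLike A B)))
      = 2 * ((∑ᶠ Q ∈ nz (N₀ : Set (Pts (freyLike A B))),
          (5 * ptX Q ^ 3 + (CurveQb (freyLike A B)).b₂ * ptX Q ^ 2
            + 3 * (CurveQb (freyLike A B)).a₄ * ptX Q)) / 2) := by
    rw [veluSumW_eq, mul_div_assoc', mul_finsum_mem]
    congr 1
    refine finsum_mem_congr rfl (fun Q _ => ?_)
    simp only [veluU, veluT, WeierstrassCurve.b₄, WeierstrassCurve.b₆, h3, h6]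
    ring
  have hw_mem : (∑ᶠ Q ∈ nz (N₀ : Set (Pts (freyLike A B))),
          (5 * ptX Q ^ 3 + (CurveQb (freyLike A B)).b₂ * ptX Q ^ 2
            + 3 * (CurveQb (freyLike A B)).a₄ * ptX Q)) / 2 ∈ 𝒜 := by
    refine half_finsum_nz_mem hodd hfin htors 𝒜 (fun Q : Pts (freyLike A B) =>
      5 * ptX Q ^ 3 + (CurveQb (freyLike A B)).b₂ * ptX Q ^ 2
            + 3 * (CurveQb (freyLike A B)).a₄ * ptX Q) ?_ ?_
    · intro P
      simp only [ptX_neg]
    · intro Q hQ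
      have h5' : (5 : Qb) ∈ 𝒜 := hnum 5
      have h3' : (3 : Qb) ∈ 𝒜 := hnum 3
      exact 𝒜.add_mem _ _ (𝒜.add_mem _ _ (𝒜.mul_mem _ _ h5' (pow_mem (hx Q hQ) 3))
        (𝒜.mul_mem _ _ hb2 (pow_mem (hx Q hQ) 2)))
        (𝒜.mul_mem _ _ (𝒜.mul_mem _ _ h3' ha4) (hx Q hQ))
  -- lift to `𝒜`
  obtain ⟨t', ht'⟩ : ∃ t' : 𝒜, (t' : Qb)
      = veluSumT (CurveQb (freyLike A B)) (N₀ : Set (Pts (freyLike A B))) := ⟨⟨_, ht_mem⟩, rfl⟩
  obtain ⟨w', hw'⟩ : ∃ w' : 𝒜, (w' : Qb)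
      = (∑ᶠ Q ∈ nz (N₀ : Set (Pts (freyLike A B))),
          (5 * ptX Q ^ 3 + (CurveQb (freyLike A B)).b₂ * ptX Q ^ 2
            + 3 * (CurveQb (freyLike A B)).a₄ * ptX Q)) / 2 := ⟨⟨_, hw_mem⟩, rfl⟩
  rw [← hw'] at hw
  have hcofC : atTwoCofC ((((freyLike A B).a₂ : ℤ)) : Qb) ((al : ℤ) : Qb) (t' : Qb) ∈ 𝒜 := by
    have e : atTwoCofC ((((freyLike A B).a₂ : ℤ)) : Qb) ((al : ℤ) : Qb) (t' : Qb)
        = ((atTwoCofC ((((freyLike A B).a₂ : ℤ)) : 𝒜) ((al : ℤ) : 𝒜) t' : 𝒜) : Qb) := by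
      simp only [atTwoCofC]
      push_cast
      rfl
    rw [e]
    exact Subtype.property _
  have hcof : atTwoCof ((((freyLike A B).a₂ : ℤ)) : Qb) ((al : ℤ) : Qb) (t' : Qb) (w' : Qb)
      ∈ 𝒜 := by
    have e : atTwoCof ((((freyLike A B).a₂ : ℤ)) : Qb) ((al : ℤ) : Qb) (t' : Qb) (w' : Qb)
        = ((atTwoCof ((((freyLike A B).a₂ : ℤ)) : 𝒜) ((al : ℤ) : 𝒜) t' w' : 𝒜) : Qb) := by
      simp only [atTwoCof]
      push_cast
      rfl
    rw [e]
    exact Subtype.property _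
  constructor
  · rw [velu_c₄_atTwo _ _ h1 h2 h3 h4 ht'.symm]
    exact Valuation.map_one_add_of_lt _ (val_two_mul_lt_one h𝒜 hcofC)
  · rw [velu_Δ_atTwo _ _ h1 h2 h3 h4 h6 ht'.symm hw]
    refine Valuation.map_add_lt _ ?_ (val_two_mul_lt_one h𝒜 hcof)
    have hrmem : (r : Qb) ∈ 𝒜 := by rw [hr]; exact ht_mem
    have := val_add_sq_lt_one h𝒜 r hrmem
    rw [hr, ← ht'] at this
    exact this

end Fermat.Agent.ES12
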