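/-
Cluster E' (Mazur), S12 side, seat U' (helper77): uniqueness of the quotient up to `j`.

Two surjective homomorphisms `φᵢ : W →→ Wᵢ` of (the groups of points of) elliptic curves over an
algebraically closed field of characteristic `0`, with the same kernel and with rational
`x`-maps, have targets with the same `j`-invariant (cross-multiplied form).

* `HasXMap φ n d`     : strong `x`-map (valid at all affine points outside the kernel);
* `HasXMapW φ n d g`  : weak `x`-map (valid at the affine points `(x, y)` with `g(x) ≠ 0`);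
* `uniq_core`         : the theorem, weak + fibre-good shape;
* `uniqStatementW : UniqStatementW`  (the shape asked for by helper60, for DUAL).

Proof: the induced bijection `f : k → k` on `x`-coordinates satisfies `f ∘ (n₁/d₁) = n₂/d₂`, so
it is an affine map by the Moebius lemma (`Uniq/Moebius.lean`); it maps the roots of the
2-division cubic of `W₁` to those of `W₂`, so `c₄(W₂) = α² c₄(W₁)`, `Δ(W₂) = α⁶ Δ(W₁)`
(`Uniq/Points.lean`).
-/
import Mathlib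
import Fermat.Agent.E.S12.VeluSpec
import Fermat.Agent.E.S12.Uniq.Moebius
import Fermat.Agent.E.S12.Uniq.Points

set_option autoImplicit false
set_option linter.unusedSectionVars false

open WeierstrassCurve WeierstrassCurve.Affine

namespace Fermat.Agent.EU

open Fermat.Agent.EV

variable {k : Type*} [Field k] [DecidableEq k]

/-- `φ : W.Point →+ W'.Point` has a rational `x`-map outside its kernel, given by the polynomials
`n`, `d`: for every affine point `(x, y)` outside the kernel, `d(x) ≠ 0` and `φ (x, y)` is an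
affine point with `x`-coordinate `n(x) / d(x)`.  (The shape used in `QuotStatement`,
`DualStatement`.) -/
def HasXMap {W W' : Affine k} (φ : W.Point →+ W'.Point) (n d : Polynomial k) : Prop :=
  ∀ (x y : k) (h : W.Nonsingular x y), (Point.some x y h : W.Point) ∉ φ.ker →
    d.eval x ≠ 0 ∧ ∃ (y' : k) (h' : W'.Nonsingular (n.eval x / d.eval x) y'),
      φ (.some x y h) = .some (n.eval x / d.eval x) y' h'

/-- weak rational `x`-map: valid at the affine points `(x, y)` with `g(x) ≠ 0`, `g ≠ 0`. -/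
def HasXMapW {W W' : Affine k} (φ : W.Point →+ W'.Point) (n d g : Polynomial k) : Prop :=
  g ≠ 0 ∧ ∀ (x y : k) (h : W.Nonsingular x y), g.eval x ≠ 0 →
    d.eval x ≠ 0 ∧ ∃ (y' : k) (h' : W'.Nonsingular (n.eval x / d.eval x) y'),
      φ (.some x y h) = .some (n.eval x / d.eval x) y' h'

/-- **(U')**, strong shape. -/
def UniqStatement : Prop :=
  ∀ (k : Type) [Field k] [DecidableEq k] [IsAlgClosed k] [CharZero k] (W W₁ W₂ : Affine k),
    W.Δ ≠ 0 → W₁.Δ ≠ 0 → W₂.Δ ≠ 0 →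
    ∀ (φ₁ : W.Point →+ W₁.Point) (φ₂ : W.Point →+ W₂.Point),
      Function.Surjective φ₁ → Function.Surjective φ₂ → φ₁.ker = φ₂.ker →
      (φ₁.ker : Set W.Point).Finite →
      (∃ n d : Polynomial k, HasXMap φ₁ n d) → (∃ n d : Polynomial k, HasXMap φ₂ n d) →
      W₁.c₄ ^ 3 * W₂.Δ = W₂.c₄ ^ 3 * W₁.Δ

/-- **(U')**, weak + fibre-good shape (the one used by DUAL). -/
def UniqStatementW : Prop :=
  ∀ (k : Type) [Field k] [DecidableEq k] [IsAlgClosed k] [CharZero k] (W W₁ W₂ : Affine k),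
    W.Δ ≠ 0 → W₁.Δ ≠ 0 → W₂.Δ ≠ 0 →
    ∀ (φ₁ : W.Point →+ W₁.Point) (φ₂ : W.Point →+ W₂.Point),
      Function.Surjective φ₁ → Function.Surjective φ₂ → φ₁.ker = φ₂.ker →
      (φ₁.ker : Set W.Point).Finite →
      ∀ n₁ d₁ g₁ n₂ d₂ g₂ : Polynomial k, HasXMapW φ₁ n₁ d₁ g₁ → HasXMapW φ₂ n₂ d₂ g₂ →
      (∀ P : W.Point, P ∉ φ₁.ker → ∃ T ∈ φ₁.ker, ∃ (x y : k) (h : W.Nonsingular x y),
          P + T = .some x y h ∧ g₁.eval x ≠ 0 ∧ g₂.eval x ≠ 0) →
      W₁.c₄ ^ 3 * W₂.Δ = W₂.c₄ ^ 3 * W₁.Δ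

/-! ### transfer of `x`-coordinates between two quotients with the same kernel -/

section transfer

variable {W W₁ W₂ : Affine k} (φ₁ : W.Point →+ W₁.Point) (φ₂ : W.Point →+ W₂.Point)
  (hker : φ₁.ker = φ₂.ker)

include hker in
theorem map_ne_zero_transfer {P : W.Point} (hP : φ₁ P ≠ 0) : φ₂ P ≠ 0 := by
  intro h0
  apply hP
  have : P ∈ φ₂.ker := h0
  rw [← hker] at this
  exact this

include hker in
theorem map_eq_zero_transfer {P : W.Point} (hP : φ₁ P = 0) : φ₂ P = 0 := by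
  have : P ∈ φ₁.ker := hP
  rw [hker] at this
  exact this

include hker in
theorem ptX_transfer {P P' : W.Point} (hP : φ₁ P ≠ 0) (hP' : φ₁ P' ≠ 0)
    (h : ptX (φ₁ P) = ptX (φ₁ P')) : ptX (φ₂ P) = ptX (φ₂ P') := by
  rcases eq_or_eq_neg_of_ptX_eq hP hP' h with h1 | h1
  · have h2 : φ₁ (P - P') = 0 := by rw [map_sub, h1, sub_self]
    have h3 := map_eq_zero_transfer φ₁ φ₂ hker h2
    rw [map_sub, sub_eq_zero] at h3
    rw [h3]
  · have h2 : φ₁ (P + P') = 0 := by rw [map_add, h1, neg_add_cancel]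
    have h3 := map_eq_zero_transfer φ₁ φ₂ hker h2
    rw [map_add] at h3
    rw [eq_neg_of_add_eq_zero_left h3, ptX_neg]

end transfer

/-! ### the theorem -/

/-- **(U')**: two quotients of `W` with the same kernel and (weak) rational `x`-maps have the
same `j`-invariant, in the cross-multiplied form `c₄(W₁)³ Δ(W₂) = c₄(W₂)³ Δ(W₁)`. -/
theorem uniq_core [IsAlgClosed k] [CharZero k] (W W₁ W₂ : Affine k)
    (hΔ : W.Δ ≠ 0) (hΔ₁ : W₁.Δ ≠ 0) (hΔ₂ : W₂.Δ ≠ 0)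
    (φ₁ : W.Point →+ W₁.Point) (φ₂ : W.Point →+ W₂.Point)
    (hs₁ : Function.Surjective φ₁) (hs₂ : Function.Surjective φ₂) (hker : φ₁.ker = φ₂.ker)
    (n₁ d₁ g₁ n₂ d₂ g₂ : Polynomial k) (hx₁ : HasXMapW φ₁ n₁ d₁ g₁)
    (hx₂ : HasXMapW φ₂ n₂ d₂ g₂)
    (hfib : ∀ P : W.Point, P ∉ φ₁.ker → ∃ T ∈ φ₁.ker, ∃ (x y : k) (h : W.Nonsingular x y),
      P + T = .some x y h ∧ g₁.eval x ≠ 0 ∧ g₂.eval x ≠ 0) :
    W₁.c₄ ^ 3 * W₂.Δ = W₂.c₄ ^ 3 * W₁.Δ := by
  -- a point of `W` over each `c` (via `φ₁`)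
  have hex : ∀ c : k, ∃ P : W.Point, φ₁ P ≠ 0 ∧ ptX (φ₁ P) = c := by
    intro c
    obtain ⟨P₁, hP₁, hc⟩ := exists_point_ptX W₁ hΔ₁ c
    obtain ⟨P, rfl⟩ := hs₁ P₁
    exact ⟨P, hP₁, hc⟩
  choose Pc hPc0 hPcx using hex
  set f : k → k := fun c => ptX (φ₂ (Pc c)) with hf
  have hspec : ∀ P : W.Point, φ₁ P ≠ 0 → f (ptX (φ₁ P)) = ptX (φ₂ P) := by
    intro P hP
    exact ptX_transfer φ₁ φ₂ hker (hPc0 _) hP (hPcx _)
  have hfinj : Function.Injective f := by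
    intro c c' hcc
    have h1 := ptX_transfer φ₂ φ₁ hker.symm (map_ne_zero_transfer φ₁ φ₂ hker (hPc0 c))
      (map_ne_zero_transfer φ₁ φ₂ hker (hPc0 c')) hcc
    rwa [hPcx, hPcx] at h1
  have hfsurj : Function.Surjective f := by
    intro e
    obtain ⟨P₂, hP₂, he⟩ := exists_point_ptX W₂ hΔ₂ e
    obtain ⟨P, rfl⟩ := hs₂ P₂
    have hP1 : φ₁ P ≠ 0 := map_ne_zero_transfer φ₂ φ₁ hker.symm hP₂
    exact ⟨ptX (φ₁ P), (hspec P hP1).trans he⟩
  -- the good set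
  set G : Set k := {x | g₁.eval x ≠ 0 ∧ g₂.eval x ≠ 0} with hG
  have hGfin : Gᶜ.Finite := by
    have hg : g₁ * g₂ ≠ 0 := mul_ne_zero hx₁.1 hx₂.1
    refine (Polynomial.finite_setOfPred_isRoot hg).subset ?_
    intro x hx
    simp only [hG, Set.mem_compl_iff, Set.mem_ofPred_eq, not_and_or, not_not] at hx
    show (g₁ * g₂).IsRoot x
    rw [Polynomial.IsRoot.def, Polynomial.eval_mul]
    rcases hx with h0 | h0
    · rw [h0, zero_mul]
    · rw [h0, mul_zero]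
  have hden₁ : ∀ x ∈ G, d₁.eval x ≠ 0 := by
    intro x hx
    obtain ⟨y, h⟩ := exists_nonsingular W hΔ x
    exact (hx₁.2 x y h hx.1).1
  have hden₂ : ∀ x ∈ G, d₂.eval x ≠ 0 := by
    intro x hx
    obtain ⟨y, h⟩ := exists_nonsingular W hΔ x
    exact (hx₂.2 x y h hx.2).1
  have hrel : ∀ x ∈ G, f (n₁.eval x / d₁.eval x) = n₂.eval x / d₂.eval x := by
    intro x hx
    obtain ⟨y, h⟩ := exists_nonsingular W hΔ x
    obtain ⟨-, y₁, h₁, e₁⟩ := hx₁.2 x y h hx.1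
    obtain ⟨-, y₂, h₂, e₂⟩ := hx₂.2 x y h hx.2
    have hne : φ₁ (.some x y h) ≠ 0 := by
      rw [e₁]
      exact Point.some_ne_zero h₁
    have := hspec _ hne
    rw [e₁, e₂] at this
    exact this
  have hsurj : ∀ c : k, ∃ x ∈ G, n₁.eval x / d₁.eval x = c := by
    intro c
    obtain ⟨T, hT, x, y, h, hPT, hg₁, hg₂⟩ := hfib (Pc c) (hPc0 c)
    refine ⟨x, ⟨hg₁, hg₂⟩, ?_⟩
    obtain ⟨-, y₁, h₁, e₁⟩ := hx₁.2 x y h hg₁
    have hT0 : φ₁ T = 0 := hT
    have h1 : φ₁ (.some x y h) = φ₁ (Pc c) := by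
      rw [← hPT, map_add, hT0, add_zero]
    have h2 : ptX (φ₁ (.some x y h)) = c := by rw [h1, hPcx]
    rw [e₁] at h2
    exact h2
  -- `f` is affine
  obtain ⟨α, β, hα, hfαβ⟩ := moebius_affine n₁ d₁ n₂ d₂ G hGfin f ⟨hfinj, hfsurj⟩ hden₁ hden₂
    hrel hsurj
  -- `f` maps the roots of the 2-division cubic of `W₁` to roots of that of `W₂`
  have hroots : ∀ c : k, twoT W₁ c = 0 → twoT W₂ (α * c + β) = 0 := by
    intro c hc
    have hP₁ := hPc0 c
    have hP₂ : φ₂ (Pc c) ≠ 0 := map_ne_zero_transfer φ₁ φ₂ hker hP₁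
    have h1 : φ₁ (Pc c) = -φ₁ (Pc c) := by
      rw [twoTorsion_iff hP₁, hPcx]
      exact hc
    have h2 : φ₁ (Pc c + Pc c) = 0 := by
      rw [map_add]
      nth_rewrite 1 [h1]
      exact neg_add_cancel _
    have h3 := map_eq_zero_transfer φ₁ φ₂ hker h2
    rw [map_add] at h3
    have h4 : φ₂ (Pc c) = -φ₂ (Pc c) := eq_neg_of_add_eq_zero_left h3
    have h5 := (twoTorsion_iff hP₂).mp h4
    have h6 : ptX (φ₂ (Pc c)) = α * c + β := (hfαβ c).symm ▸ rfl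
    rwa [h6] at h5
  obtain ⟨hc₄, hΔ'⟩ := cubic_affine W₁ W₂ hΔ₁ hα hroots
  rw [hc₄, hΔ']
  ring

/-- **(U')** in the weak + fibre-good shape. -/
theorem uniqStatementW : UniqStatementW := by
  intro k _ _ _ _ W W₁ W₂ hΔ hΔ₁ hΔ₂ φ₁ φ₂ hs₁ hs₂ hker _ n₁ d₁ g₁ n₂ d₂ g₂ hx₁ hx₂ hfib
  exact uniq_core W W₁ W₂ hΔ hΔ₁ hΔ₂ φ₁ φ₂ hs₁ hs₂ hker n₁ d₁ g₁ n₂ d₂ g₂ hx₁ hx₂ hfib

/-! ### the strong shape -/

section strong

variable {W W' : Affine k} (φ : W.Point →+ W'.Point) (hfin : (φ.ker : Set W.Point).Finite)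

open Classical in
/-- the polynomial vanishing at the `x`-coordinates of the nonzero points of the kernel -/
noncomputable def kerPoly : Polynomial k :=
  ∏ T ∈ hfin.toFinset.filter (fun T => T ≠ 0), (Polynomial.X - Polynomial.C (ptX T))

theorem kerPoly_ne_zero : kerPoly φ hfin ≠ 0 :=
  Finset.prod_ne_zero_iff.mpr fun _ _ => Polynomial.X_sub_C_ne_zero _

theorem kerPoly_eval_ne_zero_iff (x : k) :
    (kerPoly φ hfin).eval x ≠ 0 ↔ ∀ T ∈ φ.ker, T ≠ 0 → ptX T ≠ x := by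
  classical
  unfold kerPoly
  rw [Polynomial.eval_prod, Finset.prod_ne_zero_iff]
  constructor
  · intro h T hT hT0 hx
    have := h T (Finset.mem_filter.mpr ⟨hfin.mem_toFinset.mpr hT, hT0⟩)
    rw [Polynomial.eval_sub, Polynomial.eval_X, Polynomial.eval_C, hx, sub_self] at this
    exact this rfl
  · intro h T hT
    rw [Finset.mem_filter] at hT
    rw [Polynomial.eval_sub, Polynomial.eval_X, Polynomial.eval_C]
    exact sub_ne_zero.mpr (Ne.symm (h T (hfin.mem_toFinset.mp hT.1) hT.2))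

theorem not_mem_ker_of_kerPoly {x y : k} (h : W.Nonsingular x y)
    (hx : (kerPoly φ hfin).eval x ≠ 0) : (Point.some x y h : W.Point) ∉ φ.ker := fun hmem =>
  (kerPoly_eval_ne_zero_iff φ hfin x).mp hx _ hmem (Point.some_ne_zero h) rfl

/-- a strong `x`-map is a weak `x`-map for `g = kerPoly` -/
theorem HasXMap.weak {n d : Polynomial k} (hx : HasXMap φ n d) :
    HasXMapW φ n d (kerPoly φ hfin) :=
  ⟨kerPoly_ne_zero φ hfin, fun x y h hg => hx x y h (not_mem_ker_of_kerPoly φ hfin h hg)⟩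

/-- fibre-goodness for `g = kerPoly` -/
theorem fibre_good_kerPoly (P : W.Point) (hP : P ∉ φ.ker) :
    ∃ T ∈ φ.ker, ∃ (x y : k) (h : W.Nonsingular x y),
      P + T = .some x y h ∧ (kerPoly φ hfin).eval x ≠ 0 := by
  have hP0 : P ≠ 0 := fun h0 => hP (h0 ▸ φ.ker.zero_mem)
  obtain ⟨x, y, h, rfl⟩ := exists_eq_some hP0
  refine ⟨0, φ.ker.zero_mem, x, y, h, add_zero _, ?_⟩
  rw [kerPoly_eval_ne_zero_iff]
  intro T hT hT0 hx
  rcases eq_or_eq_neg_of_ptX_eq hT0 (Point.some_ne_zero h) hx with h1 | h1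
  · exact hP (h1 ▸ hT)
  · apply hP
    have : (Point.some x y h : W.Point) = -T := by rw [h1, neg_neg]
    rw [this]
    exact φ.ker.neg_mem hT

end strong

/-- **(U')** in the strong shape. -/
theorem uniqStatement : UniqStatement := by
  intro k _ _ _ _ W W₁ W₂ hΔ hΔ₁ hΔ₂ φ₁ φ₂ hs₁ hs₂ hker hfin hx₁ hx₂
  obtain ⟨n₁, d₁, hx₁⟩ := hx₁
  obtain ⟨n₂, d₂, hx₂⟩ := hx₂
  have hfin₂ : (φ₂.ker : Set W.Point).Finite := hker ▸ hfin
  have hg : ∀ x : k, (kerPoly φ₁ hfin).eval x ≠ 0 → (kerPoly φ₂ hfin₂).eval x ≠ 0 := by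
    intro x hx
    rw [kerPoly_eval_ne_zero_iff] at hx ⊢
    intro T hT
    exact hx T (hker ▸ hT)
  refine uniq_core W W₁ W₂ hΔ hΔ₁ hΔ₂ φ₁ φ₂ hs₁ hs₂ hker n₁ d₁ (kerPoly φ₁ hfin) n₂ d₂
    (kerPoly φ₂ hfin₂) (hx₁.weak φ₁ hfin) (hx₂.weak φ₂ hfin₂) ?_
  intro P hP
  obtain ⟨T, hT, x, y, h, e, hx⟩ := fibre_good_kerPoly φ₁ hfin P hP
  exact ⟨T, hT, x, y, h, e, hx, hg x hx⟩

end Fermat.Agent.EU
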