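/-
Cluster E' (Mazur), S12 side, seat DUAL = (V2) (helper4).

`DualStatement p` (E/S12/Leaves.lean) from Vélu's theorem (V1) and the explicit `x`-map (V1x) as
HYPOTHESES, and the uniqueness of the quotient (U', helper77's `EU.uniqStatementW`):
if `φ : E → F` is a surjective homomorphism with kernel of order `p` and rational `x`-map, and
`Q' = φ P₀` with `p • P₀ = 0`, `P₀ ∉ ker φ`, then `ψ ∘ φ : E → F / ⟨Q'⟩` (`ψ` = Vélu) and
`[p] : E → E` are surjective with the same kernel `E[p]`, so `j (F / ⟨Q'⟩) = j (E)`.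
-/
import Mathlib
import Fermat.Agent.E.S12.Leaves
import Fermat.Agent.E.S12.Dual.XMap
import Fermat.Agent.E.S12.Dual.Group
import Fermat.Agent.Lib.Torsion.Card
import Fermat.Agent.Lib.Torsion.Reduced

set_option autoImplicit false
set_option linter.unusedSectionVars false
set_option linter.style.haveILetI false

open WeierstrassCurve WeierstrassCurve.Affine Polynomial

namespace Fermat.Agent.ED

open Fermat.Agent.EV Fermat.Agent.EU Fermat.Agent.ES12 Fermat.Agent.Torsion S05H65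

lemma curveQb_Δ (W : WeierstrassCurve ℤ) : (CurveQb W).Δ = ((W.Δ : ℤ) : Qb) := by
  show ((W.map (Int.castRingHom ℚ)).map (algebraMap ℚ Qb)).Δ = _
  rw [WeierstrassCurve.map_Δ, WeierstrassCurve.map_Δ]
  simp

lemma curveQb_c₄ (W : WeierstrassCurve ℤ) : (CurveQb W).c₄ = ((W.c₄ : ℤ) : Qb) := by
  show ((W.map (Int.castRingHom ℚ)).map (algebraMap ℚ Qb)).c₄ = _
  rw [WeierstrassCurve.map_c₄, WeierstrassCurve.map_c₄]
  simp

lemma curveQb_Δ_ne_zero {W : WeierstrassCurve ℤ} (hΔ : W.Δ ≠ 0) : (CurveQb W).Δ ≠ 0 := by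
  rw [curveQb_Δ]
  exact_mod_cast hΔ

/-- **(DUAL)** from (V1), (V1x) (hypotheses) and (U') (helper77, proved). -/
theorem dualStatement_of (p : ℕ) (hp : p.Prime) (hp2 : p ≠ 2) (hV : VeluStatement)
    (hVx : ∀ (W : Affine Qb), W.Δ ≠ 0 → ∀ C : AddSubgroup W.Point, (C : Set W.Point).Finite →
      Odd (Nat.card C) → VeluXFormula W C) : DualStatement p := by
  have hU : UniqStatementW := uniqStatementW
  intro W F hWΔ hFΔ φ hφsurj hφker hφx P₀ hP₀ hφP₀
  obtain ⟨n, d, hφnd⟩ := hφx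
  have hEΔ : (CurveQb W).Δ ≠ 0 := curveQb_Δ_ne_zero hWΔ
  have hF'Δ : (CurveQb F).Δ ≠ 0 := curveQb_Δ_ne_zero hFΔ
  haveI : Fact p.Prime := ⟨hp⟩
  -- the subgroup `C = ⟨φ P₀⟩` of order `p`
  have hpφ : p • φ P₀ = 0 := by rw [← map_nsmul, hP₀, map_zero]
  have hord : addOrderOf (φ P₀) = p := addOrderOf_eq_prime hpφ hφP₀
  have hCcard : Nat.card (AddSubgroup.zmultiples (φ P₀)) = p := by
    rw [Nat.card_zmultiples, hord]
  have hCfin : ((AddSubgroup.zmultiples (φ P₀) : AddSubgroup (Pts F)) : Set (Pts F)).Finite := by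
    have : Finite (AddSubgroup.zmultiples (φ P₀)) :=
      Nat.finite_of_card_ne_zero (by rw [hCcard]; exact hp.ne_zero)
    exact Set.toFinite _
  have hCodd : Odd (Nat.card (AddSubgroup.zmultiples (φ P₀))) := by
    rw [hCcard]; exact hp.odd_of_ne_two hp2
  -- Vélu
  obtain ⟨hF''Δ, ψ, hψsurj, hψker, hψX⟩ :=
    hV Qb (CurveQb F) hF'Δ (AddSubgroup.zmultiples (φ P₀)) hCfin hCodd
  obtain ⟨n', d', hψnd⟩ := hasXMap_velu (CurveQb F) (AddSubgroup.zmultiples (φ P₀)) hCfin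
    (hVx (CurveQb F) hF'Δ _ hCfin hCodd) ψ hψker hψX
  -- the kernel of the composite is `E[p]`
  have hK0 : (ψ.comp φ).ker = AddSubgroup.comap φ (AddSubgroup.zmultiples (φ P₀)) := by
    ext x
    constructor
    · intro hx
      have h1 : φ x ∈ ψ.ker := hx
      rw [hψker] at h1
      exact h1
    · intro hx
      have h1 : φ x ∈ ψ.ker := by rw [hψker]; exact hx
      exact h1
  have hK : (ψ.comp φ).ker = torSub (CurveQb W) p := by
    rw [hK0]
    exact comap_zmultiples_eq_torsion φ hp hφker hP₀ hφP₀ (torSub (CurveQb W) p)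
      (fun x => Iff.rfl) (tcard_eq_sq hEΔ hp.one_le)
  have hKfin : (((ψ.comp φ).ker : AddSubgroup (Pts W)) : Set (Pts W)).Finite := by
    rw [hK]
    have : Finite (torSub (CurveQb W) p) := finite_torSub (CurveQb W) p hp.one_le
    exact Set.toFinite _
  obtain ⟨N, D, G, hΦ₁, hG⟩ := hasXMapW_comp φ ψ hφnd hψnd hKfin
  have hΦ₂ := hasXMapW_nsmul (CurveQb W) hp.one_le
  have hker₂ : (nsmulAddMonoidHom (α := Pts W) p).ker = torSub (CurveQb W) p := rfl
  have hP₀0 : P₀ ≠ 0 := fun h => hφP₀ (by rw [h, map_zero])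
  -- fibre-good
  have hfib : ∀ P : Pts W, P ∉ (ψ.comp φ).ker → ∃ T ∈ (ψ.comp φ).ker,
      ∃ (x y : Qb) (h : (CurveQb W).Nonsingular x y),
        P + T = .some x y h ∧ G.eval x ≠ 0 ∧ (ladG (CurveQb W) p).eval x ≠ 0 := by
    intro P hP
    have hpP : p • P ≠ 0 := fun h0 => hP (by rw [hK]; exact h0)
    obtain ⟨T, hT, hPT⟩ := exists_add_torsion_nsmul_ne_zero hp hpP hP₀ hP₀0
    have hTK : T ∈ (ψ.comp φ).ker := by rw [hK]; exact hT
    have hPT0 : P + T ≠ 0 := by
      have := hPT 1 le_rfl hp.one_le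
      rwa [one_smul] at this
    have hPTK : P + T ∉ (ψ.comp φ).ker := by
      intro h
      have := hPT p hp.one_le le_rfl
      apply this
      rw [hK] at h
      exact h
    obtain ⟨x, y, h, e⟩ := exists_some_of_ne_zero hPT0
    refine ⟨T, hTK, x, y, h, e, hG x y h (e ▸ hPTK), ?_⟩
    have := ladG_eval_ne_zero (W := CurveQb W) (P := P + T) p hp.one_le hPT
    rwa [e, px_some] at this
  have key := hU Qb (CurveQb W) (veluCurve (CurveQb F)
      ((AddSubgroup.zmultiples (φ P₀) : AddSubgroup (Pts F)) : Set (Pts F))) (CurveQb W)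
    hEΔ hF''Δ hEΔ (ψ.comp φ) (nsmulAddMonoidHom (α := Pts W) p) (hψsurj.comp hφsurj)
    (smul_surjective hEΔ hp.one_le) (hK.trans hker₂.symm) hKfin N D G _ _ _ hΦ₁ hΦ₂ hfib
  rw [curveQb_Δ, curveQb_c₄] at key
  exact key

end Fermat.Agent.ED
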