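import Mathlib
import Fermat.Prelude.Def_EllipticCurve_FrobeniusTrace
import Fermat.Prelude.Def_ExtCitation_KummerBridge
import Fermat.Agent.E.S12.Leaves
import Fermat.Agent.E.S12.Comp23
import Fermat.Agent.E.P.Split
import Fermat.Agent.Lib.MultRed.SatLine
import Fermat.Agent.Lib.FrobTrace.DetCycloEll
import Fermat.Agent.S14

/-!
# E' / S12, seat ADM: admissible extension + S14 ⇒ cofixed line (helper75)

`W / ℤ`, `Δ ≠ 0`, good or multiplicative reduction at the odd prime `p`, `Q` a rational point of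
order `p`, `E[p]` unramified outside `p`.  Then `(E[p], ⟨Q⟩)` is an admissible extension in the
sense of the Prelude (`isAdmissible`), so by S14 `E[p] = ⟨Q⟩ ⊕ C'` with `C'` Galois stable, and
`C'` is a cofixed line (`admStatement`).
-/

set_option autoImplicit false
set_option linter.unusedSectionVars false

open WeierstrassCurve WeierstrassCurve.Affine WeierstrassCurve.Affine.Point

namespace Fermat.Agent.ES12

open Fermat.Agent.EP ExtCitation

section General

variable (W : WeierstrassCurve ℤ) [DecidableEq (AlgebraicClosure ℚ)] {p : ℕ} [Fact p.Prime]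

/-- `σ` acts on `μ_p` through the exponent `cycloExp p σ`. -/
theorem apply_root_eq_pow_cycloExp (σ : AlgebraicClosure ℚ ≃ₐ[ℚ] AlgebraicClosure ℚ)
    (μ : AlgebraicClosure ℚ) (hμ : μ ^ p = 1) : σ μ = μ ^ cycloExp p σ := by
  have : NeZero p := ⟨(Fact.out : p.Prime).ne_zero⟩
  have h := modularCyclotomicCharacter.spec (AlgebraicClosure ℚ) (card_rootsOfUnity_eq_self p)
    (σ : AlgebraicClosure ℚ ≃+* AlgebraicClosure ℚ)
    (t := (rootsOfUnity.mkOfPowEq μ hμ : (AlgebraicClosure ℚ)ˣ)) (rootsOfUnity.mkOfPowEq μ hμ).2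
  simpa [cycloExp] using h

/-- `det (σ | E[p]) = χ_p (σ)`, in the Prelude's normalisation. -/
theorem det_eq_cycloExp (hΔ : W.Δ ≠ 0) (σ : AlgebraicClosure ℚ ≃ₐ[ℚ] AlgebraicClosure ℚ) :
    LinearMap.det (galoisRepModuleEnd ℚ (K := AlgebraicClosure ℚ)
      (W.map (Int.castRingHom ℚ)) p σ) = ((cycloExp p σ : ℕ) : ZMod p) := by
  have ha : ∀ μ : AlgebraicClosure ℚ, μ ^ p ^ 1 = 1 → σ μ = μ ^ cycloExp p σ := by
    intro μ hμ
    rw [pow_one] at hμ
    exact apply_root_eq_pow_cycloExp σ μ hμ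
  have key := Fermat.Agent.FrobTrace.galois_det_eq_natCast W hΔ (p := p) 1 σ (cycloExp p σ) ha
  have htr : ∀ n : ℕ, p ^ 1 = n →
      LinearMap.det (galoisRepModuleEnd ℚ (K := AlgebraicClosure ℚ)
        (W.map (Int.castRingHom ℚ)) (p ^ 1) σ) = ((cycloExp p σ : ℕ) : ZMod (p ^ 1)) →
      LinearMap.det (galoisRepModuleEnd ℚ (K := AlgebraicClosure ℚ)
        (W.map (Int.castRingHom ℚ)) n σ) = ((cycloExp p σ : ℕ) : ZMod n) := by
    intro n hn h
    subst hn
    exact h
  exact htr p (pow_one p) key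

variable {W}

/-- **(ADM, first half)**: `(E[p], ⟨Q⟩)` is an admissible extension. -/
theorem isAdmissible (hp2 : p ≠ 2) (hΔ : W.Δ ≠ 0) (hss : (p : ℤ) ∣ W.Δ → ¬ (p : ℤ) ∣ W.c₄)
    (Q : Submodule.torsionBy ℤ ((W.map (Int.castRingHom ℚ))⁄(AlgebraicClosure ℚ)).Point p)
    (hQ0 : Q ≠ 0)
    (hfix : ∀ σ : AlgebraicClosure ℚ ≃ₐ[ℚ] AlgebraicClosure ℚ, σ • Q = Q)
    (hunr : ∀ ℓ : ℕ, ℓ.Prime → ℓ ≠ p → ∀ A : ValuationSubring (AlgebraicClosure ℚ),
      A.LiesOverPrime ℓ → ∀ σ ∈ A.inertiaSubgroupIn ℚ,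
        ∀ x : Submodule.torsionBy ℤ ((W.map (Int.castRingHom ℚ))⁄(AlgebraicClosure ℚ)).Point p,
          σ • x = x) :
    IsAdmissibleExtensionCts p
      (Submodule.torsionBy ℤ ((W.map (Int.castRingHom ℚ))⁄(AlgebraicClosure ℚ)).Point p)
      (Submodule.span (ZMod p) {Q}) := by
  have hp : p.Prime := Fact.out
  have hcard := card_torsion_eq_sq W (p := p) hΔ
  have hfin : Finite (Submodule.torsionBy ℤ
      ((W.map (Int.castRingHom ℚ))⁄(AlgebraicClosure ℚ)).Point p) :=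
    Nat.finite_of_card_ne_zero (by rw [hcard]; exact pow_ne_zero _ hp.ne_zero)
  have hfd : FiniteDimensional (ZMod p) (Submodule.torsionBy ℤ
      ((W.map (Int.castRingHom ℚ))⁄(AlgebraicClosure ℚ)).Point p) := Module.Finite.of_finite
  have hrank := Fermat.Agent.S13AtP.finrank_eq_two_of_card hcard
  have hC1 : Module.finrank (ZMod p) (Submodule.span (ZMod p) {Q}) = 1 :=
    finrank_span_singleton hQ0
  have hCcard : Nat.card (Submodule.span (ZMod p) {Q}) = p := by
    have h := Module.natCard_eq_pow_finrank (K := ZMod p) (V := Submodule.span (ZMod p) {Q})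
    rw [Nat.card_zmod, hC1, pow_one] at h
    exact h
  have hCfix : ∀ σ : AlgebraicClosure ℚ ≃ₐ[ℚ] AlgebraicClosure ℚ,
      ∀ x ∈ Submodule.span (ZMod p) {Q}, σ • x = x := by
    intro σ x hx
    obtain ⟨a, rfl⟩ := Submodule.mem_span_singleton.mp hx
    rw [smul_comm, hfix σ]
  -- a basis starting with `Q`
  have hCtop : Submodule.span (ZMod p) {Q} ≠ ⊤ := by
    intro h
    have := hC1
    rw [h, finrank_top, hrank] at this
    omega
  obtain ⟨P, hP⟩ : ∃ P : Submodule.torsionBy ℤ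
      ((W.map (Int.castRingHom ℚ))⁄(AlgebraicClosure ℚ)).Point p,
      P ∉ Submodule.span (ZMod p) {Q} := by
    by_contra hcon
    push Not at hcon
    exact hCtop (Submodule.eq_top_iff'.mpr hcon)
  have hli : LinearIndependent (ZMod p) ![Q, P] := by
    rw [LinearIndependent.pair_iff' hQ0]
    intro a hcon
    apply hP
    rw [← hcon]
    exact Submodule.smul_mem _ _ (Submodule.mem_span_singleton_self Q)
  let b : Module.Basis (Fin 2) (ZMod p) (Submodule.torsionBy ℤ
      ((W.map (Int.castRingHom ℚ))⁄(AlgebraicClosure ℚ)).Point p) :=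
    basisOfLinearIndependentOfCardEqFinrank hli (by rw [hrank]; rfl)
  have hb0 : b 0 = Q := by
    simp [b]
  refine
    { stable := fun σ x hx => by rw [hCfix σ x hx]; exact hx
      fixed_sub := hCfix
      cyclo_quot := ?_
      card_sub := hCcard
      card_total := hcard
      unramified_outside := hunr
      locally_split := fun A hA =>
        exists_decomp_stable_compl W A hp2 hΔ hss hA _ hCcard hCfix
      open_kernel := ?_ }
  · intro σ x
    obtain ⟨u, z, hu, hz, hdet⟩ := Fermat.Agent.MultRed.exists_scalars_of_stable b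
      (Submodule.span (ZMod p) {Q}) (by rw [hb0])
      (galoisRepModuleEnd ℚ (K := AlgebraicClosure ℚ) (W.map (Int.castRingHom ℚ)) p σ)
      (fun w hw => by
        rw [galoisRepModuleEnd_apply, hCfix σ w hw]; exact hw)
    -- `u = 1`
    have hu1 : u = 1 := by
      have h1 := hu Q (Submodule.mem_span_singleton_self Q)
      rw [galoisRepModuleEnd_apply, hfix σ] at h1
      by_contra hne
      have h2 : (u - 1) • Q = 0 := by
        rw [sub_smul, one_smul, ← h1, sub_self]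
      rcases smul_eq_zero.mp h2 with h3 | h3
      · exact hne (sub_eq_zero.mp h3)
      · exact hQ0 h3
    rw [hu1, one_mul, det_eq_cycloExp W hΔ σ] at hdet
    have := hz x
    rw [galoisRepModuleEnd_apply, ← hdet] at this
    exact this
  · have h := Fermat.Agent.FrobTrace.isOpen_galoisRepModuleEnd_eq_one
      (W.map (Int.castRingHom ℚ)).toAffine p
    have hset : {σ : AlgebraicClosure ℚ ≃ₐ[ℚ] AlgebraicClosure ℚ |
        ∀ v : Submodule.torsionBy ℤ
          ((W.map (Int.castRingHom ℚ))⁄(AlgebraicClosure ℚ)).Point p, σ • v = v}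
        = {σ : AlgebraicClosure ℚ ≃ₐ[ℚ] AlgebraicClosure ℚ |
          galoisRepModuleEnd ℚ (K := AlgebraicClosure ℚ) (W.map (Int.castRingHom ℚ)) p σ = 1} := by
      ext σ
      simp only [Set.mem_ofPred_eq]
      constructor
      · intro h
        ext x
        simpa using congrArg Subtype.val (h x)
      · intro h x
        have := congrArg (fun f : Module.End (ZMod p) _ => f x) h
        simpa using this
    rw [hset]
    exact h

/-- **(ADM, second half)**: a global complement of the line of a rational point is a cofixed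
line. -/
theorem hasCofixedLine_of_isCompl
    (C C' : Submodule (ZMod p)
      (Submodule.torsionBy ℤ ((W.map (Int.castRingHom ℚ))⁄(AlgebraicClosure ℚ)).Point p))
    (hC0 : C ≠ ⊥) (hCtop : C ≠ ⊤)
    (hCfix : ∀ σ : AlgebraicClosure ℚ ≃ₐ[ℚ] AlgebraicClosure ℚ, ∀ x ∈ C, σ • x = x)
    (hC' : ∀ σ : AlgebraicClosure ℚ ≃ₐ[ℚ] AlgebraicClosure ℚ, ∀ x ∈ C', σ • x ∈ C')
    (hcompl : IsCompl C C') :
    ∃ N : Submodule (ZMod p)
        (Submodule.torsionBy ℤ ((W.map (Int.castRingHom ℚ))⁄(AlgebraicClosure ℚ)).Point p),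
      IsGaloisStable ℚ N ∧ N ≠ ⊥ ∧ N ≠ ⊤ ∧
        ∀ σ : AlgebraicClosure ℚ ≃ₐ[ℚ] AlgebraicClosure ℚ,
          ∀ x : Submodule.torsionBy ℤ ((W.map (Int.castRingHom ℚ))⁄(AlgebraicClosure ℚ)).Point p,
            σ • x - x ∈ N := by
  refine ⟨C', hC', ?_, ?_, ?_⟩
  · rintro rfl
    exact hCtop (eq_top_of_isCompl_bot hcompl)
  · rintro rfl
    exact hC0 (eq_bot_of_isCompl_top hcompl)
  · intro σ x
    obtain ⟨c, hc, c', hc', rfl⟩ : ∃ c ∈ C, ∃ c' ∈ C', c + c' = x := by
      have hx : x ∈ C ⊔ C' := by rw [hcompl.sup_eq_top]; exact Submodule.mem_top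
      exact Submodule.mem_sup.mp hx
    rw [smul_add, hCfix σ c hc]
    have : c + σ • c' - (c + c') = σ • c' - c' := by abel
    rw [this]
    exact C'.sub_mem (hC' σ c' hc') hc'

end General

/-- **(ADM)**, unfolded. -/
theorem adm_unfolded {p : ℕ} (hp : p.Prime) (hp3 : 3 ≤ p) (W : WeierstrassCurve ℤ) (hΔ : W.Δ ≠ 0)
    (hss : (p : ℤ) ∣ W.Δ → ¬ (p : ℤ) ∣ W.c₄)
    (Q : ((W.map (Int.castRingHom ℚ))⁄(AlgebraicClosure ℚ)).Point)
    (hfix : ∀ σ : AlgebraicClosure ℚ ≃ₐ[ℚ] AlgebraicClosure ℚ, σ • Q = Q)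
    (hord : addOrderOf Q = p)
    (hunr : ∀ ℓ : ℕ, ℓ.Prime → ℓ ≠ p → ∀ A : ValuationSubring (AlgebraicClosure ℚ),
      A.LiesOverPrime ℓ → ∀ σ ∈ A.inertiaSubgroupIn ℚ,
        ∀ P : ((W.map (Int.castRingHom ℚ))⁄(AlgebraicClosure ℚ)).Point, p • P = 0 → σ • P = P) :
    HasGaloisStableCofixedLine (K := AlgebraicClosure ℚ) ℚ (W.map (Int.castRingHom ℚ)) p := by
  have : Fact p.Prime := ⟨hp⟩
  have hp2 : p ≠ 2 := by omega
  obtain ⟨hQ0, hpQ⟩ := ne_zero_and_nsmul_of_addOrderOf hp hord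
  have hmem : Q ∈ Submodule.torsionBy ℤ
      ((W.map (Int.castRingHom ℚ))⁄(AlgebraicClosure ℚ)).Point p := by
    rw [Submodule.mem_torsionBy_iff, natCast_zsmul]
    exact hpQ
  let Q' : Submodule.torsionBy ℤ
      ((W.map (Int.castRingHom ℚ))⁄(AlgebraicClosure ℚ)).Point p := ⟨Q, hmem⟩
  have hQ'0 : Q' ≠ 0 := fun h => hQ0 (congrArg Subtype.val h)
  have hQ'fix : ∀ σ : AlgebraicClosure ℚ ≃ₐ[ℚ] AlgebraicClosure ℚ, σ • Q' = Q' :=
    fun σ => Subtype.ext (hfix σ)
  have hunr' : ∀ ℓ : ℕ, ℓ.Prime → ℓ ≠ p → ∀ A : ValuationSubring (AlgebraicClosure ℚ),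
      A.LiesOverPrime ℓ → ∀ σ ∈ A.inertiaSubgroupIn ℚ,
        ∀ x : Submodule.torsionBy ℤ ((W.map (Int.castRingHom ℚ))⁄(AlgebraicClosure ℚ)).Point p,
          σ • x = x := by
    intro ℓ hℓ hℓp A hA σ hσ x
    apply Subtype.ext
    refine hunr ℓ hℓ hℓp A hA σ hσ x.1 ?_
    have h1 : ((p : ℕ) : ℤ) • (x : ((W.map (Int.castRingHom ℚ))⁄(AlgebraicClosure ℚ)).Point) = 0 :=
      (Submodule.mem_torsionBy_iff _ _).mp x.2
    rwa [natCast_zsmul] at h1
  have hadm := isAdmissible hp2 hΔ hss Q' hQ'0 hQ'fix hunr'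
  obtain ⟨C', hC', hcompl⟩ := Fermat.Agent.S14.result hp3 _ _ hadm
  have hC0 : Submodule.span (ZMod p) {Q'} ≠ ⊥ := by
    intro h
    apply hQ'0
    have := Submodule.mem_span_singleton_self (R := ZMod p) Q'
    rw [h, Submodule.mem_bot] at this
    exact this
  have hCtop : Submodule.span (ZMod p) {Q'} ≠ ⊤ := by
    intro h
    have h1 := hadm.card_sub
    have h2 := hadm.card_total
    rw [h] at h1
    have h3 : Nat.card (⊤ : Submodule (ZMod p) (Submodule.torsionBy ℤ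
        ((W.map (Int.castRingHom ℚ))⁄(AlgebraicClosure ℚ)).Point p))
        = Nat.card (Submodule.torsionBy ℤ
          ((W.map (Int.castRingHom ℚ))⁄(AlgebraicClosure ℚ)).Point p) :=
      Nat.card_congr (Submodule.topEquiv (R := ZMod p)).toEquiv
    rw [h3, h2] at h1
    have := hp.two_le
    nlinarith
  exact hasCofixedLine_of_isCompl _ C' hC0 hCtop hadm.fixed_sub hC' hcompl

/-- **(ADM)** in the shape of `Leaves.lean`. -/
theorem admStatement {p : ℕ} (hp : p.Prime) (hp3 : 3 ≤ p) : AdmStatement p :=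
  fun W hΔ hss Q hfix hord hunr => adm_unfolded hp hp3 W hΔ hss Q hfix hord hunr

end Fermat.Agent.ES12
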