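/-
Cluster E' (Mazur), S12 side, seat X' = the endgame of the chain.  Owner: helper64.

`NoChain p` for odd `p ≥ 2`: a chain step `(A, B) ↦ (A', B')` multiplying all valuations of
`D = A (B/16) (A + B)` by `p` cannot exist, because `|A_k|`, `|A_k + B_k|` are `p^k`-th powers of
divisors of `D₀` while `2 ^ (p ^ k)` divides `B_k = C_k − A_k` (lifting the exponent at `2`).
-/
import Fermat.Agent.E.S12.Defs
import Fermat.Agent.E.Endgame

set_option autoImplicit false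

namespace Fermat.Agent.ES12

/-! ### Extraction of roots -/

/-- If all valuations of `n` are `M` times the valuations of `d`, then `n` is the `M`-th power of
a divisor of `d`. -/
theorem exists_root_dvd {n d M : ℕ} (hn : n ≠ 0) (hd : d ≠ 0)
    (h : ∀ ℓ : ℕ, ℓ.Prime → ℓ ∣ n → padicValNat ℓ n = M * padicValNat ℓ d) :
    ∃ α : ℕ, α ^ M = n ∧ α ∣ d := by
  classical
  refine ⟨∏ ℓ ∈ n.primeFactors, ℓ ^ (d.factorization ℓ), ?_, ?_⟩
  · rw [← Finset.prod_pow]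
    conv_rhs => rw [← Nat.prod_factorization_pow_eq_self hn]
    rw [Nat.prod_factorization_eq_prod_primeFactors]
    apply Finset.prod_congr rfl
    intro ℓ hℓ
    have hℓp := Nat.prime_of_mem_primeFactors hℓ
    have hℓn := Nat.dvd_of_mem_primeFactors hℓ
    rw [← pow_mul, Nat.factorization_def n hℓp, Nat.factorization_def d hℓp, h ℓ hℓp hℓn,
      mul_comm]
  · conv_rhs => rw [← Nat.prod_factorization_pow_eq_self hd]
    rw [Nat.prod_factorization_eq_prod_primeFactors]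
    have e : ∏ ℓ ∈ n.primeFactors, ℓ ^ (d.factorization ℓ) =
        ∏ ℓ ∈ n.primeFactors ∩ d.primeFactors, ℓ ^ (d.factorization ℓ) := by
      symm
      apply Finset.prod_subset Finset.inter_subset_left
      intro ℓ hℓ hℓ'
      have h1 : ℓ ∉ d.primeFactors := fun h => hℓ' (Finset.mem_inter.mpr ⟨hℓ, h⟩)
      rw [← Nat.support_factorization, Finsupp.notMem_support_iff] at h1
      rw [h1, pow_zero]
    rw [e]
    exact Finset.prod_dvd_prod_of_subset _ _ _ Finset.inter_subset_right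

/-! ### Frey pairs -/

variable {A B : ℤ}

theorem IsFreyPair.odd_A (h : IsFreyPair A B) : Odd A := by
  rw [Int.odd_iff]
  have := h.hA
  omega

theorem IsFreyPair.B_eq (h : IsFreyPair A B) : B = 16 * (B / 16) := by
  obtain ⟨b, hb⟩ := h.hB
  omega

theorem IsFreyPair.two_dvd_B16 (h : IsFreyPair A B) : (2 : ℤ) ∣ B / 16 := by
  obtain ⟨b, hb⟩ := h.hB
  exact ⟨b, by omega⟩

theorem IsFreyPair.odd_C (h : IsFreyPair A B) : Odd (A + B) := by
  rw [Int.odd_iff]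
  have := h.hA
  obtain ⟨b, hb⟩ := h.hB
  omega

theorem IsFreyPair.B16_ne_zero (h : IsFreyPair A B) : B / 16 ≠ 0 := by
  intro h0
  have := h.B_eq
  rw [h0, mul_zero] at this
  exact h.hB0 this

theorem IsFreyPair.freyD_ne_zero (h : IsFreyPair A B) : freyD A B ≠ 0 :=
  mul_ne_zero (mul_ne_zero h.hA0 h.B16_ne_zero) h.hC0

theorem IsFreyPair.two_dvd_freyD (h : IsFreyPair A B) : (2 : ℤ) ∣ freyD A B :=
  Dvd.dvd.mul_right (Dvd.dvd.mul_left h.two_dvd_B16 _) _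

theorem IsFreyPair.not_dvd_B_of_dvd_A (h : IsFreyPair A B) {ℓ : ℕ} (hℓ : ℓ.Prime)
    (hA : (ℓ : ℤ) ∣ A) : ¬ (ℓ : ℤ) ∣ B := by
  intro hB
  have h1 : IsUnit (ℓ : ℤ) := h.hcop.isUnit_of_dvd' hA hB
  rw [Int.isUnit_iff] at h1
  have := hℓ.two_le
  omega

theorem IsFreyPair.not_dvd_B16_of_not_dvd_B (h : IsFreyPair A B) {ℓ : ℕ}
    (hB : ¬ (ℓ : ℤ) ∣ B) : ¬ (ℓ : ℤ) ∣ B / 16 := by
  intro h1
  apply hB
  rw [h.B_eq]
  exact Dvd.dvd.mul_left h1 _

/-- valuations of `D` at the primes dividing `A`. -/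
theorem IsFreyPair.padicValInt_freyD_of_dvd_A (h : IsFreyPair A B) {ℓ : ℕ} (hℓ : ℓ.Prime)
    (hA : (ℓ : ℤ) ∣ A) : padicValInt ℓ (freyD A B) = padicValInt ℓ A := by
  have : Fact ℓ.Prime := ⟨hℓ⟩
  have hB := h.not_dvd_B_of_dvd_A hℓ hA
  have hB16 := h.not_dvd_B16_of_not_dvd_B hB
  have hC : ¬ (ℓ : ℤ) ∣ A + B := fun hC => hB ((dvd_add_right hA).mp hC)
  rw [freyD, padicValInt.mul (mul_ne_zero h.hA0 h.B16_ne_zero) h.hC0,
    padicValInt.mul h.hA0 h.B16_ne_zero, padicValInt.eq_zero_of_not_dvd hB16,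
    padicValInt.eq_zero_of_not_dvd hC]
  simp

/-- valuations of `D` at the primes dividing `C = A + B`. -/
theorem IsFreyPair.padicValInt_freyD_of_dvd_C (h : IsFreyPair A B) {ℓ : ℕ} (hℓ : ℓ.Prime)
    (hC : (ℓ : ℤ) ∣ A + B) : padicValInt ℓ (freyD A B) = padicValInt ℓ (A + B) := by
  have : Fact ℓ.Prime := ⟨hℓ⟩
  have hA : ¬ (ℓ : ℤ) ∣ A := by
    intro hA
    exact h.not_dvd_B_of_dvd_A hℓ hA ((dvd_add_right hA).mp hC)
  have hB : ¬ (ℓ : ℤ) ∣ B := by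
    intro hB
    exact hA ((dvd_add_left hB).mp hC)
  have hB16 := h.not_dvd_B16_of_not_dvd_B hB
  rw [freyD, padicValInt.mul (mul_ne_zero h.hA0 h.B16_ne_zero) h.hC0,
    padicValInt.mul h.hA0 h.B16_ne_zero, padicValInt.eq_zero_of_not_dvd hB16,
    padicValInt.eq_zero_of_not_dvd hA]
  simp

/-- the `2`-part of `D` divides `B`. -/
theorem IsFreyPair.two_pow_dvd_B (h : IsFreyPair A B) {e : ℕ}
    (he : (2 : ℤ) ^ e ∣ freyD A B) : (2 : ℤ) ^ e ∣ B := by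
  have hA : IsCoprime ((2 : ℤ) ^ e) A := (Int.isCoprime_two_left.mpr h.odd_A).pow_left
  have hC : IsCoprime ((2 : ℤ) ^ e) (A + B) := (Int.isCoprime_two_left.mpr h.odd_C).pow_left
  rw [freyD] at he
  have h1 : (2 : ℤ) ^ e ∣ A * (B / 16) := hC.dvd_of_dvd_mul_right he
  have h2 : (2 : ℤ) ^ e ∣ B / 16 := hA.dvd_of_dvd_mul_left h1
  rw [h.B_eq]
  exact Dvd.dvd.mul_left h2 _

/-- an integer whose absolute value is an `M`-th power (`M` odd) is an `M`-th power. -/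
theorem exists_int_root {A : ℤ} {α M : ℕ} (hM : Odd M) (h : α ^ M = A.natAbs) :
    ∃ a : ℤ, a ^ M = A ∧ |a| = (α : ℤ) := by
  refine ⟨A.sign * (α : ℤ), ?_, ?_⟩
  · rw [mul_pow]
    have h1 : ((α : ℤ)) ^ M = (A.natAbs : ℤ) := by exact_mod_cast h
    rw [h1]
    rcases lt_trichotomy A 0 with hA | hA | hA
    · rw [Int.sign_eq_neg_one_of_neg hA, hM.neg_one_pow]
      rw [Int.natCast_natAbs, abs_of_neg hA]
      ring
    · subst hA
      simp
    · rw [Int.sign_eq_one_of_pos hA, one_pow, one_mul, Int.natCast_natAbs, abs_of_pos hA]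
  · rcases lt_trichotomy A 0 with hA | hA | hA
    · rw [Int.sign_eq_neg_one_of_neg hA]
      simp
    · subst hA
      have hα : α = 0 := by
        have : α ^ M = 0 := by simpa using h
        exact (pow_eq_zero_iff hM.pos.ne').mp this
      simp [hα]
    · rw [Int.sign_eq_one_of_pos hA]
      simp

/-! ### The stages of the chain -/

/-- the stage `k` of a chain starting at `(A₀, B₀)`. -/
def Stage (p : ℕ) (A₀ B₀ : ℤ) (k : ℕ) (A B : ℤ) : Prop :=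
  ChainState p A B ∧ ∀ ℓ : ℕ, ℓ.Prime → (ℓ : ℤ) ∣ freyD A B →
    padicValInt ℓ (freyD A B) = p ^ k * padicValInt ℓ (freyD A₀ B₀)

theorem dvd_of_padicValInt_pos {ℓ : ℕ} {z : ℤ} (h : 0 < padicValInt ℓ z) : (ℓ : ℤ) ∣ z := by
  by_contra hn
  rw [padicValInt.eq_zero_of_not_dvd hn] at h
  exact lt_irrefl _ h

theorem padicValInt_pos_of_dvd {ℓ : ℕ} (hℓ : ℓ.Prime) {z : ℤ} (hz : z ≠ 0)
    (h : (ℓ : ℤ) ∣ z) : 0 < padicValInt ℓ z := by
  have : Fact ℓ.Prime := ⟨hℓ⟩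
  have h1 : (ℓ : ℤ) ^ 1 ∣ z := by simpa using h
  have h2 := (padicValInt_dvd_iff 1 z).mp h1
  rcases h2 with h2 | h2
  · exact absurd h2 hz
  · exact h2

theorem exists_stage {p : ℕ} {A₀ B₀ : ℤ} (hstep : ChainStep p) (h0 : ChainState p A₀ B₀)
    (k : ℕ) : ∃ A B : ℤ, Stage p A₀ B₀ k A B := by
  induction k with
  | zero => exact ⟨A₀, B₀, h0, fun ℓ _ _ => by simp⟩
  | succ k ih =>
    obtain ⟨A, B, hAB, hval⟩ := ih
    obtain ⟨A', B', hAB', hval'⟩ := hstep A B hAB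
    refine ⟨A', B', hAB', ?_⟩
    intro ℓ hℓ hdvd
    have h1 := hval' ℓ hℓ hdvd
    have hpos : 0 < padicValInt ℓ (freyD A' B') :=
      padicValInt_pos_of_dvd hℓ hAB'.1.freyD_ne_zero hdvd
    have hpos' : 0 < padicValInt ℓ (freyD A B) := by
      rw [h1] at hpos
      exact Nat.pos_of_mul_pos_left hpos
    rw [h1, hval ℓ hℓ (dvd_of_padicValInt_pos hpos'), pow_succ]
    ring

/-- the bound at the stage `k`. -/
theorem stage_bound {p : ℕ} (hp : Odd p) {A₀ B₀ : ℤ} (h0 : IsFreyPair A₀ B₀) {k : ℕ} {A B : ℤ}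
    (hst : Stage p A₀ B₀ k A B) :
    (2 : ℤ) ^ (p ^ k) ≤ 2 * ((freyD A₀ B₀).natAbs : ℤ) := by
  obtain ⟨⟨hF, -⟩, hval⟩ := hst
  have hM : Odd (p ^ k) := hp.pow
  have hd : (freyD A₀ B₀).natAbs ≠ 0 := Int.natAbs_ne_zero.mpr h0.freyD_ne_zero
  -- `|A|` is a `p ^ k`-th power
  obtain ⟨α, hα, hαd⟩ : ∃ α : ℕ, α ^ (p ^ k) = A.natAbs ∧ α ∣ (freyD A₀ B₀).natAbs := by
    apply exists_root_dvd (Int.natAbs_ne_zero.mpr hF.hA0) hd
    intro ℓ hℓ hℓA
    have hℓA' : (ℓ : ℤ) ∣ A := Int.natCast_dvd.mpr hℓA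
    have hℓD : (ℓ : ℤ) ∣ freyD A B := Dvd.dvd.mul_right (Dvd.dvd.mul_right hℓA' _) _
    have h1 := hval ℓ hℓ hℓD
    rw [hF.padicValInt_freyD_of_dvd_A hℓ hℓA'] at h1
    exact h1
  -- `|A + B|` is a `p ^ k`-th power
  obtain ⟨γ, hγ, hγd⟩ : ∃ γ : ℕ, γ ^ (p ^ k) = (A + B).natAbs ∧ γ ∣ (freyD A₀ B₀).natAbs := by
    apply exists_root_dvd (Int.natAbs_ne_zero.mpr hF.hC0) hd
    intro ℓ hℓ hℓC
    have hℓC' : (ℓ : ℤ) ∣ A + B := Int.natCast_dvd.mpr hℓC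
    have hℓD : (ℓ : ℤ) ∣ freyD A B := Dvd.dvd.mul_left hℓC' _
    have h1 := hval ℓ hℓ hℓD
    rw [hF.padicValInt_freyD_of_dvd_C hℓ hℓC'] at h1
    exact h1
  obtain ⟨a, ha, haα⟩ := exists_int_root hM hα
  obtain ⟨c, hc, hcγ⟩ := exists_int_root hM hγ
  have hodda : Odd a := by
    have h1 : Odd (a ^ (p ^ k)) := ha ▸ hF.odd_A
    exact (Int.odd_pow.mp h1).resolve_right hM.pos.ne'
  have hoddc : Odd c := by
    have h1 : Odd (c ^ (p ^ k)) := hc ▸ hF.odd_C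
    exact (Int.odd_pow.mp h1).resolve_right hM.pos.ne'
  -- the `2`-part
  have h2 : (2 : ℤ) ^ (p ^ k) ∣ B := by
    apply hF.two_pow_dvd_B
    have h3 := hval 2 Nat.prime_two (by exact_mod_cast hF.two_dvd_freyD)
    have h4 : 0 < padicValInt 2 (freyD A₀ B₀) :=
      padicValInt_pos_of_dvd Nat.prime_two h0.freyD_ne_zero (by exact_mod_cast h0.two_dvd_freyD)
    have h5 : p ^ k ≤ padicValInt 2 (freyD A B) := by
      rw [h3]
      exact Nat.le_mul_of_pos_right _ h4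
    have h6 : ((2 : ℕ) : ℤ) ^ padicValInt 2 (freyD A B) ∣ freyD A B := padicValInt_dvd _
    exact (pow_dvd_pow (2 : ℤ) h5).trans (by exact_mod_cast h6)
  have hB : B = c ^ (p ^ k) + (-1) * a ^ (p ^ k) ∨ B = -(c ^ (p ^ k) + (-1) * a ^ (p ^ k)) := by
    left
    rw [ha, hc]
    ring
  have hbound := Fermat.Agent.EX.two_pow_le_of_chain hodda hoddc hM (Or.inr rfl) hF.hB0 hB h2
  rw [haα, hcγ] at hbound
  have hα' : α ≤ (freyD A₀ B₀).natAbs := Nat.le_of_dvd (Nat.pos_of_ne_zero hd) hαd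
  have hγ' : γ ≤ (freyD A₀ B₀).natAbs := Nat.le_of_dvd (Nat.pos_of_ne_zero hd) hγd
  have hα'' : (α : ℤ) ≤ ((freyD A₀ B₀).natAbs : ℤ) := by exact_mod_cast hα'
  have hγ'' : (γ : ℤ) ≤ ((freyD A₀ B₀).natAbs : ℤ) := by exact_mod_cast hγ'
  linarith

/-- **(X')** the endgame of the chain: no chain step exists. -/
theorem noChain {p : ℕ} (hp2 : 2 ≤ p) (hp : Odd p) : NoChain p := by
  intro A₀ B₀ h0 hstep
  set d := (freyD A₀ B₀).natAbs with hd
  obtain ⟨A, B, hst⟩ := exists_stage hstep h0 (2 * d)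
  have h1 := stage_bound hp h0.1 hst
  have h2 : 2 * d < p ^ (2 * d) := Nat.lt_pow_self hp2
  have h3 : p ^ (2 * d) < 2 ^ (p ^ (2 * d)) := Nat.lt_two_pow_self
  have h4 : (2 * d : ℕ) < 2 ^ (p ^ (2 * d)) := h2.trans h3
  have h5 : ((2 * d : ℕ) : ℤ) < (2 : ℤ) ^ (p ^ (2 * d)) := by exact_mod_cast h4
  push_cast at h5
  linarith

end Fermat.Agent.ES12
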