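/-
Cluster E' (Mazur), S12 side.  Small auxiliary lemmas for the chain step
(stub: helper60; proofs: helper72).
-/
import Fermat.Agent.E.S12.Leaves
import Fermat.Agent.Lib.Frobenius.Exists
import Fermat.Agent.Lib.EllRed.Qbar
import Fermat.Agent.Lib.Torsion.Card

set_option autoImplicit false
set_option linter.style.haveILetI false

open WeierstrassCurve WeierstrassCurve.Affine WeierstrassCurve.Affine.Point

namespace Fermat.Agent.ES12

/-! ### (FP) Frey pairs -/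

/-- Normal form of a Frey pair: `A = 4 a + 3`, `B = 32 b`. -/
theorem IsFreyPair.exists_eq_stepAux {A B : ℤ} (h : IsFreyPair A B) :
    ∃ a b : ℤ, A = 4 * a + 3 ∧ B = 32 * b := by
  obtain ⟨b, hb⟩ := h.hB
  refine ⟨A / 4, b, ?_, hb⟩
  have := Int.mul_ediv_add_emod A 4
  rw [h.hA] at this
  omega

theorem stepAux_freyLike_a₂_eq (a b : ℤ) : (freyLike (4 * a + 3) (32 * b)).a₂ = 8 * b - a - 1 := by
  show (32 * b - 1 - (4 * a + 3)) / 4 = 8 * b - a - 1
  have : 32 * b - 1 - (4 * a + 3) = 4 * (8 * b - a - 1) := by ring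
  rw [this, Int.mul_ediv_cancel_left _ (by norm_num : (4 : ℤ) ≠ 0)]

theorem stepAux_freyLike_a₄_eq (a b : ℤ) : (freyLike (4 * a + 3) (32 * b)).a₄ = -(2 * (4 * a + 3) * b) := by
  show -((4 * a + 3) * (32 * b)) / 16 = -(2 * (4 * a + 3) * b)
  have : -((4 * a + 3) * (32 * b)) = 16 * (-(2 * (4 * a + 3) * b)) := by ring
  rw [this, Int.mul_ediv_cancel_left _ (by norm_num : (16 : ℤ) ≠ 0)]

theorem stepAux_freyD_eq (a b : ℤ) :
    freyD (4 * a + 3) (32 * b) = (4 * a + 3) * (2 * b) * (4 * a + 3 + 32 * b) := by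
  show (4 * a + 3) * ((32 * b) / 16) * (4 * a + 3 + 32 * b) = _
  have : (32 * b) = 16 * (2 * b) := by ring
  rw [this, Int.mul_ediv_cancel_left _ (by norm_num : (16 : ℤ) ≠ 0)]

/-- `Δ (freyLike A B) = D (A, B) ^ 2`. -/
theorem freyLike_Δ {A B : ℤ} (h : IsFreyPair A B) : (freyLike A B).Δ = freyD A B ^ 2 := by
  obtain ⟨a, b, rfl, rfl⟩ := h.exists_eq_stepAux
  rw [stepAux_freyD_eq]
  simp only [WeierstrassCurve.Δ, WeierstrassCurve.b₂, WeierstrassCurve.b₄, WeierstrassCurve.b₆,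
    WeierstrassCurve.b₈, stepAux_freyLike_a₂_eq, stepAux_freyLike_a₄_eq]
  simp only [freyLike]
  ring

/-- `c₄ (freyLike A B) = A² + A B + B²`. -/
theorem freyLike_c₄ {A B : ℤ} (h : IsFreyPair A B) :
    (freyLike A B).c₄ = A ^ 2 + A * B + B ^ 2 := by
  obtain ⟨a, b, rfl, rfl⟩ := h.exists_eq_stepAux
  simp only [WeierstrassCurve.c₄, WeierstrassCurve.b₂, WeierstrassCurve.b₄,
    stepAux_freyLike_a₂_eq, stepAux_freyLike_a₄_eq]
  simp only [freyLike]
  ring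

theorem freyD_ne_zero {A B : ℤ} (h : IsFreyPair A B) : freyD A B ≠ 0 := by
  obtain ⟨a, b, hA, hB⟩ := h.exists_eq_stepAux
  have hA0 := h.hA0
  have hB0 := h.hB0
  have hC0 := h.hC0
  subst hA hB
  rw [stepAux_freyD_eq]
  have hb : b ≠ 0 := by
    rintro rfl
    exact hB0 (by ring)
  exact mul_ne_zero (mul_ne_zero hA0 (mul_ne_zero two_ne_zero hb)) hC0

theorem freyLike_Δ_ne_zero {A B : ℤ} (h : IsFreyPair A B) : (freyLike A B).Δ ≠ 0 := by
  rw [freyLike_Δ h]; exact pow_ne_zero _ (freyD_ne_zero h)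

/-- Frey-type curves are semistable. -/
theorem freyLike_semistable {A B : ℤ} (h : IsFreyPair A B) {ℓ : ℕ} (hℓ : ℓ.Prime)
    (hΔ : (ℓ : ℤ) ∣ (freyLike A B).Δ) : ¬ (ℓ : ℤ) ∣ (freyLike A B).c₄ := by
  have hℓ' : Prime (ℓ : ℤ) := Nat.prime_iff_prime_int.mp hℓ
  rw [freyLike_Δ h] at hΔ
  rw [freyLike_c₄ h]
  have hD : (ℓ : ℤ) ∣ freyD A B := hℓ'.dvd_of_dvd_pow hΔ
  have hcop := h.hcop
  -- `ℓ` cannot divide both `A` and `B`
  have hnot : ¬ ((ℓ : ℤ) ∣ A ∧ (ℓ : ℤ) ∣ B) := by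
    rintro ⟨hA, hB⟩
    exact hℓ'.not_isUnit (hcop.isUnit_of_dvd' hA hB)
  have hB16 : (ℓ : ℤ) ∣ B / 16 → (ℓ : ℤ) ∣ B := by
    intro hd
    obtain ⟨b, hb⟩ := h.hB
    have h16 : (16 : ℤ) ∣ B := ⟨2 * b, by rw [hb]; ring⟩
    have : B = 16 * (B / 16) := (Int.mul_ediv_cancel' h16).symm
    rw [this]
    exact Dvd.dvd.mul_left hd 16
  intro hc
  have hcases : (ℓ : ℤ) ∣ A ∨ (ℓ : ℤ) ∣ B ∨ (ℓ : ℤ) ∣ A + B := by
    unfold freyD at hD
    rcases hℓ'.dvd_or_dvd hD with h1 | h1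
    · rcases hℓ'.dvd_or_dvd h1 with h2 | h2
      · exact Or.inl h2
      · exact Or.inr (Or.inl (hB16 h2))
    · exact Or.inr (Or.inr h1)
  rcases hcases with hA | hB | hAB
  · -- `ℓ ∣ A`, so `ℓ ∣ B²`
    have : (ℓ : ℤ) ∣ B ^ 2 := by
      have h1 : (ℓ : ℤ) ∣ A ^ 2 + A * B := by
        have : A ^ 2 + A * B = A * (A + B) := by ring
        rw [this]; exact Dvd.dvd.mul_right hA _
      have h2 := dvd_sub hc h1
      have : A ^ 2 + A * B + B ^ 2 - (A ^ 2 + A * B) = B ^ 2 := by ring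
      rwa [this] at h2
    exact hnot ⟨hA, hℓ'.dvd_of_dvd_pow this⟩
  · have : (ℓ : ℤ) ∣ A ^ 2 := by
      have h1 : (ℓ : ℤ) ∣ A * B + B ^ 2 := by
        have : A * B + B ^ 2 = B * (A + B) := by ring
        rw [this]; exact Dvd.dvd.mul_right hB _
      have h2 := dvd_sub hc h1
      have : A ^ 2 + A * B + B ^ 2 - (A * B + B ^ 2) = A ^ 2 := by ring
      rwa [this] at h2
    exact hnot ⟨hℓ'.dvd_of_dvd_pow this, hB⟩
  · -- `c₄ = (A + B)² − A B`
    have h1 : (ℓ : ℤ) ∣ (A + B) ^ 2 := Dvd.dvd.pow hAB two_ne_zero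
    have h2 := dvd_sub h1 hc
    have : (A + B) ^ 2 - (A ^ 2 + A * B + B ^ 2) = A * B := by ring
    rw [this] at h2
    rcases hℓ'.dvd_or_dvd h2 with hA | hB
    · have hB : (ℓ : ℤ) ∣ B := by
        have := dvd_sub hAB hA
        simpa using this
      exact hnot ⟨hA, hB⟩
    · have hA : (ℓ : ℤ) ∣ A := by
        have := dvd_sub hAB hB
        simpa using this
      exact hnot ⟨hA, hB⟩

theorem two_dvd_freyLike_Δ {A B : ℤ} (h : IsFreyPair A B) : (2 : ℤ) ∣ (freyLike A B).Δ := by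
  rw [freyLike_Δ h]
  obtain ⟨a, b, rfl, rfl⟩ := h.exists_eq_stepAux
  rw [stepAux_freyD_eq]
  exact ⟨(4 * a + 3) ^ 2 * (2 * b ^ 2) * (4 * a + 3 + 32 * b) ^ 2, by ring⟩

/-! ### (AUXV) valuations of integers at a valuation subring of `Q̄` over `ℓ` -/

theorem valuation_intCast_le_one (A : ValuationSubring Qb) (n : ℤ) :
    A.valuation ((n : ℤ) : Qb) ≤ 1 :=
  (A.valuation_le_one_iff _).2 (intCast_mem A n)

theorem stepAux_valuation_intCast_eq_one {ℓ : ℕ} (hℓ : ℓ.Prime) (A : ValuationSubring Qb)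
    (hA : A.LiesOverPrime ℓ) {n : ℤ} (hn : ¬ (ℓ : ℤ) ∣ n) :
    A.valuation ((n : ℤ) : Qb) = 1 := by
  have h1 : ¬ ℓ ∣ n.natAbs := fun h => hn (Int.natCast_dvd.mpr h)
  have h2 : A.valuation ((n.natAbs : ℕ) : Qb) = 1 := EllRed.valuation_natCast_eq_one hℓ hA h1
  rcases Int.natAbs_eq n with h | h
  · have : ((n : ℤ) : Qb) = ((n.natAbs : ℕ) : Qb) := by
      conv_lhs => rw [h]
      simp
    rw [this]; exact h2
  · have : ((n : ℤ) : Qb) = -((n.natAbs : ℕ) : Qb) := by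
      conv_lhs => rw [h]
      simp
    rw [this, Valuation.map_neg]; exact h2

theorem valuation_intCast_lt_one_iff {ℓ : ℕ} (hℓ : ℓ.Prime) (A : ValuationSubring Qb)
    (hA : A.LiesOverPrime ℓ) (n : ℤ) :
    A.valuation ((n : ℤ) : Qb) < 1 ↔ (ℓ : ℤ) ∣ n := by
  constructor
  · intro h
    by_contra hn
    rw [stepAux_valuation_intCast_eq_one hℓ A hA hn] at h
    exact lt_irrefl _ h
  · rintro ⟨c, rfl⟩
    rw [Int.cast_mul, map_mul]
    have h1 : A.valuation (((ℓ : ℤ) : ℤ) : Qb) < 1 := by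
      have : A.valuation (ℓ : Qb) < 1 := hA
      simpa using this
    exact lt_of_le_of_lt (mul_le_of_le_one_right' (valuation_intCast_le_one A c)) h1

/-- The valuation of a nonzero integer is `v(ℓ) ^ v_ℓ(n)`. -/
theorem stepAux_valuation_intCast_eq_pow {ℓ : ℕ} (hℓ : ℓ.Prime) (A : ValuationSubring Qb)
    (hA : A.LiesOverPrime ℓ) {n : ℤ} (hn : n ≠ 0) :
    A.valuation ((n : ℤ) : Qb) = A.valuation (ℓ : Qb) ^ (padicValInt ℓ n) := by
  haveI : Fact ℓ.Prime := ⟨hℓ⟩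
  have hpow : ((ℓ : ℤ)) ^ (padicValInt ℓ n) ∣ n := padicValInt_dvd n
  obtain ⟨c, hc⟩ := hpow
  have hc0 : ¬ (ℓ : ℤ) ∣ c := by
    intro hdvd
    obtain ⟨d, rfl⟩ := hdvd
    have h1 : ((ℓ : ℤ)) ^ (padicValInt ℓ n + 1) ∣ n :=
      ⟨d, by rw [pow_succ, mul_assoc]; exact hc⟩
    have h2 := (padicValInt_dvd_iff (p := ℓ) (padicValInt ℓ n + 1) n).mp h1
    rcases h2 with h2 | h2
    · exact hn h2
    · omega
  have hv : A.valuation ((c : ℤ) : Qb) = 1 := stepAux_valuation_intCast_eq_one hℓ A hA hc0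
  conv_lhs => rw [hc]
  rw [Int.cast_mul, map_mul, hv, mul_one, Int.cast_pow, map_pow]
  simp

/-- If `v(m) ^ p = v(n)` for nonzero integers `m, n` then `p v_ℓ(m) = v_ℓ(n)`. -/
theorem padicValInt_eq_of_valuation_pow_eq {ℓ : ℕ} (hℓ : ℓ.Prime) (A : ValuationSubring Qb)
    (hA : A.LiesOverPrime ℓ) {m n : ℤ} (hm : m ≠ 0) (hn : n ≠ 0) (p : ℕ)
    (h : A.valuation ((m : ℤ) : Qb) ^ p = A.valuation ((n : ℤ) : Qb)) :
    p * padicValInt ℓ m = padicValInt ℓ n := by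
  rw [stepAux_valuation_intCast_eq_pow hℓ A hA hm, stepAux_valuation_intCast_eq_pow hℓ A hA hn, ← pow_mul] at h
  have hlt : A.valuation (ℓ : Qb) < 1 := hA
  have hpos : 0 < A.valuation (ℓ : Qb) := by
    rw [Valuation.pos_iff]
    exact_mod_cast hℓ.ne_zero
  have hinj := pow_right_injective₀ (a := A.valuation (ℓ : Qb)) hpos hlt.ne
  have := hinj h
  rw [mul_comm]
  exact this

/-! ### (AUXC) the cofixed line has `p` elements -/

/-- A proper nonzero `ZMod p`-submodule of the `p`-torsion of an elliptic curve has `p`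
elements. -/
theorem card_line (W : WeierstrassCurve ℤ) (hΔ : W.Δ ≠ 0) {p : ℕ} [Fact p.Prime]
    (N : Submodule (ZMod p) (Submodule.torsionBy ℤ (Pts W) p)) (h0 : N ≠ ⊥) (h1 : N ≠ ⊤) :
    Nat.card N = p := by
  have hp : p.Prime := Fact.out
  have hΔ' : (CurveQb W).Δ ≠ 0 := by
    have h1 : (CurveQb W).Δ = algebraMap ℚ Qb ((W.map (Int.castRingHom ℚ)).Δ) :=
      WeierstrassCurve.map_Δ _ _
    have h2 : (W.map (Int.castRingHom ℚ)).Δ = ((W.Δ : ℤ) : ℚ) :=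
      WeierstrassCurve.map_Δ W (Int.castRingHom ℚ)
    rw [h1, h2]
    simpa using hΔ
  have hcard : Nat.card (Submodule.torsionBy ℤ (Pts W) p) = p ^ 2 :=
    Torsion.card_torsionBy (W := CurveQb W) hΔ' hp.one_le
  have : Finite (Submodule.torsionBy ℤ (Pts W) p) :=
    Nat.finite_of_card_ne_zero (by rw [hcard]; exact pow_ne_zero _ hp.ne_zero)
  have : FiniteDimensional (ZMod p) (Submodule.torsionBy ℤ (Pts W) p) := Module.Finite.of_finite
  have hV : Module.finrank (ZMod p) (Submodule.torsionBy ℤ (Pts W) p) = 2 := by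
    have h := Module.natCard_eq_pow_finrank (K := ZMod p)
      (V := Submodule.torsionBy ℤ (Pts W) p)
    rw [Nat.card_zmod, hcard] at h
    exact (Nat.pow_right_injective hp.two_le h).symm
  have hN1 : Module.finrank (ZMod p) N < 2 := hV ▸ Submodule.finrank_lt h1
  have hN0 : 0 < Module.finrank (ZMod p) N := by
    rw [Module.finrank_pos_iff]
    exact (Submodule.nontrivial_iff_ne_bot).mpr h0
  have hN : Module.finrank (ZMod p) N = 1 := by omega
  have h := Module.natCard_eq_pow_finrank (K := ZMod p) (V := N)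
  rw [Nat.card_zmod, hN, pow_one] at h
  exact h

end Fermat.Agent.ES12
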