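/-
Cluster E' (Mazur), S12 side.  (STEP) the chain step from the leaf statements (owner: helper60).
-/
import Fermat.Agent.E.S12.StepAux

set_option autoImplicit false

open WeierstrassCurve WeierstrassCurve.Affine WeierstrassCurve.Affine.Point

namespace Fermat.Agent.ES12

open Fermat.Agent.EV

theorem chainStep_of {p : ℕ} (hp : p.Prime) (hp17 : 17 ≤ p)
    (hM : MazurStep) (hQuot : QuotStatement p) (hDual : DualStatement p) (hL1 : L1Statement p)
    (hL2 : L2Statement p) (hG3 : G3Statement p) (hL2p : L2pStatement p) (hL3 : L3Statement p)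
    (hAdm : AdmStatement p) : ChainStep p := by
  have : Fact p.Prime := ⟨hp⟩
  rintro A B ⟨hFP, N, hNstab, hNbot, hNtop, hNcof⟩
  -- the line as a subgroup of points
  set T := Submodule.torsionBy ℤ (Pts (freyLike A B)) p with hT
  let N₀ : AddSubgroup (Pts (freyLike A B)) := N.toAddSubgroup.map T.subtype.toAddMonoidHom
  have hmemN₀ : ∀ P : Pts (freyLike A B), P ∈ N₀ ↔ ∃ x ∈ N, (x : Pts (freyLike A B)) = P := by
    intro P
    simp only [N₀, AddSubgroup.mem_map]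
    constructor
    · rintro ⟨x, hx, rfl⟩; exact ⟨x, hx, rfl⟩
    · rintro ⟨x, hx, rfl⟩; exact ⟨x, hx, rfl⟩
  have hcardN : Nat.card N = p := card_line (freyLike A B) (freyLike_Δ_ne_zero hFP) N hNbot hNtop
  have hcardN₀ : Nat.card N₀ = p := by
    rw [← hcardN]
    refine Nat.card_congr (Equiv.ofBijective (fun x : N₀ => (⟨⟨x.1, ?_⟩, ?_⟩ : N)) ?_).symm.symm
    · obtain ⟨y, _, hy⟩ := (hmemN₀ x.1).mp x.2
      rw [← hy]; exact y.2
    · obtain ⟨y, hyN, hy⟩ := (hmemN₀ x.1).mp x.2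
      have : (⟨x.1, by rw [← hy]; exact y.2⟩ : T) = y := Subtype.ext hy.symm
      rw [this]; exact hyN
    · constructor
      · intro x y hxy
        have := congrArg (fun z : N => ((z : T) : Pts (freyLike A B))) hxy
        exact Subtype.ext this
      · intro z
        exact ⟨⟨(z : T), (hmemN₀ _).mpr ⟨z.1, z.2, rfl⟩⟩, rfl⟩
  have hstabN₀ : ∀ σ : GQ, ∀ P ∈ N₀, σ • P ∈ N₀ := by
    intro σ P hP
    obtain ⟨x, hx, rfl⟩ := (hmemN₀ P).mp hP
    exact (hmemN₀ _).mpr ⟨σ • x, hNstab σ x hx, rfl⟩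
  -- a torsion point outside the line
  obtain ⟨x₀, hx₀⟩ : ∃ x₀ : T, x₀ ∉ N := by
    by_contra hcon
    push Not at hcon
    exact hNtop (eq_top_iff.mpr fun x _ => hcon x)
  set P₀ : Pts (freyLike A B) := (x₀ : Pts (freyLike A B)) with hP₀
  have hpP₀ : p • P₀ = 0 := by
    have := x₀.2
    rw [Submodule.mem_torsionBy_iff] at this
    rw [hP₀, ← this, Nat.cast_smul_eq_nsmul]
  have hP₀N : P₀ ∉ N₀ := by
    intro h
    obtain ⟨x, hx, hxe⟩ := (hmemN₀ _).mp h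
    have : x = x₀ := Subtype.ext hxe
    exact hx₀ (this ▸ hx)
  have hP₀cof : ∀ σ : GQ, σ • P₀ - P₀ ∈ N₀ := by
    intro σ
    exact (hmemN₀ _).mpr ⟨σ • x₀ - x₀, hNcof σ x₀, rfl⟩
  -- the quotient
  obtain ⟨A', B', hFP', φ, hφsurj, hφker, hφeq, hxmap⟩ := hQuot A B hFP N₀ hcardN₀ hstabN₀
  set Q' : Pts (freyLike A' B') := φ P₀ with hQ'
  have hQ'0 : Q' ≠ 0 := by
    intro h
    apply hP₀N
    rw [← hφker]; exact h
  have hpQ' : p • Q' = 0 := by
    rw [hQ', ← map_nsmul, hpP₀, _root_.map_zero]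
  have hQ'ord : addOrderOf Q' = p := by
    have h1 : addOrderOf Q' ∣ p := addOrderOf_dvd_of_nsmul_eq_zero hpQ'
    rcases (Nat.dvd_prime hp).mp h1 with h | h
    · exact absurd (AddMonoid.addOrderOf_eq_one_iff.mp h) hQ'0
    · exact h
  have hQ'fix : ∀ σ : GQ, σ • Q' = Q' := by
    intro σ
    rw [hQ', ← hφeq]
    have h1 : σ • P₀ - P₀ ∈ φ.ker := by rw [hφker]; exact hP₀cof σ
    have h2 : φ (σ • P₀ - P₀) = 0 := h1
    rw [map_sub, sub_eq_zero] at h2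
    exact h2
  -- reduction type of the new curve
  have hΔ' : (freyLike A' B').Δ ≠ 0 := freyLike_Δ_ne_zero hFP'
  have hss' : ∀ {ℓ : ℕ}, ℓ.Prime → (ℓ : ℤ) ∣ (freyLike A' B').Δ → ¬ (ℓ : ℤ) ∣ (freyLike A' B').c₄ :=
    fun hℓ h => freyLike_semistable hFP' hℓ h
  have h2Δ : (2 : ℤ) ∣ (freyLike A' B').Δ := two_dvd_freyLike_Δ hFP'
  have h2c₄ : ¬ (2 : ℤ) ∣ (freyLike A' B').c₄ := by
    have := hss' Nat.prime_two (by exact_mod_cast h2Δ)
    exact_mod_cast this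
  have h3Δ : (3 : ℤ) ∣ (freyLike A' B').Δ := hG3 _ hΔ' Q' hQ'fix hQ'ord
  have h3c₄ : ¬ (3 : ℤ) ∣ (freyLike A' B').c₄ := by
    have := hss' Nat.prime_three (by exact_mod_cast h3Δ)
    exact_mod_cast this
  have h2z := hL2 (freyLike A' B') 2 (Or.inl rfl) (by exact_mod_cast h2Δ)
    (by exact_mod_cast h2c₄) Q' hQ'fix hQ'ord
  have h3z := hL2 (freyLike A' B') 3 (Or.inr rfl) (by exact_mod_cast h3Δ)
    (by exact_mod_cast h3c₄) Q' hQ'fix hQ'ord
  have hp' : p ∉ ({2, 3, 5, 7, 13} : Finset ℕ) := by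
    simp only [Finset.mem_insert, Finset.mem_singleton]
    omega
  -- Mazur: `Q'` misses the zero component at every bad prime `≠ p`
  have hMz : ∀ {ℓ : ℕ}, ℓ.Prime → ℓ ≠ p → (ℓ : ℤ) ∣ (freyLike A' B').Δ →
      ∀ Av : ValuationSubring Qb, Av.LiesOverPrime ℓ →
        ¬ (freyLike A' B').InZeroComponentAt Av Q' := by
    intro ℓ hℓ hℓp hℓΔ Av hAv
    exact hM hp hp' (freyLike A' B') hΔ' Q' hQ'fix hQ'ord h2Δ h2c₄ h2z h3Δ h3c₄ h3z hℓ hℓp hℓΔ
      (hss' hℓ hℓΔ) Av hAv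
  -- unramified outside `p`
  have hunr : ∀ ℓ : ℕ, ℓ.Prime → ℓ ≠ p → ∀ Av : ValuationSubring Qb, Av.LiesOverPrime ℓ →
      ∀ σ ∈ Av.inertiaSubgroupIn ℚ, ∀ P : Pts (freyLike A' B'), p • P = 0 → σ • P = P := by
    intro ℓ hℓ hℓp
    exact hL3 (freyLike A' B') hΔ' Q' hQ'fix hQ'ord ℓ hℓ hℓp
      (fun hℓΔ => ⟨hss' hℓ hℓΔ, fun Av hAv => hMz hℓ hℓp hℓΔ Av hAv⟩)
  have hcof' : HasCofixedLine (freyLike A' B') p :=
    hAdm (freyLike A' B') hΔ' (fun h => hss' hp h) Q' hQ'fix hQ'ord hunr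
  refine ⟨A', B', ⟨hFP', hcof'⟩, ?_⟩
  -- valuations
  intro ℓ hℓ hℓD
  have hℓΔ : (ℓ : ℤ) ∣ (freyLike A' B').Δ := by
    rw [freyLike_Δ hFP']; exact dvd_pow hℓD two_ne_zero
  obtain ⟨Av, hAv⟩ := Fermat.Agent.FrobExists.exists_valuationSubring_liesOver ℓ hℓ
  have hz : ¬ (freyLike A' B').InZeroComponentAt Av Q' := by
    by_cases hℓp : ℓ = p
    · subst hℓp
      exact hL2p (freyLike A' B') hℓΔ (hss' hℓ hℓΔ) Q' hQ'fix hQ'ord Av hAv
    · exact hMz hℓ hℓp hℓΔ Av hAv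
  obtain ⟨hc₄'', hΔ''⟩ := hL1 (freyLike A' B') hΔ' ℓ hℓ hℓΔ (hss' hℓ hℓΔ) Av hAv Q' hQ'ord hz
  have hkercard : Nat.card φ.ker = p := by rw [hφker]; exact hcardN₀
  have hxmap' : ∃ n d : Polynomial Qb, ∀ (x y : Qb)
      (h : (CurveQb (freyLike A B)).Nonsingular x y),
      (Point.some x y h : Pts (freyLike A B)) ∉ φ.ker →
        d.eval x ≠ 0 ∧ ∃ (y' : Qb) (h' : (CurveQb (freyLike A' B')).Nonsingular
          (n.eval x / d.eval x) y'), φ (.some x y h) = .some (n.eval x / d.eval x) y' h' := by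
    obtain ⟨n, d, h⟩ := hxmap
    exact ⟨n, d, fun x y hxy hnot => h x y hxy (by rw [← hφker]; exact hnot)⟩
  have hdual := hDual (freyLike A B) (freyLike A' B') (freyLike_Δ_ne_zero hFP) hΔ' φ hφsurj
    hkercard hxmap' P₀ hpP₀ hQ'0
  -- take valuations in the `j`-equality
  have hv := congrArg Av.valuation hdual
  rw [map_mul, map_mul, map_pow, map_pow, hc₄'', one_pow, one_mul] at hv
  have hΔF_lt : Av.valuation (((freyLike A' B').Δ : ℤ) : Qb) < 1 :=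
    (valuation_intCast_lt_one_iff hℓ Av hAv _).mpr hℓΔ
  have hΔ''_lt : Av.valuation (veluCurve (CurveQb (freyLike A' B'))
      (AddSubgroup.zmultiples Q' : Set (Pts (freyLike A' B')))).Δ < 1 := by
    by_contra hge
    push Not at hge
    have : (1 : Av.ValueGroup) ≤ Av.valuation (veluCurve (CurveQb (freyLike A' B'))
      (AddSubgroup.zmultiples Q' : Set (Pts (freyLike A' B')))).Δ ^ p := one_le_pow_of_one_le' hge p
    rw [hΔ''] at this
    exact absurd hΔF_lt (not_lt.mpr this)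
  have hc₄E_le : Av.valuation (((freyLike A B).c₄ : ℤ) : Qb) ≤ 1 := valuation_intCast_le_one Av _
  have hΔE_lt : Av.valuation (((freyLike A B).Δ : ℤ) : Qb) < 1 := by
    rw [hv]
    calc Av.valuation (((freyLike A B).c₄ : ℤ) : Qb) ^ 3 * _
        ≤ 1 * _ := by
          gcongr
          exact pow_le_one' hc₄E_le 3
      _ < 1 := by rw [one_mul]; exact hΔ''_lt
  have hℓΔE : (ℓ : ℤ) ∣ (freyLike A B).Δ := (valuation_intCast_lt_one_iff hℓ Av hAv _).mp hΔE_lt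
  have hc₄E : Av.valuation (((freyLike A B).c₄ : ℤ) : Qb) = 1 := by
    rcases lt_or_eq_of_le hc₄E_le with h | h
    · exact absurd ((valuation_intCast_lt_one_iff hℓ Av hAv _).mp h)
        (freyLike_semistable hFP hℓ hℓΔE)
    · exact h
  rw [hc₄E, one_pow, one_mul] at hv
  have hfin : Av.valuation (((freyLike A B).Δ : ℤ) : Qb) ^ p
      = Av.valuation (((freyLike A' B').Δ : ℤ) : Qb) := by rw [hv, hΔ'']
  have hpv := padicValInt_eq_of_valuation_pow_eq hℓ Av hAv (freyLike_Δ_ne_zero hFP) hΔ' p hfin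
  rw [freyLike_Δ hFP, freyLike_Δ hFP'] at hpv
  have e1 : padicValInt ℓ (freyD A B ^ 2) = 2 * padicValInt ℓ (freyD A B) := by
    have : Fact ℓ.Prime := ⟨hℓ⟩
    rw [pow_two, padicValInt.mul (freyD_ne_zero hFP) (freyD_ne_zero hFP)]; ring
  have e2 : padicValInt ℓ (freyD A' B' ^ 2) = 2 * padicValInt ℓ (freyD A' B') := by
    have : Fact ℓ.Prime := ⟨hℓ⟩
    rw [pow_two, padicValInt.mul (freyD_ne_zero hFP') (freyD_ne_zero hFP')]; ring
  rw [e1, e2] at hpv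
  have : 2 * (p * padicValInt ℓ (freyD A B)) = 2 * padicValInt ℓ (freyD A' B') := by
    rw [← hpv]; ring
  exact (Nat.eq_of_mul_eq_mul_left (by norm_num) this).symm

end Fermat.Agent.ES12
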