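/-
Cluster E' (Mazur), S12 side.  (ASM) S12 from Mazur's key step and the leaf statements
(owner: helper60).
-/
import Fermat.Agent.E.S12.Step
import Fermat.Agent.E.S12.EndChain
import Fermat.Agent.Lib.Frey.Basic

set_option autoImplicit false

open WeierstrassCurve WeierstrassCurve.Affine WeierstrassCurve.Affine.Point

namespace Fermat.Agent.ES12

/-- The Frey curve of a Frey package is the Frey-type curve of the pair `(a ^ p, b ^ p)`. -/
theorem freyLike_eq_freyCurveInt (P : FreyPackage) :
    freyLike (P.a ^ P.p) (P.b ^ P.p) = P.freyCurveInt := by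
  unfold freyLike FreyPackage.freyCurveInt
  congr 1
  rw [neg_mul]

/-- `(a ^ p, b ^ p)` is a Frey pair. -/
theorem isFreyPair_of_freyPackage (P : FreyPackage) : IsFreyPair (P.a ^ P.p) (P.b ^ P.p) where
  hA := Fermat.Agent.FreyLib.a_pow_emod_four P
  hB := Fermat.Agent.FreyLib.thirtytwo_dvd_b_pow P
  hcop := by
    have h := P.hgcdab
    have h1 : IsCoprime P.a P.b := by
      rw [← gcd_isUnit_iff, h]
      exact isUnit_one
    exact IsCoprime.pow h1
  hA0 := pow_ne_zero _ P.ha0
  hB0 := pow_ne_zero _ P.hb0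
  hC0 := by rw [P.hFLT]; exact pow_ne_zero _ P.hc0

/-- **(ASM)** S12 from Mazur's key step (S15) and the leaf statements of the chain. -/
theorem s12_of (hM : MazurStep) (P : FreyPackage) (hp : 17 ≤ P.p)
    (hQuot : QuotStatement P.p) (hDual : DualStatement P.p) (hL1 : L1Statement P.p)
    (hL2 : L2Statement P.p) (hG3 : G3Statement P.p) (hL2p : L2pStatement P.p)
    (hL3 : L3Statement P.p) (hAdm : AdmStatement P.p) :
    ¬ HasGaloisStableCofixedLine (K := AlgebraicClosure ℚ) ℚ P.freyCurve P.p := by
  intro hcof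
  have hstate : ChainState P.p (P.a ^ P.p) (P.b ^ P.p) := by
    refine ⟨isFreyPair_of_freyPackage P, ?_⟩
    unfold HasCofixedLine
    rw [freyLike_eq_freyCurveInt, Fermat.Agent.FreyLib.freyCurveInt_map]
    exact hcof
  have hodd : Odd P.p := P.pp.odd_of_ne_two (by omega)
  exact noChain (by omega) hodd _ _ hstate
    (chainStep_of P.pp hp hM hQuot hDual hL1 hL2 hG3 hL2p hL3 hAdm)

end Fermat.Agent.ES12
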