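/-
Cluster E' (Mazur), S12 side, seat G3 (helper63): an integral Weierstrass model with a rational
point of prime order `p ≥ 11` has bad reduction at `3`.

Proof: if `3 ∤ Δ`, reduce at a place `A ∣ 3` of `Q̄` (`Lib/EllRed`: the reduction map is a group
homomorphism, injective on `p`-torsion).  The four points `Q, 2Q, 3Q, 4Q` are rational, not in the
kernel of reduction, and pairwise neither equal nor opposite (`p ∤ i ± j`), so the residues of
their `x`-coordinates are four distinct elements of the prime field `𝔽₃` of the residue field.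
-/
import Mathlib
import Fermat.Agent.E.S12.Leaves
import Fermat.Agent.Lib.EllRed.Qbar
import Fermat.Agent.Lib.Frobenius.Exists
import Fermat.Agent.Lib.FrobTrace.Residue

set_option autoImplicit false
set_option linter.unusedSectionVars false

open WeierstrassCurve WeierstrassCurve.Affine IsLocalRing

namespace Fermat.Agent.ES12G3

open Fermat.Agent.ES12 Fermat.Agent.EllRed

/-- An element of `ℚ̄` fixed by the whole Galois group is rational. -/
theorem exists_ratCast_of_forall_fixed (x : Qb) (hx : ∀ σ : GQ, σ x = x) :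
    ∃ r : ℚ, (r : Qb) = x := by
  have h1 : Algebra.IsAlgebraic ℚ (AlgebraicClosure ℚ) := AlgebraicClosure.isAlgebraic ℚ
  have h2 : IsAlgClosure ℚ (AlgebraicClosure ℚ) := ⟨inferInstance, h1⟩
  have h3 : IsGalois ℚ (AlgebraicClosure ℚ) := IsAlgClosure.isGalois ℚ (AlgebraicClosure ℚ)
  obtain ⟨r, hr⟩ :=
    (InfiniteGalois.mem_range_algebraMap_iff_fixed (k := ℚ) (K := AlgebraicClosure ℚ) x).mpr hx
  exact ⟨r, by rw [← hr]; simp⟩

section Residue

variable {K : Type*} [Field K] [CharZero K] (A : ValuationSubring K) {ℓ : ℕ} [Fact ℓ.Prime]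
  [Algebra (ZMod ℓ) (ResidueField A)]

lemma valuation_intCast_eq_one (hA : A.LiesOverPrime ℓ) {n : ℤ} (hn : ¬ (ℓ : ℤ) ∣ n) :
    A.valuation (n : K) = 1 := by
  have h1 : ¬ ℓ ∣ n.natAbs := fun h => hn (Int.natCast_dvd.mpr h)
  have h2 := valuation_natCast_eq_one (K := K) (Fact.out : ℓ.Prime) hA h1
  rcases Int.natAbs_eq n with h | h
  · have h' : (n : K) = ((n.natAbs : ℤ) : K) := congrArg (Int.cast (R := K)) h
    rw [h', Int.cast_natCast]; exact h2
  · have h' : (n : K) = ((-(n.natAbs : ℤ) : ℤ) : K) := congrArg (Int.cast (R := K)) h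
    rw [h', Int.cast_neg, Int.cast_natCast, Valuation.map_neg]; exact h2

/-- The residue of a rational number that is integral at `A ∣ ℓ` lies in the prime field. -/
theorem exists_zmod_eq_res_ratCast (hA : A.LiesOverPrime ℓ) (r : ℚ) (hr : (r : K) ∈ A) :
    ∃ c : ZMod ℓ, algebraMap (ZMod ℓ) (ResidueField A) c = res A (r : K) := by
  have hℓ : ℓ.Prime := Fact.out
  have hden0 : (r.den : K) ≠ 0 := by exact_mod_cast r.den_ne_zero
  have hrd : (r : K) * (r.den : K) = (r.num : K) := by
    have := Rat.mul_den_eq_num r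
    exact_mod_cast congrArg (fun q : ℚ => (q : K)) this
  have hden : ¬ ℓ ∣ r.den := by
    intro hd
    have hnum : ¬ (ℓ : ℤ) ∣ r.num := by
      intro hn
      have h1 : ℓ ∣ r.num.natAbs := Int.natCast_dvd.mp hn
      have h2 : ℓ ∣ Nat.gcd r.num.natAbs r.den := Nat.dvd_gcd h1 hd
      rw [r.reduced] at h2
      exact hℓ.one_lt.ne' (Nat.dvd_one.mp h2)
    have hv1 := valuation_intCast_eq_one A hA hnum
    have hv2 : A.valuation (r.den : K) < 1 := by
      obtain ⟨m, hm⟩ := hd
      have hℓv : A.valuation (ℓ : K) < 1 := hA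
      rw [hm, Nat.cast_mul, map_mul]
      have hm1 : A.valuation (m : K) ≤ 1 := (A.valuation_le_one_iff _).2 (natCast_mem A m)
      calc A.valuation (ℓ : K) * A.valuation (m : K) ≤ A.valuation (ℓ : K) * 1 :=
            mul_le_mul' le_rfl hm1
        _ = A.valuation (ℓ : K) := mul_one _
        _ < 1 := hℓv
    have hv3 : A.valuation (r : K) ≤ 1 := (A.valuation_le_one_iff _).2 hr
    have hv4 : A.valuation ((r : K) * (r.den : K)) < 1 := by
      rw [map_mul]
      calc A.valuation (r : K) * A.valuation (r.den : K) ≤ 1 * A.valuation (r.den : K) :=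
            mul_le_mul' hv3 le_rfl
        _ = A.valuation (r.den : K) := one_mul _
        _ < 1 := hv2
    rw [hrd, hv1] at hv4
    exact lt_irrefl _ hv4
  have hvd : A.valuation (r.den : K) = 1 := valuation_natCast_eq_one hℓ hA hden
  have hr' : (r : K) = (r.num : K) / (r.den : K) := by
    rw [eq_div_iff hden0]; exact hrd
  refine ⟨(r.num : ZMod ℓ) / (r.den : ZMod ℓ), ?_⟩
  rw [hr', res_div (intCast_mem A _) hvd, res_intCast, res_natCast, map_div₀, map_intCast,
    map_natCast]

end Residue

section Red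

variable {K : Type*} [Field K] [DecidableEq K] {A : ValuationSubring K}
  {E : Affine K} {Ek : Affine (ResidueField A)} [DecidableEq (ResidueField A)]
  (h : IsReduction A E Ek) (hΔ : Ek.Δ ≠ 0)

/-- Two integral points whose `x`-coordinates have the same residue reduce to equal or opposite
points. -/
lemma red_eq_or_eq_neg_of_res_eq {P P' : E.Point} {x y x' y' : K} {hxy : E.Nonsingular x y}
    {hxy' : E.Nonsingular x' y'} (hP : P = Point.some x y hxy) (hP' : P' = Point.some x' y' hxy')
    (hx : x ∈ A) (hx' : x' ∈ A) (hres : res A x = res A x') :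
    red h hΔ P = red h hΔ P' ∨ red h hΔ P = -red h hΔ P' := by
  subst hP hP'
  rw [red_some_of_mem h hΔ hxy hx, red_some_of_mem h hΔ hxy' hx']
  have e1 := (h.nonsingular_res hΔ hxy.1 hx (h.mem_y hxy.1 hx)).1
  have e2 := (h.nonsingular_res hΔ hxy'.1 hx' (h.mem_y hxy'.1 hx')).1
  rcases Y_eq_of_X_eq e1 e2 hres with hy | hy
  · left
    rw [Point.some.injEq]
    exact ⟨hres, hy⟩
  · right
    rw [Point.neg_some, Point.some.injEq]
    exact ⟨hres, hy⟩

end Red

/-- **(G3)** an integral model with a rational point of prime order `p ≥ 11` has bad reduction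
at `3`. -/
theorem g3Statement (p : ℕ) (hp : p.Prime) (h11 : 11 ≤ p) : G3Statement p := by
  intro W _ Q hfix hord
  by_contra h3
  have : Fact (Nat.Prime 3) := ⟨Nat.prime_three⟩
  obtain ⟨A, hA⟩ := Fermat.Agent.FrobExists.exists_valuationSubring_liesOver 3 Nat.prime_three
  have : CharP (ResidueField A) 3 := Fermat.Agent.FrobTrace.charP_residueField A hA
  let _ : Algebra (ZMod 3) (ResidueField A) := ZMod.algebra _ 3
  let _ : DecidableEq (ResidueField A) := Classical.decEq _
  have hgood : W.IsGoodPrimeFor 3 := fun hd => h3 (by exact_mod_cast hd)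
  have h := isReduction_of_model A W 3
  have hΔk := Δ_ne_zero_of_good A W 3 hgood
  have hp3 : ¬ 3 ∣ p := by
    intro hd
    have := (Nat.prime_dvd_prime_iff_eq Nat.prime_three hp).mp hd
    omega
  have hvp : A.valuation ((p : ℕ) : Qb) = 1 :=
    valuation_natCast_eq_one Nat.prime_three hA hp3
  -- multiples of `Q`
  have hzero : ∀ n : ℤ, n • Q = 0 ↔ (p : ℤ) ∣ n := by
    intro n
    rw [← hord]
    exact addOrderOf_dvd_iff_zsmul_eq_zero.symm
  have hfixn : ∀ (n : ℤ) (σ : GQ), σ • (n • Q) = n • Q := by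
    intro n σ
    rw [Point.algEquiv_smul_zsmul, hfix]
  have htors : ∀ n : ℤ, p • (n • Q) = 0 := by
    intro n
    rw [smul_comm, ← hord, addOrderOf_nsmul_eq_zero, smul_zero]
  have key : ∀ i : Fin 4, ∃ (c : ZMod 3) (x y : Qb) (hxy : (CurveQb W).Nonsingular x y),
      (((i : ℕ) : ℤ) + 1) • Q = Point.some x y hxy ∧ x ∈ A ∧
        algebraMap (ZMod 3) (ResidueField A) c = res A x := by
    intro i
    have hne : (((i : ℕ) : ℤ) + 1) • Q ≠ 0 := by
      rw [Ne, hzero]
      intro hd
      have h1 := Int.le_of_dvd (by positivity) hd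
      have h2 := i.isLt
      omega
    have hnG : ¬ S05H75.InG1 A.valuation ((((i : ℕ) : ℤ) + 1) • Q) := by
      intro hG
      exact hne (eq_zero_of_redHom_eq_zero h hΔk hvp (htors _)
        ((redHom_eq_zero_iff h hΔk _).mpr hG))
    have hint : IsInt A ((((i : ℕ) : ℤ) + 1) • Q) := by
      by_contra hc
      exact hnG ((not_isInt_iff_inG1 _).mp hc)
    obtain ⟨x, y, hxy, hP, hx⟩ := hint
    have hσ : ∀ σ : GQ, σ x = x := by
      intro σ
      have h1 := hfixn (((i : ℕ) : ℤ) + 1) σ
      rw [hP, Point.algEquiv_smul_def, Point.map_some] at h1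
      have h2 := (Point.some.injEq _ _ _ _ _ _).mp h1
      exact h2.1
    obtain ⟨r, hr⟩ := exists_ratCast_of_forall_fixed x hσ
    obtain ⟨c, hc⟩ := exists_zmod_eq_res_ratCast A hA r (hr ▸ hx)
    exact ⟨c, x, y, hxy, hP, hx, by rw [hc, hr]⟩
  choose c x y hxy hP hx hc using key
  have hinj : Function.Injective c := by
    intro i j hij
    have hres : res A (x i) = res A (x j) := by rw [← hc i, ← hc j, hij]
    have hi := i.isLt
    have hj := j.isLt
    rcases red_eq_or_eq_neg_of_res_eq h hΔk (hP i) (hP j) (hx i) (hx j) hres with he | he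
    · have h0 : redHom h hΔk (((((i : ℕ) : ℤ) + 1) - (((j : ℕ) : ℤ) + 1)) • Q) = 0 := by
        rw [sub_zsmul, map_add, map_neg, redHom_apply, redHom_apply, he, add_neg_cancel]
      have h1 := eq_zero_of_redHom_eq_zero h hΔk hvp (htors _) h0
      rw [hzero] at h1
      have h2 := Int.eq_zero_of_abs_lt_dvd h1 (abs_lt.mpr ⟨by omega, by omega⟩)
      apply Fin.ext
      omega
    · exfalso
      have h0 : redHom h hΔk (((((i : ℕ) : ℤ) + 1) + (((j : ℕ) : ℤ) + 1)) • Q) = 0 := by
        rw [add_zsmul, map_add, redHom_apply, redHom_apply, he, neg_add_cancel]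
      have h1 := eq_zero_of_redHom_eq_zero h hΔk hvp (htors _) h0
      rw [hzero] at h1
      have h2 := Int.le_of_dvd (by positivity) h1
      omega
  have hcard := Fintype.card_le_of_injective c hinj
  simp at hcard

end Fermat.Agent.ES12G3
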