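/-
Cluster E' (Mazur), S12 side, seat L0 (helper64), second part: the statement `AtTwoStatement p` of
`E/S12/Quot/Spec.lean` (the Vélu model of a Frey-type curve has `v₂ (j) < 0`), from `atTwo`.

* `atTwo_rat`: the rational form, with the hypothesis `W'.Δ ≠ 0`;
* `atTwoStatement`: `VeluStatement → AtTwoStatement p` (`Δ ≠ 0` from Vélu's theorem).
-/
import Mathlib
import Fermat.Agent.E.S12.AtTwo
import Fermat.Agent.E.S12.StepAux
import Fermat.Agent.E.S12.Quot.Spec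
import Fermat.Agent.Lib.Frobenius.Exists

set_option autoImplicit false
set_option linter.unusedSectionVars false

open WeierstrassCurve WeierstrassCurve.Affine

namespace Fermat.Agent.ES12

open Fermat.Agent.EV Fermat.Agent.EVC

section RatVal

variable {𝒜 : ValuationSubring Qb} {ℓ : ℕ}

theorem ratCast_eq_num_div_den (r : ℚ) :
    (r : Qb) * ((r.den : ℤ) : Qb) = ((r.num : ℤ) : Qb) := by
  have h1 : (r : ℚ) * (r.den : ℚ) = (r.num : ℚ) := Rat.mul_den_eq_num r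
  exact_mod_cast h1

/-- an `ℓ`-integral rational number has denominator prime to `ℓ` -/
theorem not_dvd_den_of_val_le_one (hℓ : ℓ.Prime) (h𝒜 : 𝒜.LiesOverPrime ℓ) (r : ℚ)
    (hr : 𝒜.valuation (r : Qb) ≤ 1) : ¬ (ℓ : ℤ) ∣ (r.den : ℤ) := by
  intro hd
  have hden : 𝒜.valuation (((r.den : ℤ)) : Qb) < 1 :=
    (valuation_intCast_lt_one_iff hℓ 𝒜 h𝒜 _).mpr hd
  have hnum : ¬ (ℓ : ℤ) ∣ r.num := by
    intro hn
    have h1 : ℓ ∣ r.num.natAbs := Int.natCast_dvd.mp hn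
    have h2 : ℓ ∣ r.den := Int.natCast_dvd_natCast.mp hd
    have h3 := Nat.dvd_gcd h1 h2
    rw [r.reduced] at h3
    exact hℓ.one_lt.ne' (Nat.dvd_one.mp h3)
  have hnum1 : 𝒜.valuation ((r.num : ℤ) : Qb) = 1 :=
    stepAux_valuation_intCast_eq_one hℓ 𝒜 h𝒜 hnum
  have h := congrArg 𝒜.valuation (ratCast_eq_num_div_den r)
  rw [map_mul, hnum1] at h
  have hlt : 𝒜.valuation (r : Qb) * 𝒜.valuation (((r.den : ℤ)) : Qb) < 1 := by
    calc 𝒜.valuation (r : Qb) * 𝒜.valuation (((r.den : ℤ)) : Qb)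
        ≤ 1 * 𝒜.valuation (((r.den : ℤ)) : Qb) := mul_le_mul' hr le_rfl
      _ = 𝒜.valuation (((r.den : ℤ)) : Qb) := one_mul _
      _ < 1 := hden
  rw [h] at hlt
  exact lt_irrefl _ hlt

theorem val_ratCast_eq_val_num (hℓ : ℓ.Prime) (h𝒜 : 𝒜.LiesOverPrime ℓ) (r : ℚ)
    (hr : 𝒜.valuation (r : Qb) ≤ 1) :
    𝒜.valuation (r : Qb) = 𝒜.valuation ((r.num : ℤ) : Qb) := by
  have hden : 𝒜.valuation (((r.den : ℤ)) : Qb) = 1 :=
    stepAux_valuation_intCast_eq_one hℓ 𝒜 h𝒜 (not_dvd_den_of_val_le_one hℓ h𝒜 r hr)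
  have h := congrArg 𝒜.valuation (ratCast_eq_num_div_den r)
  rw [map_mul, hden, mul_one] at h
  exact h

theorem padicValRat_eq_of_val_le_one (hℓ : ℓ.Prime) (h𝒜 : 𝒜.LiesOverPrime ℓ) (r : ℚ)
    (hr : 𝒜.valuation (r : Qb) ≤ 1) :
    padicValRat ℓ r = padicValInt ℓ r.num := by
  have hd : ¬ ℓ ∣ r.den := fun h =>
    not_dvd_den_of_val_le_one hℓ h𝒜 r hr (Int.natCast_dvd_natCast.mpr h)
  unfold padicValRat
  rw [padicValNat.eq_zero_of_not_dvd hd]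
  simp

/-- a rational `ℓ`-adic unit has `ℓ`-adic valuation `0` -/
theorem padicValRat_eq_zero_of_val_eq_one (hℓ : ℓ.Prime) (h𝒜 : 𝒜.LiesOverPrime ℓ) (r : ℚ)
    (hr : 𝒜.valuation (r : Qb) = 1) : padicValRat ℓ r = 0 := by
  rw [padicValRat_eq_of_val_le_one hℓ h𝒜 r hr.le]
  have h1 : 𝒜.valuation ((r.num : ℤ) : Qb) = 1 := by
    rw [← val_ratCast_eq_val_num hℓ h𝒜 r hr.le]
    exact hr
  have h2 : ¬ (ℓ : ℤ) ∣ r.num := by
    intro hd
    have := (valuation_intCast_lt_one_iff hℓ 𝒜 h𝒜 _).mpr hd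
    rw [h1] at this
    exact lt_irrefl _ this
  rw [padicValInt.eq_zero_of_not_dvd h2]
  rfl

/-- a nonzero rational number of valuation `< 1` has positive `ℓ`-adic valuation -/
theorem padicValRat_pos_of_val_lt_one (hℓ : ℓ.Prime) (h𝒜 : 𝒜.LiesOverPrime ℓ) (r : ℚ)
    (hr0 : r ≠ 0) (hr : 𝒜.valuation (r : Qb) < 1) : 0 < padicValRat ℓ r := by
  have : Fact ℓ.Prime := ⟨hℓ⟩
  rw [padicValRat_eq_of_val_le_one hℓ h𝒜 r hr.le]
  have h1 : 𝒜.valuation ((r.num : ℤ) : Qb) < 1 := by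
    rw [← val_ratCast_eq_val_num hℓ h𝒜 r hr.le]
    exact hr
  have h2 : (ℓ : ℤ) ∣ r.num := (valuation_intCast_lt_one_iff hℓ 𝒜 h𝒜 _).mp h1
  have h3 : ((ℓ : ℤ)) ^ 1 ∣ r.num := by rwa [pow_one]
  rcases (padicValInt_dvd_iff (p := ℓ) 1 r.num).mp h3 with h0 | h4
  · exact absurd (Rat.num_eq_zero.mp h0) hr0
  · exact_mod_cast h4

end RatVal

/-- **(L0), rational form**: if the Vélu model descends to `W' / ℚ` (with `Δ ≠ 0`), then
`c₄ (W') ≠ 0` and `3 v₂ (c₄) < v₂ (Δ)`, i.e. `v₂ (j (W')) < 0`. -/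
theorem atTwo_rat {A B : ℤ} (hAB : IsFreyPair A B) {p : ℕ} (hp : p.Prime) (hp2 : p ≠ 2)
    (N₀ : AddSubgroup (Pts (freyLike A B))) (hcard : Nat.card N₀ = p)
    (hstab : ∀ σ : GQ, ∀ P ∈ N₀, σ • P ∈ N₀)
    (W' : WeierstrassCurve ℚ)
    (hW' : (W'.map (algebraMap ℚ Qb) : WeierstrassCurve Qb) =
      veluCurve (CurveQb (freyLike A B)) (N₀ : Set (Pts (freyLike A B))))
    (hΔ : W'.Δ ≠ 0) :
    W'.c₄ ≠ 0 ∧ 3 * padicValRat 2 W'.c₄ < padicValRat 2 W'.Δ := by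
  obtain ⟨𝒜, h𝒜⟩ := Fermat.Agent.FrobExists.exists_valuationSubring_liesOver 2 Nat.prime_two
  obtain ⟨hc, hd⟩ := atTwo hAB hp hp2 N₀ hcard hstab 𝒜 h𝒜
  have e1 : (veluCurve (CurveQb (freyLike A B)) (N₀ : Set (Pts (freyLike A B)))).c₄
      = ((W'.c₄ : ℚ) : Qb) := by
    rw [← hW', WeierstrassCurve.map_c₄]
    simp
  have e2 : (veluCurve (CurveQb (freyLike A B)) (N₀ : Set (Pts (freyLike A B)))).Δ
      = ((W'.Δ : ℚ) : Qb) := by
    rw [← hW', WeierstrassCurve.map_Δ]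
    simp
  rw [e1] at hc
  rw [e2] at hd
  have hc0 : W'.c₄ ≠ 0 := by
    intro h0
    rw [h0] at hc
    simp at hc
  refine ⟨hc0, ?_⟩
  rw [padicValRat_eq_zero_of_val_eq_one Nat.prime_two h𝒜 _ hc, mul_zero]
  exact padicValRat_pos_of_val_lt_one Nat.prime_two h𝒜 _ hΔ hd

/-- **(L0)** in the shape of `E/S12/Quot/Spec.lean`. -/
theorem atTwoStatement (hV : VeluStatement) {p : ℕ} (hp : p.Prime) (hp2 : p ≠ 2) :
    AtTwoStatement p := by
  intro A B hAB N₀ hcard hstab W' hW'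
  have hfinN : Finite N₀ := Nat.finite_of_card_ne_zero (by rw [hcard]; exact hp.ne_zero)
  have hfin : (N₀ : Set (Pts (freyLike A B))).Finite := Set.toFinite _
  have hodd : Odd (Nat.card N₀) := by rw [hcard]; exact hp.odd_of_ne_two hp2
  have hΔW : (CurveQb (freyLike A B)).Δ ≠ 0 := by
    have h1 : (CurveQb (freyLike A B)).Δ = (((freyLike A B).Δ : ℤ) : Qb) := by
      show ((((freyLike A B).map (Int.castRingHom ℚ)).map (algebraMap ℚ Qb)).Δ) = _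
      rw [WeierstrassCurve.map_Δ, WeierstrassCurve.map_Δ]
      simp
    rw [h1]
    exact_mod_cast freyLike_Δ_ne_zero hAB
  have hVh := hV Qb (CurveQb (freyLike A B)) hΔW N₀ hfin hodd
  have hΔ' : W'.Δ ≠ 0 := by
    intro h0
    apply hVh.1
    rw [← hW', WeierstrassCurve.map_Δ, h0, map_zero]
  exact atTwo_rat hAB hp hp2 N₀ hcard hstab W' hW' hΔ'

end Fermat.Agent.ES12
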