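/-
Cluster E' (Mazur), S12 side, seat DUAL, piece P-LAD (owner: helper72).

The multiplication-by-`n` map on a Weierstrass curve has a WEAK `x`-map given by the ladder fraction
`ladF W n / ladG W n` of `Lib/Torsion/Ladder`:

* `dualLad_ladG_eval_ne_zero` : if `k • P ≠ 0` for all `1 ≤ k ≤ n` then `G_n (x P) ≠ 0`;
* `dualLad_nsmul_eq_some`     : if `G_n (x) ≠ 0` then `n • (x, y) = (F_n (x) / G_n (x), y')`;
* `dualLad_ladG_ne_zero`      : `G_n ≠ 0` (characteristic zero);
* `dualLad_fibre_good`        : (alg. closed, char. zero, `p` prime) every coset `P + E[p]` with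
  `p • P ≠ 0` contains an affine point `(x, y)` with `G_p (x) ≠ 0` (at most one point of the coset
  has order `< p`).
-/
import Fermat.Agent.Lib.Torsion.Card
import Fermat.Agent.Lib.Torsion.LadderDegree

set_option autoImplicit false
set_option linter.style.haveILetI false

open WeierstrassCurve WeierstrassCurve.Affine Polynomial

namespace Fermat.Agent.ES12

open Fermat.Agent.Torsion S05H65

section Field

variable {K : Type*} [Field K] [DecidableEq K] {W : WeierstrassCurve.Affine K}

/-- **(P-LAD 1)** the ladder denominator `G_n` does not vanish at `x(P)` if no multiple `k • P`,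
`1 ≤ k ≤ n`, is zero. -/
theorem dualLad_ladG_eval_ne_zero {P : W.Point} (n : ℕ) (hn : 1 ≤ n)
    (h : ∀ k : ℕ, 1 ≤ k → k ≤ n → k • P ≠ 0) : (ladG W n).eval (px P) ≠ 0 := by
  have hP : P ≠ 0 := by
    have := h 1 le_rfl hn
    rwa [one_smul] at this
  -- strong induction on pairs
  have key : ∀ m : ℕ, (∀ k : ℕ, 1 ≤ k → k ≤ m + 1 → k • P ≠ 0) →
      (ladG W (m + 1)).eval (px P) ≠ 0 := by
    intro m
    induction m using Nat.strong_induction_on with
    | _ m ih =>
      intro hm
      match m, ih, hm with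
      | 0, _, _ => simp
      | 1, _, hm =>
        have h2 : (2 : ℕ) • P ≠ 0 := hm 2 (by norm_num) (by norm_num)
        rw [two_nsmul] at h2
        show (ladG W 2).eval (px P) ≠ 0
        rw [ladG_two, eval_ladG2]
        exact fun h0 => h2 ((add_self_eq_zero_iff hP).mpr h0)
      | k + 2, ih, hm =>
        show (ladG W (k + 3)).eval (px P) ≠ 0
        rw [ladG_add_three, eval_mul, eval_ladD]
        have h1 : (ladG W (k + 1)).eval (px P) ≠ 0 :=
          ih k (by omega) fun j hj1 hj2 => hm j hj1 (by omega)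
        have h2 : (ladG W (k + 2)).eval (px P) ≠ 0 :=
          ih (k + 1) (by omega) fun j hj1 hj2 => hm j hj1 (by omega)
        have hk2 : (k + 2) • P ≠ 0 := hm (k + 2) (by omega) (by omega)
        have hF := ladF_eval_eq hP (n := k + 2) (by omega) hk2
        refine mul_ne_zero (pow_ne_zero 2 ?_) h1
        rw [hF, ← sub_mul]
        refine mul_ne_zero ?_ h2
        intro h0
        rw [sub_eq_zero] at h0
        rcases eq_or_eq_neg_of_px_eq hk2 hP h0 with e | e
        · -- `(k + 2) • P = P`, so `(k + 1) • P = 0`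
          have : (k + 1) • P = 0 := by
            have e' : (k + 2) • P = (k + 1) • P + P := succ_nsmul P (k + 1)
            rw [e'] at e
            exact add_eq_right.mp e
          exact hm (k + 1) (by omega) (by omega) this
        · -- `(k + 2) • P = -P`, so `(k + 3) • P = 0`
          have : (k + 3) • P = 0 := by
            have e' : (k + 3) • P = (k + 2) • P + P := succ_nsmul P (k + 2)
            rw [e', e, neg_add_cancel]
          exact hm (k + 3) (by omega) (by omega) this
  obtain ⟨m, rfl⟩ : ∃ m, n = m + 1 := ⟨n - 1, by omega⟩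
  exact key m h

/-- **(P-LAD 2)** the weak `x`-map of `[n]`: outside the zeros of `G_n`, `n • (x, y)` is the affine
point with `x`-coordinate `F_n (x) / G_n (x)`. -/
theorem dualLad_nsmul_eq_some (n : ℕ) (hn : 1 ≤ n) {x y : K} (h : W.Nonsingular x y)
    (hg : (ladG W n).eval x ≠ 0) :
    ∃ (y' : K) (h' : W.Nonsingular ((ladF W n).eval x / (ladG W n).eval x) y'),
      n • (Point.some x y h : W.Point) = Point.some _ y' h' := by
  have hP : (Point.some x y h : W.Point) ≠ 0 := Point.some_ne_zero h
  have hnP : n • (Point.some x y h : W.Point) ≠ 0 := by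
    intro h0
    exact hg (ladG_eval_eq_zero_of_smul_eq_zero hP hn h0)
  have hF := ladF_eval_eq hP hn hnP
  rw [px_some] at hF
  rcases hQ : n • (Point.some x y h : W.Point) with _ | ⟨x', y', h'⟩
  · exact absurd hQ hnP
  · rw [hQ, px_some] at hF
    have hx' : x' = (ladF W n).eval x / (ladG W n).eval x := by
      rw [hF, mul_div_assoc, div_self hg, mul_one]
    subst hx'
    exact ⟨y', h', rfl⟩

omit [DecidableEq K] in
/-- `G_n ≠ 0` in characteristic zero. -/
theorem dualLad_ladG_ne_zero [CharZero K] (W : WeierstrassCurve.Affine K) (n : ℕ) (hn : 1 ≤ n) :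
    ladG W n ≠ 0 :=
  ladG_ne_zero W n hn

/-- At most one point of a coset of `E[p]` has order `< p`. -/
theorem dualLad_unique_small {p : ℕ} (hp : p.Prime) {P T T' : W.Point} (hT : p • T = 0)
    (hT' : p • T' = 0) {k k' : ℕ} (hk : 1 ≤ k) (hkp : k < p) (hk' : 1 ≤ k') (hkp' : k' < p)
    (h : k • (P + T) = 0) (h' : k' • (P + T') = 0) : T = T' := by
  have hcop : Nat.Coprime (k * k') p := by
    apply Nat.Coprime.symm
    rw [Nat.Prime.coprime_iff_not_dvd hp]
    intro hdvd
    rcases (Nat.Prime.dvd_mul hp).mp hdvd with h1 | h1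
    · exact absurd (Nat.le_of_dvd (by omega) h1) (by omega)
    · exact absurd (Nat.le_of_dvd (by omega) h1) (by omega)
  have h1 : (k * k') • (T - T') = 0 := by
    have e : T - T' = (P + T) - (P + T') := by abel
    rw [e, smul_sub, mul_comm k k', mul_smul, h, smul_zero, mul_comm k' k, mul_smul, h',
      smul_zero, sub_zero]
  have h2 : p • (T - T') = 0 := by rw [smul_sub, hT, hT', sub_zero]
  have h3 : addOrderOf (T - T') ∣ Nat.gcd (k * k') p :=
    Nat.dvd_gcd (addOrderOf_dvd_of_nsmul_eq_zero h1) (addOrderOf_dvd_of_nsmul_eq_zero h2)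
  rw [hcop.gcd_eq_one, Nat.dvd_one, AddMonoid.addOrderOf_eq_one_iff] at h3
  exact sub_eq_zero.mp h3

end Field

section AlgClosed

variable {K : Type*} [Field K] [DecidableEq K] [IsAlgClosed K] [CharZero K]
  {W : WeierstrassCurve.Affine K}

/-- **(P-LAD 3)** fibre-good: every coset `P + E[p]` with `p • P ≠ 0` contains an affine point at
which the ladder denominator `G_p` does not vanish. -/
theorem dualLad_fibre_good (hΔ : W.Δ ≠ 0) {p : ℕ} (hp : p.Prime) (P : W.Point)
    (hP : p • P ≠ 0) :
    ∃ T : W.Point, p • T = 0 ∧ ∃ (x y : K) (h : W.Nonsingular x y),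
      P + T = Point.some x y h ∧ (ladG W p).eval x ≠ 0 := by
  -- a nonzero `p`-torsion point
  obtain ⟨T₁, hT₁, hT₁0⟩ : ∃ T₁ : W.Point, p • T₁ = 0 ∧ T₁ ≠ 0 := by
    haveI := nontrivial_torsionBy (W := W) hΔ hp.two_le
    obtain ⟨⟨T, hT⟩, hne⟩ := exists_ne (0 : Submodule.torsionBy ℤ W.Point (p : ℤ))
    refine ⟨T, ?_, fun h0 => hne (Subtype.ext h0)⟩
    have := (Submodule.mem_torsionBy_iff _ _).mp hT
    rwa [natCast_zsmul] at this
  -- a good translate
  have hgood : ∃ T : W.Point, p • T = 0 ∧ ∀ k : ℕ, 1 ≤ k → k < p → k • (P + T) ≠ 0 := by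
    by_contra hcon
    push Not at hcon
    obtain ⟨k, hk, hkp, h0⟩ := hcon 0 (smul_zero p)
    obtain ⟨k', hk', hkp', h1⟩ := hcon T₁ hT₁
    exact hT₁0 (dualLad_unique_small hp (smul_zero p) hT₁ hk hkp hk' hkp' h0 h1).symm
  obtain ⟨T, hT, hTgood⟩ := hgood
  have hall : ∀ k : ℕ, 1 ≤ k → k ≤ p → k • (P + T) ≠ 0 := by
    intro k hk hkp
    rcases Nat.lt_or_ge k p with hlt | hge
    · exact hTgood k hk hlt
    · obtain rfl : k = p := le_antisymm hkp hge
      rw [smul_add, hT, add_zero]
      exact hP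
  have hne := dualLad_ladG_eval_ne_zero (W := W) (P := P + T) p hp.one_le hall
  have hPT : P + T ≠ 0 := by
    have := hall 1 le_rfl hp.one_le
    rwa [one_smul] at this
  rcases hQ : P + T with _ | ⟨x, y, h⟩
  · exact absurd hQ hPT
  · rw [hQ, px_some] at hne
    exact ⟨T, hT, x, y, h, hQ, hne⟩

end AlgClosed

end Fermat.Agent.ES12
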