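import Mathlib
import Fermat.Prelude.Def_EllipticCurve_FrobeniusTrace
import Fermat.Agent.E.S12.ZeroComp
import Fermat.Agent.E.S12.Leaves
import Fermat.Agent.E.S12.Comp23
import Fermat.Agent.E.P.Split
import Fermat.Agent.S13.AtPCore

/-!
# E' / S12, seat L3: inertia at `ℓ ≠ p` is trivial on `E[p]` (helper75)

`W / ℤ`, `Δ ≠ 0`, `Q` a point of odd prime order `p` fixed by the inertia group of `A ∣ ℓ`, `ℓ ≠ p`.
* good reduction at `ℓ`: inertia is trivial on `E[p]` (`inertia_trivial_of_good`);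
* multiplicative reduction at `ℓ` and `Q` outside the zero component at `A`: inertia is trivial on
  `E[p]` (`inertia_trivial_of_mult`): `(σ - 1) E[p] ⊆ E₀ ∩ ker (σ - 1)`, and `ker (σ - 1) = ⟨Q⟩` if
  `σ ≠ 1`.
* `l3Statement`: the shape of `Leaves.lean`.
-/

set_option autoImplicit false
set_option linter.unusedSectionVars false

open WeierstrassCurve WeierstrassCurve.Affine WeierstrassCurve.Affine.Point

namespace Fermat.Agent.ES12

open S05H5 S05H65 S05H75 Fermat.Agent.MultRed Fermat.Agent.EllRed Fermat.Agent.EP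

section General

variable (W : WeierstrassCurve ℤ) [DecidableEq (AlgebraicClosure ℚ)]
  (A : ValuationSubring (AlgebraicClosure ℚ))

/-- good reduction at `ℓ ≠ p`: inertia at `ℓ` fixes the `p`-torsion -/
theorem inertia_trivial_of_good {p ℓ : ℕ} [Fact p.Prime] [Fact ℓ.Prime] (hℓp : ℓ ≠ p)
    (hA : A.LiesOverPrime ℓ) (hΔ : ¬ (ℓ : ℤ) ∣ W.Δ)
    (σ : AlgebraicClosure ℚ ≃ₐ[ℚ] AlgebraicClosure ℚ) (hσ : σ ∈ A.inertiaSubgroupIn ℚ)
    (P : ((W.map (Int.castRingHom ℚ))⁄(AlgebraicClosure ℚ)).Point) (hP : p • P = 0) :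
    σ • P = P := by
  have hp : p.Prime := Fact.out
  have hℓ : ℓ.Prime := Fact.out
  have hint := intCoeff_map_int W A
  obtain ⟨hb₂, hb₄, hb₆, hb₈⟩ := v_b_le_one A.valuation
    ((W.map (Int.castRingHom ℚ))⁄(AlgebraicClosure ℚ)).toAffine
    ((A.valuation_le_one_iff _).mpr hint.mem_a₁) ((A.valuation_le_one_iff _).mpr hint.mem_a₂)
    ((A.valuation_le_one_iff _).mpr hint.mem_a₃) ((A.valuation_le_one_iff _).mpr hint.mem_a₄)
    ((A.valuation_le_one_iff _).mpr hint.mem_a₆)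
  have hunit : A.valuation ((p : ℕ) : AlgebraicClosure ℚ) = 1 := by
    apply valuation_natCast_eq_one hℓ hA
    intro hd
    exact hℓp ((Nat.prime_dvd_prime_iff_eq hℓ hp).mp hd)
  have hG := inertia_sub_inG1_of_good W A hA hΔ σ hσ P
  have h0 : σ • P - P = 0 := by
    refine inG1_torsion_free A.valuation hb₂ hb₄ hb₆ hb₈ hunit hG ?_
    rw [nsmul_sub, smul_comm p σ P, hP, smul_zero, sub_zero]
  exact sub_eq_zero.mp h0

/-- multiplicative reduction at `ℓ ≠ p`, a point of order `p` fixed by inertia outside the zero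
component: inertia at `ℓ` fixes the `p`-torsion -/
theorem inertia_trivial_of_mult (hΔ0 : W.Δ ≠ 0) {p ℓ : ℕ} [Fact p.Prime] [Fact ℓ.Prime]
    (hp2 : p ≠ 2) (hℓp : ℓ ≠ p) (hA : A.LiesOverPrime ℓ) (hΔ : (ℓ : ℤ) ∣ W.Δ)
    (hc₄ : ¬ (ℓ : ℤ) ∣ W.c₄)
    {Q : ((W.map (Int.castRingHom ℚ))⁄(AlgebraicClosure ℚ)).Point} (hQ0 : Q ≠ 0)
    (hpQ : p • Q = 0) (hQcomp : ¬ W.InZeroComponentAt A Q)
    (σ : AlgebraicClosure ℚ ≃ₐ[ℚ] AlgebraicClosure ℚ) (hσ : σ ∈ A.inertiaSubgroupIn ℚ)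
    (hQfix : σ • Q = Q)
    (P : ((W.map (Int.castRingHom ℚ))⁄(AlgebraicClosure ℚ)).Point) (hP : p • P = 0) :
    σ • P = P := by
  have hp : p.Prime := Fact.out
  have hℓ : ℓ.Prime := Fact.out
  have hodd : Odd p := hp.odd_of_ne_two hp2
  have hℓp' : ¬ ℓ ∣ p := fun hd => hℓp ((Nat.prime_dvd_prime_iff_eq hℓ hp).mp hd)
  by_contra hne
  have hcard := card_torsion_eq_sq W (p := p) hΔ0
  have hfin : Finite (Submodule.torsionBy ℤ
      ((W.map (Int.castRingHom ℚ))⁄(AlgebraicClosure ℚ)).Point p) :=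
    Nat.finite_of_card_ne_zero (by rw [hcard]; exact pow_ne_zero _ hp.ne_zero)
  have hfd : FiniteDimensional (ZMod p) (Submodule.torsionBy ℤ
      ((W.map (Int.castRingHom ℚ))⁄(AlgebraicClosure ℚ)).Point p) := Module.Finite.of_finite
  have hrank := Fermat.Agent.S13AtP.finrank_eq_two_of_card hcard
  have hmem : ∀ X : ((W.map (Int.castRingHom ℚ))⁄(AlgebraicClosure ℚ)).Point, p • X = 0 →
      X ∈ Submodule.torsionBy ℤ ((W.map (Int.castRingHom ℚ))⁄(AlgebraicClosure ℚ)).Point p := by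
    intro X hX
    rw [Submodule.mem_torsionBy_iff, natCast_zsmul]
    exact hX
  -- the fixed space of `σ`
  let f : Module.End (ZMod p) (Submodule.torsionBy ℤ
      ((W.map (Int.castRingHom ℚ))⁄(AlgebraicClosure ℚ)).Point p) :=
    galoisRepModuleEnd ℚ (K := AlgebraicClosure ℚ) (W.map (Int.castRingHom ℚ)) p σ
  let F : Submodule (ZMod p) (Submodule.torsionBy ℤ
      ((W.map (Int.castRingHom ℚ))⁄(AlgebraicClosure ℚ)).Point p) := LinearMap.ker (f - 1)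
  have hF : ∀ x, x ∈ F ↔ σ • x = x := by
    intro x
    show (f - 1) x = 0 ↔ _
    rw [LinearMap.sub_apply, sub_eq_zero]
    rfl
  let Q' : Submodule.torsionBy ℤ
      ((W.map (Int.castRingHom ℚ))⁄(AlgebraicClosure ℚ)).Point p := ⟨Q, hmem Q hpQ⟩
  let P' : Submodule.torsionBy ℤ
      ((W.map (Int.castRingHom ℚ))⁄(AlgebraicClosure ℚ)).Point p := ⟨P, hmem P hP⟩
  have hQ'0 : Q' ≠ 0 := fun h => hQ0 (congrArg Subtype.val h)
  have hQF : Q' ∈ F := (hF Q').mpr (Subtype.ext hQfix)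
  have hPF : P' ∉ F := fun h => hne (congrArg Subtype.val ((hF P').mp h))
  -- `R = σ P - P` is fixed by `σ`
  have hun := inertia_unipotent W hΔ hc₄ A hA σ hσ hodd hℓp' P hP
  have hRF : σ • P' - P' ∈ F := by
    rw [hF]
    apply Subtype.ext
    show σ • (σ • P - P) = σ • P - P
    rw [smul_sub]
    have e : σ • (σ • P) - σ • P - (σ • P - P) = σ • (σ • P) - 2 • (σ • P) + P := by
      rw [two_nsmul]; abel
    exact sub_eq_zero.mp (e.trans hun)
  have hR0 : σ • P' - P' ≠ 0 := fun h => hPF ((hF P').mpr (sub_eq_zero.mp h))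
  -- `F = span {Q'}`
  have hFtop : F ≠ ⊤ := fun h => hPF (h ▸ Submodule.mem_top)
  have hFlt : Module.finrank (ZMod p) F < 2 := by
    rw [← hrank]
    exact Submodule.finrank_lt hFtop
  have hspan_le : Submodule.span (ZMod p) {Q'} ≤ F := by
    rw [Submodule.span_singleton_le_iff_mem]
    exact hQF
  have hspan1 : Module.finrank (ZMod p) (Submodule.span (ZMod p) {Q'}) = 1 :=
    finrank_span_singleton hQ'0
  have hspan : Submodule.span (ZMod p) {Q'} = F := by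
    apply Submodule.eq_of_le_of_finrank_le hspan_le
    rw [hspan1]
    omega
  rw [← hspan, Submodule.mem_span_singleton] at hRF
  obtain ⟨a, ha⟩ := hRF
  have ha0 : a ≠ 0 := by
    rintro rfl
    rw [zero_smul] at ha
    exact hR0 ha.symm
  -- `Q = a⁻¹ R` lies in the zero component
  have hQR : Q' = (a⁻¹.val) • (σ • P' - P') := by
    rw [← ha, ← Nat.cast_smul_eq_nsmul (ZMod p), ZMod.natCast_zmod_val, smul_smul,
      inv_mul_cancel₀ ha0, one_smul]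
  have hRE0 : W.InZeroComponentAt A (σ • P - P) := by
    rw [inZeroComponentAt_iff_inE0v]
    exact inertia_sub_inE0v W hΔ hc₄ A hA σ hσ hodd P hP
  apply hQcomp
  have := inZeroComponentAt_nsmul W A hRE0 (a⁻¹.val)
  have e : Q = (a⁻¹.val) • (σ • P - P) := congrArg Subtype.val hQR
  rw [e]
  exact this

end General

/-- **(L3)**, unfolded -/
theorem l3_unfolded {p : ℕ} (hp : p.Prime) (hp2 : p ≠ 2) (W : WeierstrassCurve ℤ) (hΔ0 : W.Δ ≠ 0)
    (Q : ((W.map (Int.castRingHom ℚ))⁄(AlgebraicClosure ℚ)).Point)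
    (hfix : ∀ σ : AlgebraicClosure ℚ ≃ₐ[ℚ] AlgebraicClosure ℚ, σ • Q = Q)
    (hord : addOrderOf Q = p) (ℓ : ℕ) (hℓ : ℓ.Prime) (hℓp : ℓ ≠ p)
    (hbad : (ℓ : ℤ) ∣ W.Δ → ¬ (ℓ : ℤ) ∣ W.c₄ ∧
      ∀ A : ValuationSubring (AlgebraicClosure ℚ), A.LiesOverPrime ℓ → ¬ W.InZeroComponentAt A Q)
    (A : ValuationSubring (AlgebraicClosure ℚ)) (hA : A.LiesOverPrime ℓ)
    (σ : AlgebraicClosure ℚ ≃ₐ[ℚ] AlgebraicClosure ℚ) (hσ : σ ∈ A.inertiaSubgroupIn ℚ)
    (P : ((W.map (Int.castRingHom ℚ))⁄(AlgebraicClosure ℚ)).Point) (hP : p • P = 0) :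
    σ • P = P := by
  have : Fact p.Prime := ⟨hp⟩
  have : Fact ℓ.Prime := ⟨hℓ⟩
  obtain ⟨hQ0, hpQ⟩ := Fermat.Agent.ES12.ne_zero_and_nsmul_of_addOrderOf hp hord
  by_cases hΔ : (ℓ : ℤ) ∣ W.Δ
  · obtain ⟨hc₄, hcomp⟩ := hbad hΔ
    exact inertia_trivial_of_mult W A hΔ0 hp2 hℓp hA hΔ hc₄ hQ0 hpQ (hcomp A hA) σ hσ (hfix σ) P hP
  · exact inertia_trivial_of_good W A hℓp hA hΔ σ hσ P hP

/-- **(L3)** in the shape of `Leaves.lean`. -/
theorem l3Statement {p : ℕ} (hp : p.Prime) (hp2 : p ≠ 2) : L3Statement p :=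
  fun W hΔ0 Q hfix hord ℓ hℓ hℓp hbad A hA σ hσ P hP =>
    l3_unfolded hp hp2 W hΔ0 Q hfix hord ℓ hℓ hℓp hbad A hA σ hσ P hP

end Fermat.Agent.ES12
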