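/-
Cluster E' (Mazur), S12 side.  (FINAL) S12 from Mazur's key step (S15) and the two remaining
assemblies QUOT and DUAL; every other leaf of the chain step is plugged in here (owner: helper60).

Proven leaves used: L1 (helper45), L2 / L2p / G3 (helper75), L3 / ADM (helper75).
-/
import Fermat.Agent.E.S12.Assembly
import Fermat.Agent.E.S12.L1
import Fermat.Agent.E.S12.Comp23
import Fermat.Agent.E.S12.Unram
import Fermat.Agent.E.S12.Adm

set_option autoImplicit false

open WeierstrassCurve WeierstrassCurve.Affine WeierstrassCurve.Affine.Point

namespace Fermat.Agent.ES12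

/-- The chain step for a prime `p ≥ 17`, from Mazur's key step and the assemblies QUOT, DUAL. -/
theorem chainStep_of_quot_dual {p : ℕ} (hp : p.Prime) (hp17 : 17 ≤ p) (hM : MazurStep)
    (hQuot : QuotStatement p) (hDual : DualStatement p) : ChainStep p :=
  chainStep_of hp hp17 hM hQuot hDual (l1Statement hp (by omega)) (l2Statement hp (by omega))
    (g3Statement hp (by omega)) (l2pStatement hp (by omega)) (l3Statement hp (by omega))
    (admStatement hp (by omega))

/-- **S12 from S15, QUOT and DUAL.** -/
theorem s12_of_quot_dual (hM : MazurStep) (P : FreyPackage) (hp : 17 ≤ P.p)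
    (hQuot : QuotStatement P.p) (hDual : DualStatement P.p) :
    ¬ HasGaloisStableCofixedLine (K := AlgebraicClosure ℚ) ℚ P.freyCurve P.p :=
  s12_of hM P hp hQuot hDual (l1Statement P.pp (by omega)) (l2Statement P.pp (by omega))
    (g3Statement P.pp (by omega)) (l2pStatement P.pp (by omega)) (l3Statement P.pp (by omega))
    (admStatement P.pp (by omega))

end Fermat.Agent.ES12
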