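/-
Cluster E' (Mazur), S12 side, seat LEG (owner: helper85).  See NOTES/blueprint-E-S12.md, step 3.

An elliptic curve `W` over `ℚ` all of whose `2`-torsion points are rational and with
`v₂ (j W) < 0` is `ℚ`-isomorphic (by a `VariableChange ℚ`) to
`legCurve (d m) (d n) : y² = x (x − d m) (x + d n)` with `(m, n)` a FREY PAIR
(`m ≡ 3 mod 4`, `32 ∣ n`, coprime, `m n (m + n) ≠ 0`) and `d` a squarefree integer; and
`legCurve m n` is `ℚ`-isomorphic to `freyLike m n` (`X = 4 x`, `Y = 8 y + 4 x`).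
So `W` is the quadratic twist by `d` of `freyLike m n` (seat TW then proves `d = 1`).

Files: `Leg/Curve.lean` (`legCurve`, `freyLegVC`, `freyLegVC_smul`, `freyLike_of_leg`, the variable
changes between Legendre curves), `Leg/Arith.lean` (scaling, `32 ∣ m n (m + n)`, sign),
`Leg/Normal.lean` (root form), `Leg/Roots.lean` (rational `2`-torsion ⟹ rational roots).
-/
import Fermat.Agent.E.S12.Leg.Normal
import Fermat.Agent.E.S12.Leg.Roots

set_option autoImplicit false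

open WeierstrassCurve WeierstrassCurve.Affine

namespace Fermat.Agent.ES12

/-- **(LEG), root form.**  `W` over `ℚ` elliptic, `v₂ (j) < 0` (stated as
`3 v₂ (c₄) < v₂ (Δ)`, `c₄ ≠ 0`), and the `2`-division cubic `4 x³ + b₂ x² + 2 b₄ x + b₆` splits
over `ℚ` as `4 (x − e₁) (x − e₂) (x − e₃)`.  Then `W ≅_ℚ legCurve (d m) (d n)` with `(m, n)` a Frey
pair and `d` squarefree. -/
theorem leg_normal_form (W : WeierstrassCurve ℚ) (hΔ : W.Δ ≠ 0) (hc₄ : W.c₄ ≠ 0)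
    (hj : 3 * padicValRat 2 W.c₄ < padicValRat 2 W.Δ)
    (e₁ e₂ e₃ : ℚ)
    (h₂ : W.b₂ = -4 * (e₁ + e₂ + e₃))
    (h₄ : W.b₄ = 2 * (e₁ * e₂ + e₁ * e₃ + e₂ * e₃))
    (h₆ : W.b₆ = -4 * (e₁ * e₂ * e₃)) :
    ∃ m n d : ℤ, IsFreyPair m n ∧ Squarefree d ∧
      ∃ C : VariableChange ℚ, C • W = legCurve ((d * m : ℤ) : ℚ) ((d * n : ℤ) : ℚ) :=
  leg_normal_form_aux W hΔ hc₄ hj e₁ e₂ e₃ h₂ h₄ h₆

/-- **(LEG), Galois form.**  Same conclusion when all `2`-torsion points of `W (Q̄)` are fixed by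
`G_ℚ`. -/
theorem leg_of_two_torsion_fixed (W : WeierstrassCurve ℚ) (hΔ : W.Δ ≠ 0) (hc₄ : W.c₄ ≠ 0)
    (hj : 3 * padicValRat 2 W.c₄ < padicValRat 2 W.Δ)
    (h2 : ∀ P : (W⁄Qb).Point, 2 • P = 0 → ∀ σ : GQ, σ • P = P) :
    ∃ m n d : ℤ, IsFreyPair m n ∧ Squarefree d ∧
      ∃ C : VariableChange ℚ, C • W = legCurve ((d * m : ℤ) : ℚ) ((d * n : ℤ) : ℚ) := by
  obtain ⟨e₁, e₂, e₃, h₂, h₄, h₆⟩ := leg_roots_of_two_torsion_fixed W hΔ h2
  exact leg_normal_form W hΔ hc₄ hj e₁ e₂ e₃ h₂ h₄ h₆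

end Fermat.Agent.ES12
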