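/-
Cluster E' (Mazur), S12 side, seat TW (helper22): a quadratic twist with unipotent inertia on both
sides is trivial.  See NOTES/blueprint-E-S12.md, step 4.

`W : y² = x³ + a₂ x² + a₄ x + a₆` over `ℚ`, `quadTwist W d : y² = x³ + d a₂ x² + d² a₄ x + d³ a₆`
(so `quadTwist (Leg M N) d = Leg (d M) (d N)`).  If for every prime `l` there are a place `A` over
`l` and an odd `m > 1` such that the inertia group at `A` acts unipotently (`(σ - 1)² = 0`) on the
`m`-torsion of both curves, then `√d ∈ ℚ` (Minkowski); so `d = 1` if `d` is a squarefree integer.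

Proof: `χ_d : G_ℚ → {±1}`, `σ ↦ σ(√d)/√d`; the twist map `ψ` (`Twist/Map.lean`) satisfies
`σ ψ = χ_d(σ) ψ σ`; if `χ_d(σ) = −1` for `σ` in inertia then `(σ−1)² = 0` and `(σ+1)² = 0` on the
`m`-torsion of the twist, so `4 σ = 0` there, so the `m`-torsion is `0`: false.  So `χ_d` is
trivial on inertia everywhere, hence trivial (`Lib/Minkowski`), hence `√d ∈ ℚ`.
-/
import Mathlib
import Fermat.Agent.E.S12.Defs
import Fermat.Agent.E.S12.Twist.Defs
import Fermat.Agent.E.S12.Twist.Char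
import Fermat.Agent.E.S12.Twist.Map
import Fermat.Agent.Lib.Minkowski.Final
import Fermat.Agent.Lib.VarChange.Point
import Fermat.Agent.Lib.Torsion.Card

set_option autoImplicit false

open WeierstrassCurve WeierstrassCurve.Affine WeierstrassCurve.Affine.Point

noncomputable section

namespace Fermat.Agent.ES12

theorem quadTwist_Δ (W : WeierstrassCurve ℚ) (ha₁ : W.a₁ = 0) (ha₃ : W.a₃ = 0) (d : ℚ) :
    (quadTwist W d).Δ = d ^ 6 * W.Δ := by
  simp only [WeierstrassCurve.Δ, WeierstrassCurve.b₂, WeierstrassCurve.b₄, WeierstrassCurve.b₆,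
    WeierstrassCurve.b₈, quadTwist, ha₁, ha₃]
  ring

theorem tw_baseChange_Δ_ne_zero {W : WeierstrassCurve ℚ} (hΔ : W.Δ ≠ 0) :
    (Affine.baseChange W Qb : Affine Qb).Δ ≠ 0 := by
  change (W.map (algebraMap ℚ Qb)).Δ ≠ 0
  rw [WeierstrassCurve.map_Δ]
  exact fun h => hΔ ((map_eq_zero _).mp h)

/-- a point killed by `4` and by an odd number is zero. -/
theorem tw_eq_zero_of_four {X : Type*} [AddCommGroup X] {m : ℕ} (hm : Odd m) {P : X}
    (h4 : (4 : ℕ) • P = 0) (hmP : m • P = 0) : P = 0 := by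
  have hcop : Nat.Coprime 4 m := by
    have h2 : Nat.Coprime 2 m := Nat.coprime_two_left.mpr hm
    exact Nat.Coprime.pow_left 2 h2
  have h1 : addOrderOf P ∣ 4 := addOrderOf_dvd_of_nsmul_eq_zero h4
  have h2 : addOrderOf P ∣ m := addOrderOf_dvd_of_nsmul_eq_zero hmP
  have h3 : addOrderOf P = 1 := Nat.eq_one_of_dvd_coprimes hcop h1 h2
  exact AddMonoid.addOrderOf_eq_one_iff.mp h3

/-- **Key step**: an inertia element acting unipotently on the odd `m`-torsion of `W` and of its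
twist by `d` fixes `√d`. -/
theorem tw_fixed_of_unip {W : WeierstrassCurve ℚ} (ha₁ : W.a₁ = 0) (ha₃ : W.a₃ = 0)
    (hΔ : W.Δ ≠ 0) (d : ℚ) (hd : d ≠ 0) {s : Qb} (hs : s ^ 2 = algebraMap ℚ Qb d)
    (A : ValuationSubring Qb) {m : ℕ} (hm : Odd m) (hm1 : 1 < m)
    (h1 : UnipAt W A m) (h2 : UnipAt (quadTwist W d) A m)
    (σ : GQ) (hσ : σ ∈ A.inertiaSubgroupIn ℚ) : σ s = s := by
  rcases tw_smul_sqrt hs σ with h | hneg
  · exact h
  exfalso
  -- a nonzero `m`-torsion point of the twist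
  have hΔd : (quadTwist W d).Δ ≠ 0 := by
    rw [quadTwist_Δ W ha₁ ha₃]
    exact mul_ne_zero (pow_ne_zero 6 hd) hΔ
  have hnt := Fermat.Agent.Torsion.nontrivial_torsionBy
    (W := (Affine.baseChange (quadTwist W d) Qb : Affine Qb)) (tw_baseChange_Δ_ne_zero hΔd)
    (n := m) (by omega)
  obtain ⟨⟨P', hP'mem⟩, hP'ne⟩ := exists_ne (0 : Submodule.torsionBy ℤ
    ((quadTwist W d)⁄Qb).Point (m : ℤ))
  have hP'0 : P' ≠ 0 := fun h => hP'ne (Subtype.ext h)
  have hmP' : m • P' = 0 := by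
    rw [Submodule.mem_torsionBy_iff, natCast_zsmul] at hP'mem
    exact hP'mem
  set ψ := twMap d ha₁ ha₃ hd hs with hψ
  have hinj : Function.Injective ψ := twMap_injective d ha₁ ha₃ hd hs
  have hanti : ∀ Q, σ • ψ Q = -ψ (σ • Q) := smul_twMap_of_neg d ha₁ ha₃ hd hs hneg
  -- unipotency on `W` at `ψ P'`
  have hmP : m • ψ P' = 0 := by rw [← map_nsmul, hmP', _root_.map_zero]
  have e1 := h1 σ hσ (ψ P') hmP
  have e2 := h2 σ hσ P' hmP'
  have hσσ : σ • (σ • ψ P') = ψ (σ • (σ • P')) := by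
    rw [hanti, smul_neg, hanti, neg_neg]
  rw [hσσ, hanti] at e1
  have e1' : ψ (σ • (σ • P') + 2 • (σ • P') + P') = 0 := by
    rw [map_add, map_add, map_nsmul]
    rw [← e1]
    abel
  have e1'' : σ • (σ • P') + 2 • (σ • P') + P' = 0 :=
    hinj (e1'.trans (_root_.map_zero ψ).symm)
  have h4 : (4 : ℕ) • (σ • P') = 0 := by
    have : (4 : ℕ) • (σ • P') =
        (σ • (σ • P') + 2 • (σ • P') + P') - (σ • (σ • P') - 2 • (σ • P') + P') := by
      abel
    rw [this, e1'', e2, sub_zero]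
  have hmσ : m • (σ • P') = 0 := by
    have h := map_nsmul (DistribSMul.toAddMonoidHom ((quadTwist W d)⁄Qb).Point σ) m P'
    rw [hmP', _root_.map_zero] at h
    exact h.symm
  have hσP' : σ • P' = 0 := tw_eq_zero_of_four hm h4 hmσ
  have : P' = 0 := by
    have h := congrArg (fun Q => σ⁻¹ • Q) hσP'
    simp only [inv_smul_smul] at h
    exact h
  exact hP'0 this

/-- **(TW)** a quadratic twist by a squarefree integer `d`, with unipotent inertia on some odd
torsion level of both curves at every prime, is trivial: `d = 1`. -/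
theorem quadTwist_trivial (W : WeierstrassCurve ℚ) (ha₁ : W.a₁ = 0) (ha₃ : W.a₃ = 0)
    (hΔ : W.Δ ≠ 0) (d : ℤ) (hd : Squarefree d)
    (hunip : ∀ l : ℕ, l.Prime → ∃ A : ValuationSubring Qb, A.LiesOverPrime l ∧
      ∃ m : ℕ, Odd m ∧ 1 < m ∧ UnipAt W A m ∧ UnipAt (quadTwist W (d : ℚ)) A m) :
    d = 1 := by
  have hd0 : (d : ℚ) ≠ 0 := by exact_mod_cast hd.ne_zero
  obtain ⟨s, hs⟩ := IsAlgClosed.exists_pow_nat_eq (algebraMap ℚ Qb (d : ℚ)) (n := 2) (by norm_num)
  obtain ⟨r, hr⟩ := tw_sqrt_rational hs fun l hl => by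
    obtain ⟨A, hA, m, hm, hm1, h1, h2⟩ := hunip l hl
    exact ⟨A, hA, fun σ hσ => tw_fixed_of_unip ha₁ ha₃ hΔ (d : ℚ) hd0 hs A hm hm1 h1 h2 σ hσ⟩
  refine tw_eq_one_of_sq hd (r := r) ?_
  apply (algebraMap ℚ Qb).injective
  rw [map_pow, hr, hs]

/-- Transfer of unipotency along a Galois-equivariant homomorphism which is injective on the
`m`-torsion (e.g. an isogeny of degree prime to `m`, or an isomorphism over `ℚ`). -/
theorem unipAt_of_hom {W₁ W₂ : WeierstrassCurve ℚ} (hΔ₁ : W₁.Δ ≠ 0) (hΔ₂ : W₂.Δ ≠ 0)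
    (φ : (W₁⁄Qb).Point →+ (W₂⁄Qb).Point) (hφ : ∀ (σ : GQ) (P : (W₁⁄Qb).Point), φ (σ • P) = σ • φ P)
    {m : ℕ} (hm : 0 < m) (hker : ∀ P : (W₁⁄Qb).Point, m • P = 0 → φ P = 0 → P = 0)
    (A : ValuationSubring Qb) (h : UnipAt W₁ A m) : UnipAt W₂ A m := by
  -- `φ` restricted to the `m`-torsion
  let T₁ := Submodule.torsionBy ℤ (W₁⁄Qb).Point (m : ℤ)
  let T₂ := Submodule.torsionBy ℤ (W₂⁄Qb).Point (m : ℤ)
  have hmem : ∀ P : (W₁⁄Qb).Point, P ∈ T₁ → φ P ∈ T₂ := by
    intro P hP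
    rw [Submodule.mem_torsionBy_iff] at hP ⊢
    rw [← map_zsmul, hP, _root_.map_zero]
  let f : T₁ → T₂ := fun P => ⟨φ P.1, hmem P.1 P.2⟩
  have hfinj : Function.Injective f := by
    intro P Q hPQ
    have h1 : φ P.1 = φ Q.1 := congrArg Subtype.val hPQ
    have h2 : φ (P.1 - Q.1) = 0 := by rw [map_sub, h1, sub_self]
    have h3 : m • (P.1 - Q.1) = 0 := by
      have hP := P.2
      have hQ := Q.2
      rw [Submodule.mem_torsionBy_iff, natCast_zsmul] at hP hQ
      rw [nsmul_sub, hP, hQ, sub_zero]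
    exact Subtype.ext (sub_eq_zero.mp (hker _ h3 h2))
  have hc₁ : Nat.card T₁ = m ^ 2 :=
    Fermat.Agent.Torsion.card_torsionBy (W := (Affine.baseChange W₁ Qb : Affine Qb))
      (tw_baseChange_Δ_ne_zero hΔ₁) hm
  have hc₂ : Nat.card T₂ = m ^ 2 :=
    Fermat.Agent.Torsion.card_torsionBy (W := (Affine.baseChange W₂ Qb : Affine Qb))
      (tw_baseChange_Δ_ne_zero hΔ₂) hm
  have : Finite T₂ := Fermat.Agent.Torsion.finite_torsionBy
    (W := (Affine.baseChange W₂ Qb : Affine Qb)) (tw_baseChange_Δ_ne_zero hΔ₂) hm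
  have hfbij : Function.Bijective f :=
    hfinj.bijective_of_nat_card_le (by rw [hc₁, hc₂])
  intro σ hσ Q hQ
  have hQmem : Q ∈ T₂ := by
    rw [Submodule.mem_torsionBy_iff, natCast_zsmul]
    exact hQ
  obtain ⟨P, hP⟩ := hfbij.2 ⟨Q, hQmem⟩
  have hPQ : φ P.1 = Q := congrArg Subtype.val hP
  have hmP : m • P.1 = 0 := by
    have := P.2
    rw [Submodule.mem_torsionBy_iff, natCast_zsmul] at this
    exact this
  have e := h σ hσ P.1 hmP
  have e' := congrArg φ e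
  rw [map_add, map_sub, map_nsmul, _root_.map_zero] at e'
  rw [hφ, hφ, hPQ] at e'
  exact e'

end Fermat.Agent.ES12
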