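/-
Cluster E' (Mazur), S12 side, seat QUOT (helper22): the quotient of a Frey-type curve by a
Galois-stable subgroup of order `p`, put back in Frey form.  Assembly of
V1 + V1Q (`VeluQStatement`), L0 (`AtTwoStatement`), V1x (`VeluXRatStatement`), LEG
(`leg_of_two_torsion_fixed`), TW (`leg_twist_trivial`); see NOTES/blueprint-E-S12.md, steps 1–4.
-/
import Mathlib
import Fermat.Agent.E.S12.Leaves
import Fermat.Agent.E.S12.Quot.Spec
import Fermat.Agent.E.S12.Quot.Unip
import Fermat.Agent.E.S12.Quot.TwistLeg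
import Fermat.Agent.E.S12.Quot.VcSurj
import Fermat.Agent.E.S12.Leg.TwoTorsion
import Fermat.Agent.Lib.Frobenius.Exists

set_option autoImplicit false

open WeierstrassCurve WeierstrassCurve.Affine WeierstrassCurve.Affine.Point

noncomputable section

namespace Fermat.Agent.ES12

open Fermat.Agent.EV Fermat.Agent.VarChange

/-- an element of a subgroup of order `p` is killed by `p`. -/
theorem quot_nsmul_eq_zero_of_mem {X : Type*} [AddCommGroup X] (N₀ : AddSubgroup X) {p : ℕ}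
    (hcard : Nat.card N₀ = p) {P : X} (hP : P ∈ N₀) : p • P = 0 := by
  have h := card_nsmul_eq_zero' (G := N₀) (x := ⟨P, hP⟩)
  rw [hcard] at h
  exact congrArg Subtype.val h

/-- a point killed by two coprime numbers is zero. -/
theorem quot_eq_zero_of_coprime {X : Type*} [AddCommGroup X] {k p : ℕ} (h : Nat.Coprime k p)
    {P : X} (hk : k • P = 0) (hp : p • P = 0) : P = 0 := by
  have h1 : addOrderOf P ∣ k := addOrderOf_dvd_of_nsmul_eq_zero hk
  have h2 : addOrderOf P ∣ p := addOrderOf_dvd_of_nsmul_eq_zero hp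
  exact AddMonoid.addOrderOf_eq_one_iff.mp (Nat.eq_one_of_dvd_coprimes h h1 h2)

/-- rewriting the `x`-coordinate of an affine point. -/
theorem quot_some_congr {W : Affine Qb} {X X' Y : Qb} (h : W.Nonsingular X Y) (hX : X = X') :
    ∃ h' : W.Nonsingular X' Y, (Point.some X Y h : W.Point) = .some X' Y h' := by
  subst hX
  exact ⟨h, rfl⟩

/-- **(QUOT)** from its inputs. -/
theorem quotStatement_of {p : ℕ} (hp : p.Prime) (hp2 : p ≠ 2)
    (hVQ : VeluQStatement) (hL0 : AtTwoStatement p) (hX : VeluXRatStatement) :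
    QuotStatement p := by
  intro A B hAB N₀ hcard hstab
  have hΔ : ((freyLike A B).map (Int.castRingHom ℚ)).Δ ≠ 0 := by
    rw [WeierstrassCurve.map_Δ]
    simpa using freyLike_Δ_ne_zero hAB
  have hfinN : Finite N₀ := Nat.finite_of_card_ne_zero (by rw [hcard]; exact hp.ne_zero)
  have hfin : (N₀ : Set (Pts (freyLike A B))).Finite := Set.toFinite _
  have hodd : Odd p := hp.odd_of_ne_two hp2
  have hoddN : Odd (Nat.card N₀) := by rw [hcard]; exact hodd
  obtain ⟨W', hΔ', hW', φ₀, hsurj, hker, heq, hxmap⟩ :=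
    hVQ ((freyLike A B).map (Int.castRingHom ℚ)) hΔ N₀ hfin hoddN hstab
  obtain ⟨hc₄, hj⟩ := hL0 A B hAB N₀ hcard hstab W' hW'
  have hkerp : ∀ P : Pts (freyLike A B), φ₀ P = 0 → p • P = 0 := by
    intro P hP
    have hmem : P ∈ N₀ := by rw [← hker]; exact hP
    exact quot_nsmul_eq_zero_of_mem N₀ hcard hmem
  have h2 : ∀ Q : (W'⁄Qb).Point, 2 • Q = 0 → ∀ σ : GQ, σ • Q = Q :=
    leg_two_torsion_fixed_of_hom φ₀ hsurj heq p hodd hkerp (freyLike_two_torsion_fixed A B hAB)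
  obtain ⟨m, n, d, hmn, hd, C, hC⟩ := leg_of_two_torsion_fixed W' hΔ' hc₄ hj h2
  have hunip : ∀ ℓ k : ℕ, ℓ.Prime → k.Prime → k ≠ 2 → ℓ ≠ k → k ≠ p →
      ∃ Av : ValuationSubring Qb, Av.LiesOverPrime ℓ ∧ UnipAt W' Av k := by
    intro ℓ k hℓ hk hk2 hℓk hkp
    obtain ⟨Av, hAv⟩ := Fermat.Agent.FrobExists.exists_valuationSubring_liesOver ℓ hℓ
    refine ⟨Av, hAv, unipAt_of_hom hΔ hΔ' φ₀ heq hk.pos ?_ Av
      (unipAt_of_semistable (freyLike A B) hℓ hk hk2 hℓk (freyLike_semistable hAB hℓ) Av hAv)⟩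
    intro P hkP hφP
    exact quot_eq_zero_of_coprime ((Nat.coprime_primes hk hp).mpr hkp) hkP (hkerp P hφP)
  obtain ⟨-, hF⟩ := leg_twist_trivial W' hΔ' m n d hmn hd C hC p hunip
  -- the final isogeny
  set ψ : (W'⁄Qb).Point →+ Pts (freyLike m n) := vcHomBC (K := Qb) (freyLegVC⁻¹ * C) hF with hψ
  have hψinj : Function.Injective ψ := vcHomBC_injective _ hF
  have hψsurj : Function.Surjective ψ := vcHomBC_surjective _ hF
  have hΔQb : (CurveQb (freyLike A B)).Δ ≠ 0 := tw_baseChange_Δ_ne_zero hΔ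
  obtain ⟨n₀, d₀, hnd⟩ := hX (CurveQb (freyLike A B)) hΔQb N₀ hfin hoddN
  set D : VariableChange Qb := ((freyLegVC⁻¹ * C)⁻¹).baseChange Qb with hD
  refine ⟨m, n, hmn, ψ.comp φ₀, hψsurj.comp hsurj, ?_, ?_,
    Polynomial.C ((D.u : Qb) ^ 2) * n₀ + Polynomial.C D.r * d₀, d₀, ?_⟩
  · -- kernel
    ext P
    rw [AddMonoidHom.mem_ker, AddMonoidHom.comp_apply, ← hker, AddMonoidHom.mem_ker]
    constructor
    · intro h
      exact hψinj (h.trans (_root_.map_zero ψ).symm)
    · intro h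
      rw [h, _root_.map_zero]
  · -- equivariance
    intro σ P
    rw [AddMonoidHom.comp_apply, AddMonoidHom.comp_apply, heq]
    rw [algEquiv_smul_def, algEquiv_smul_def]
    exact vcHomBC_map _ hF σ.toAlgHom (φ₀ P)
  · -- the `x`-map
    intro x y h hP
    obtain ⟨hd₀, hx⟩ := hnd x y h hP
    obtain ⟨y', h', hφ⟩ := hxmap x y h hP
    refine ⟨hd₀, ?_⟩
    obtain ⟨h'', hψ'⟩ := vcHomBC_some (K := Qb) (freyLegVC⁻¹ * C) hF h'
    have hXeq : vcX D (veluX (CurveQb (freyLike A B)) (N₀ : Set (Pts (freyLike A B)))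
        (.some x y h)) = (Polynomial.C ((D.u : Qb) ^ 2) * n₀ + Polynomial.C D.r * d₀).eval x
          / d₀.eval x := by
      rw [hx]
      simp only [vcX, Polynomial.eval_add, Polynomial.eval_mul, Polynomial.eval_C]
      field_simp
    obtain ⟨h3, h4⟩ := quot_some_congr h'' hXeq
    exact ⟨_, h3, by rw [AddMonoidHom.comp_apply, hφ, hψ', h4]⟩

end Fermat.Agent.ES12
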