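/-
Cluster E' (Mazur), S12 side, seat V1Q (owner: helper72): descent of the Vélu quotient to `ℚ`.

`veluQ : VeluStatement → VeluQStatement` (shapes: `E/S12/VeluSpec.lean`, `E/S12/Quot/Spec.lean`).

`W / ℚ`, `N₀ ⊂ W(Q̄)` a finite Galois-stable subgroup of odd order.  Vélu's sums `t`, `w` are
Galois-fixed (`σ` permutes `N₀ \ 0`), hence rational; `W' := (a₁, a₂, a₃, a₄ − 5 t, a₆ − b₂ t − 7 w)`
over `ℚ` has base change `veluCurve (W⁄Q̄) N₀`; the isogeny of `VeluHom` is transported along this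
equality of curves (identity on coordinates) and is Galois-equivariant because
`veluX (σ P) = σ (veluX P)`, `veluY (σ P) = σ (veluY P)`.
-/
import Fermat.Agent.E.S12.Quot.Spec

set_option autoImplicit false
set_option linter.unusedSectionVars false

open WeierstrassCurve WeierstrassCurve.Affine WeierstrassCurve.Affine.Point

namespace Fermat.Agent.ES12

open Fermat.Agent.EV

/-- An element of `Q̄` fixed by the whole Galois group is rational. -/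
theorem veluQ_exists_rat_of_fixed (x : Qb) (hx : ∀ σ : GQ, σ x = x) :
    ∃ r : ℚ, algebraMap ℚ Qb r = x := by
  have h1 : Algebra.IsAlgebraic ℚ (AlgebraicClosure ℚ) := AlgebraicClosure.isAlgebraic ℚ
  have h2 : IsAlgClosure ℚ (AlgebraicClosure ℚ) := ⟨inferInstance, h1⟩
  have h3 : IsGalois ℚ (AlgebraicClosure ℚ) := IsAlgClosure.isGalois ℚ (AlgebraicClosure ℚ)
  exact (InfiniteGalois.mem_range_algebraMap_iff_fixed (k := ℚ) (K := AlgebraicClosure ℚ) x).mpr hx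

/-- Transport of points along an equality of curves: the identity on coordinates. -/
theorem veluQ_transport {K : Type*} [Field K] [DecidableEq K] {V V' : Affine K} (h : V = V') :
    ∃ e : V.Point ≃+ V'.Point, ∀ (x y : K) (hxy : V.Nonsingular x y),
      ∃ hxy' : V'.Nonsingular x y, e (Point.some x y hxy) = Point.some x y hxy' := by
  subst h
  exact ⟨AddEquiv.refl _, fun x y hxy => ⟨hxy, rfl⟩⟩

section Galois

variable {W : WeierstrassCurve ℚ}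

theorem veluQ_ptX_smul (σ : GQ) (P : (W⁄Qb).Point) : ptX (σ • P) = σ (ptX P) := by
  rw [Point.algEquiv_smul_def]
  rcases P with _ | ⟨x, y, h⟩
  · show ptX (Point.map _ (0 : (W⁄Qb).Point)) = σ 0
    rw [_root_.map_zero, _root_.map_zero]
    rfl
  · rw [Point.map_some]
    rfl

theorem veluQ_ptY_smul (σ : GQ) (P : (W⁄Qb).Point) : ptY (σ • P) = σ (ptY P) := by
  rw [Point.algEquiv_smul_def]
  rcases P with _ | ⟨x, y, h⟩
  · show ptY (Point.map _ (0 : (W⁄Qb).Point)) = σ 0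
    rw [_root_.map_zero, _root_.map_zero]
    rfl
  · rw [Point.map_some]
    rfl

theorem veluQ_smul_some (σ : GQ) {x y : Qb} (h : (W⁄Qb).Nonsingular x y) :
    ∃ h' : (W⁄Qb).Nonsingular (σ x) (σ y),
      σ • (Point.some x y h : (W⁄Qb).Point) = Point.some (σ x) (σ y) h' := by
  rw [Point.algEquiv_smul_def, Point.map_some]
  exact ⟨_, rfl⟩

theorem veluQ_smul_mem_iff {N₀ : AddSubgroup (W⁄Qb).Point}
    (hstab : ∀ σ : GQ, ∀ P ∈ N₀, σ • P ∈ N₀) (σ : GQ) (P : (W⁄Qb).Point) :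
    σ • P ∈ N₀ ↔ P ∈ N₀ := by
  refine ⟨fun h => ?_, hstab σ P⟩
  have := hstab σ⁻¹ _ h
  rwa [inv_smul_smul] at this

theorem veluQ_bijOn {N₀ : AddSubgroup (W⁄Qb).Point}
    (hstab : ∀ σ : GQ, ∀ P ∈ N₀, σ • P ∈ N₀) (σ : GQ) :
    Set.BijOn (fun P : (W⁄Qb).Point => σ • P) {Q | Q ∈ N₀ ∧ Q ≠ 0} {Q | Q ∈ N₀ ∧ Q ≠ 0} := by
  refine ⟨?_, (MulAction.injective σ).injOn, ?_⟩
  · rintro Q ⟨hQ, hQ0⟩
    exact ⟨hstab σ Q hQ, fun h0 => hQ0 ((smul_eq_zero_iff_eq σ).mp h0)⟩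
  · rintro Q ⟨hQ, hQ0⟩
    refine ⟨σ⁻¹ • Q, ⟨hstab σ⁻¹ Q hQ, fun h0 => hQ0 ((smul_eq_zero_iff_eq σ⁻¹).mp h0)⟩, ?_⟩
    exact smul_inv_smul σ Q

/-- Galois action on a sum over the nonzero points of a Galois-stable finite subgroup. -/
theorem veluQ_map_finsum {N₀ : AddSubgroup (W⁄Qb).Point}
    (hfin : (N₀ : Set (W⁄Qb).Point).Finite) (hstab : ∀ σ : GQ, ∀ P ∈ N₀, σ • P ∈ N₀)
    (σ : GQ) (F G : (W⁄Qb).Point → Qb) (hFG : ∀ Q : (W⁄Qb).Point, σ (F Q) = G (σ • Q)) :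
    σ (∑ᶠ (Q : (W⁄Qb).Point) (_ : Q ∈ (N₀ : Set (W⁄Qb).Point) ∧ Q ≠ 0), F Q)
      = ∑ᶠ (Q : (W⁄Qb).Point) (_ : Q ∈ (N₀ : Set (W⁄Qb).Point) ∧ Q ≠ 0), G Q := by
  have hfin' : ({Q | Q ∈ N₀ ∧ Q ≠ 0} : Set (W⁄Qb).Point).Finite :=
    hfin.subset fun _ hQ => hQ.1
  have h1 : σ (∑ᶠ Q ∈ ({Q | Q ∈ N₀ ∧ Q ≠ 0} : Set (W⁄Qb).Point), F Q)
      = ∑ᶠ Q ∈ ({Q | Q ∈ N₀ ∧ Q ≠ 0} : Set (W⁄Qb).Point), σ (F Q) :=
    AddMonoidHom.map_finsum_mem F (σ : Qb ≃+* Qb).toAddMonoidHom hfin'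
  have h2 : ∑ᶠ Q ∈ ({Q | Q ∈ N₀ ∧ Q ≠ 0} : Set (W⁄Qb).Point), σ (F Q)
      = ∑ᶠ Q ∈ ({Q | Q ∈ N₀ ∧ Q ≠ 0} : Set (W⁄Qb).Point), G Q :=
    finsum_mem_eq_of_bijOn (fun P : (W⁄Qb).Point => σ • P) (veluQ_bijOn hstab σ)
      (fun Q _ => hFG Q)
  exact h1.trans h2

theorem veluQ_b₂ (σ : GQ) : σ (W⁄Qb).b₂ = (W⁄Qb).b₂ := by
  rw [show (W⁄Qb).b₂ = algebraMap ℚ Qb W.b₂ from WeierstrassCurve.map_b₂ W _]
  exact σ.commutes _

theorem veluQ_b₄ (σ : GQ) : σ (W⁄Qb).b₄ = (W⁄Qb).b₄ := by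
  rw [show (W⁄Qb).b₄ = algebraMap ℚ Qb W.b₄ from WeierstrassCurve.map_b₄ W _]
  exact σ.commutes _

theorem veluQ_b₆ (σ : GQ) : σ (W⁄Qb).b₆ = (W⁄Qb).b₆ := by
  rw [show (W⁄Qb).b₆ = algebraMap ℚ Qb W.b₆ from WeierstrassCurve.map_b₆ W _]
  exact σ.commutes _

theorem veluQ_veluT_smul (σ : GQ) (P : (W⁄Qb).Point) :
    σ (veluT (W⁄Qb) P) = veluT (W⁄Qb) (σ • P) := by
  unfold veluT
  rw [veluQ_ptX_smul]
  simp only [map_add, map_mul, map_pow, map_ofNat, veluQ_b₂, veluQ_b₄]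

theorem veluQ_veluU_smul (σ : GQ) (P : (W⁄Qb).Point) :
    σ (veluU (W⁄Qb) P) = veluU (W⁄Qb) (σ • P) := by
  unfold veluU
  rw [veluQ_ptX_smul]
  simp only [map_add, map_mul, map_pow, map_ofNat, veluQ_b₂, veluQ_b₄, veluQ_b₆]

variable {N₀ : AddSubgroup (W⁄Qb).Point} (hfin : (N₀ : Set (W⁄Qb).Point).Finite)
  (hstab : ∀ σ : GQ, ∀ P ∈ N₀, σ • P ∈ N₀)

include hfin hstab in
theorem veluQ_veluSumT_fixed (σ : GQ) :
    σ (veluSumT (W⁄Qb) (N₀ : Set (W⁄Qb).Point)) = veluSumT (W⁄Qb) (N₀ : Set (W⁄Qb).Point) := by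
  unfold veluSumT
  rw [map_div₀, map_ofNat, veluQ_map_finsum hfin hstab σ _ _ (veluQ_veluT_smul σ)]

include hfin hstab in
theorem veluQ_veluSumW_fixed (σ : GQ) :
    σ (veluSumW (W⁄Qb) (N₀ : Set (W⁄Qb).Point)) = veluSumW (W⁄Qb) (N₀ : Set (W⁄Qb).Point) := by
  unfold veluSumW
  rw [map_div₀, map_ofNat, veluQ_map_finsum hfin hstab σ _
    (fun Q => veluU (W⁄Qb) Q + ptX Q * veluT (W⁄Qb) Q) (fun Q => by
      rw [map_add, map_mul, veluQ_veluU_smul, veluQ_veluT_smul, veluQ_ptX_smul])]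

include hfin hstab in
theorem veluQ_veluX_smul (σ : GQ) (P : (W⁄Qb).Point) :
    σ (veluX (W⁄Qb) (N₀ : Set (W⁄Qb).Point) P) = veluX (W⁄Qb) (N₀ : Set (W⁄Qb).Point) (σ • P) := by
  unfold veluX
  rw [map_add, veluQ_ptX_smul, veluQ_map_finsum hfin hstab σ _
    (fun Q => ptX (σ • P + Q) - ptX Q) (fun Q => by
      rw [map_sub, ← veluQ_ptX_smul, ← veluQ_ptX_smul,
        show σ • (P + Q) = σ • P + σ • Q from smul_add σ P Q])]

include hfin hstab in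
theorem veluQ_veluY_smul (σ : GQ) (P : (W⁄Qb).Point) :
    σ (veluY (W⁄Qb) (N₀ : Set (W⁄Qb).Point) P) = veluY (W⁄Qb) (N₀ : Set (W⁄Qb).Point) (σ • P) := by
  unfold veluY
  rw [map_add, veluQ_ptY_smul, veluQ_map_finsum hfin hstab σ _
    (fun Q => ptY (σ • P + Q) - ptY Q) (fun Q => by
      rw [map_sub, ← veluQ_ptY_smul, ← veluQ_ptY_smul,
        show σ • (P + Q) = σ • P + σ • Q from smul_add σ P Q])]

end Galois

/-- **(V1 + V1Q)** -/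
theorem veluQ (hV : VeluStatement) : VeluQStatement := by
  intro W hΔ N₀ hfin hodd hstab
  have hΔ' : (W⁄Qb).Δ ≠ 0 := by
    rw [show (W⁄Qb).Δ = algebraMap ℚ Qb W.Δ from WeierstrassCurve.map_Δ W _]
    simpa using hΔ
  obtain ⟨hΔV, φ₀, hsurj, hker, hφ₀⟩ := hV Qb (W⁄Qb) hΔ' N₀ hfin hodd
  obtain ⟨t₀, ht₀⟩ := veluQ_exists_rat_of_fixed _ (veluQ_veluSumT_fixed hfin hstab)
  obtain ⟨w₀, hw₀⟩ := veluQ_exists_rat_of_fixed _ (veluQ_veluSumW_fixed hfin hstab)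
  let W' : WeierstrassCurve ℚ :=
    { a₁ := W.a₁
      a₂ := W.a₂
      a₃ := W.a₃
      a₄ := W.a₄ - 5 * t₀
      a₆ := W.a₆ - W.b₂ * t₀ - 7 * w₀ }
  have hW' : (W'.map (algebraMap ℚ Qb) : WeierstrassCurve Qb)
      = veluCurve (W⁄Qb) (N₀ : Set (W⁄Qb).Point) := by
    ext
    · rfl
    · rfl
    · rfl
    · show algebraMap ℚ Qb (W.a₄ - 5 * t₀) = (W⁄Qb).a₄ - 5 * veluSumT (W⁄Qb) _
      rw [map_sub, map_mul, ht₀, map_ofNat]
      rfl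
    · show algebraMap ℚ Qb (W.a₆ - W.b₂ * t₀ - 7 * w₀)
        = (W⁄Qb).a₆ - (W⁄Qb).b₂ * veluSumT (W⁄Qb) _ - 7 * veluSumW (W⁄Qb) _
      rw [map_sub, map_sub, map_mul, map_mul, ht₀, hw₀, map_ofNat,
        show (W⁄Qb).b₂ = algebraMap ℚ Qb W.b₂ from WeierstrassCurve.map_b₂ W _]
      rfl
  have hΔW' : W'.Δ ≠ 0 := by
    intro h0
    apply hΔV
    rw [← hW', WeierstrassCurve.map_Δ, h0, _root_.map_zero]
  obtain ⟨e, he⟩ := veluQ_transport (V := veluCurve (W⁄Qb) (N₀ : Set (W⁄Qb).Point))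
    (V' := (W'⁄Qb)) hW'.symm
  refine ⟨W', hΔW', hW', e.toAddMonoidHom.comp φ₀, ?_, ?_, ?_, ?_⟩
  · exact e.surjective.comp hsurj
  · ext P
    rw [AddMonoidHom.mem_ker]
    constructor
    · intro h
      have h1 : φ₀ P = 0 := (EmbeddingLike.map_eq_zero_iff (f := e)).mp h
      have h2 : P ∈ φ₀.ker := h1
      rwa [hker] at h2
    · intro h
      have h2 : P ∈ φ₀.ker := by rw [hker]; exact h
      show e (φ₀ P) = 0
      rw [AddMonoidHom.mem_ker.mp h2, _root_.map_zero]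
  · intro σ P
    show e (φ₀ (σ • P)) = σ • e (φ₀ P)
    by_cases hP : P ∈ N₀
    · have hσP : σ • P ∈ N₀ := hstab σ P hP
      have h1 : φ₀ P = 0 := by rw [← AddMonoidHom.mem_ker, hker]; exact hP
      have h2 : φ₀ (σ • P) = 0 := by rw [← AddMonoidHom.mem_ker, hker]; exact hσP
      rw [h1, h2, _root_.map_zero, smul_zero]
    · have hσP : σ • P ∉ N₀ := fun h => hP ((veluQ_smul_mem_iff hstab σ P).mp h)
      obtain ⟨h1, hφP⟩ := hφ₀ P hP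
      obtain ⟨h2, hφσP⟩ := hφ₀ (σ • P) hσP
      obtain ⟨h1', he1⟩ := he _ _ h1
      obtain ⟨h2', he2⟩ := he _ _ h2
      rw [hφP, hφσP, he1, he2]
      obtain ⟨h3, hs⟩ := veluQ_smul_some (W := W') σ h1'
      rw [hs]
      simp only [Point.some.injEq]
      exact ⟨(veluQ_veluX_smul hfin hstab σ P).symm, (veluQ_veluY_smul hfin hstab σ P).symm⟩
  · intro x y h hP
    obtain ⟨h1, hφP⟩ := hφ₀ _ hP
    obtain ⟨h1', he1⟩ := he _ _ h1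
    exact ⟨_, h1', by show e (φ₀ _) = _; rw [hφP, he1]⟩

end Fermat.Agent.ES12
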