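/-
Cluster E' (Mazur), S12 side.  (MAIN) S12 from Mazur's key step (S15) ALONE: the assemblies QUOT
(helper22) and DUAL (helper4) with Vélu's theorem (V1, helper52/64) and Vélu's `x`-formula (V1x)
plugged in (owner: helper60).
-/
import Fermat.Agent.E.S12.Final
import Fermat.Agent.E.S12.Quot.Final
import Fermat.Agent.E.S12.Dual
import Fermat.Agent.E.Velu.Final

set_option autoImplicit false

open WeierstrassCurve WeierstrassCurve.Affine WeierstrassCurve.Affine.Point

namespace Fermat.Agent.ES12

open Fermat.Agent.EV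

/-- **(V1x)** over `ℚ̄`, for every finite subgroup. -/
theorem veluXFormula_Qb (W : Affine (AlgebraicClosure ℚ)) (_ : W.Δ ≠ 0)
    (C : AddSubgroup W.Point) (hfin : (C : Set W.Point).Finite) (_ : Odd (Nat.card C)) :
    VeluXFormula W C :=
  Fermat.Agent.Velu.veluXFormula W C hfin two_ne_zero

/-- **(QUOT)**, unconditional. -/
theorem quotStatement_main {p : ℕ} (hp : p.Prime) (hp2 : p ≠ 2) : QuotStatement p :=
  quotStatement hp hp2 Fermat.Agent.Velu.veluStatement veluXFormula_Qb

/-- **(DUAL)**, unconditional. -/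
theorem dualStatement_main {p : ℕ} (hp : p.Prime) (hp2 : p ≠ 2) : DualStatement p :=
  Fermat.Agent.ED.dualStatement_of p hp hp2 Fermat.Agent.Velu.veluStatement veluXFormula_Qb

/-- The chain step for a prime `p ≥ 17`, from Mazur's key step. -/
theorem chainStep_of_mazurStep {p : ℕ} (hp : p.Prime) (hp17 : 17 ≤ p) (hM : MazurStep) :
    ChainStep p :=
  chainStep_of_quot_dual hp hp17 hM (quotStatement_main hp (by omega))
    (dualStatement_main hp (by omega))

/-- **S12 from S15.** -/
theorem s12_of_mazurStep (hM : MazurStep) (P : FreyPackage) (hp : 17 ≤ P.p) :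
    ¬ HasGaloisStableCofixedLine (K := AlgebraicClosure ℚ) ℚ P.freyCurve P.p :=
  s12_of_quot_dual hM P hp (quotStatement_main P.pp (by omega))
    (dualStatement_main P.pp (by omega))

end Fermat.Agent.ES12
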